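/-
DS-C = Chebotarev density theorem over ℚ in Dirichlet-density form (project DS = S48, lead brief #18).
Shared definitions: the density vocabulary (finite-subset form, no `tsum`, no summability side
conditions for the consumers) and the two top statements of the cell.

* `dsc_UpperDensityLE X η` : the set `X` of primes has upper Dirichlet density `≤ η`;
* `dsc_LowerDensityGE X δ` : the set `X` of primes has lower Dirichlet density `≥ δ`;
* `dsc_Chebotarev`         : the export to DS-G, in the vocabulary of the prelude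
                             (`GaloisFactorsThroughFiniteLevel`, `LiesOverPrime`, `IsFrobeniusAt`);
* `dsc_NF`                 : the number-field form (vocabulary of `WC/Defs.lean`).
Convention = helper6's proposal (DS-G architecture v1, seam (C)), adopted verbatim.
Owner: helper19 (DS-C architect).  Prefix `dsc_`.
-/
import Mathlib
import Fermat.Prelude.Def_GaloisRep_Residual
import Fermat.Agent.WC.Defs
import Fermat.Agent.DS.Defs

set_option autoImplicit false

namespace Fermat.Agent.DS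

open Fermat.Agent.WC

local notation "GQ" => (AlgebraicClosure ℚ ≃ₐ[ℚ] AlgebraicClosure ℚ)

/-- The set `X` of primes has upper Dirichlet density `≤ η`: for every `ε > 0`, for `s > 1` close
to `1`, every finite sum `∑_{p ∈ P} p^{-s}` over primes of `X` is `≤ (η + ε) log (1/(s-1))`. -/
def dsc_UpperDensityLE (X : Set ℕ) (η : ℝ) : Prop :=
  ∀ ε : ℝ, 0 < ε → ∃ s₀ : ℝ, 1 < s₀ ∧ ∀ s : ℝ, 1 < s → s < s₀ →
    ∀ P : Finset ℕ, (∀ p ∈ P, p.Prime ∧ p ∈ X) →
      ∑ p ∈ P, 1 / (p : ℝ) ^ s ≤ (η + ε) * Real.log (1 / (s - 1))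

/-- The set `X` of primes has lower Dirichlet density `≥ δ`: for every `ε > 0`, for `s > 1` close
to `1`, some finite sum `∑_{p ∈ P} p^{-s}` over primes of `X` is `≥ (δ - ε) log (1/(s-1))`. -/
def dsc_LowerDensityGE (X : Set ℕ) (δ : ℝ) : Prop :=
  ∀ ε : ℝ, 0 < ε → ∃ s₀ : ℝ, 1 < s₀ ∧ ∀ s : ℝ, 1 < s → s < s₀ →
    ∃ P : Finset ℕ, (∀ p ∈ P, p.Prime ∧ p ∈ X) ∧
      (δ - ε) * Real.log (1 / (s - 1)) ≤ ∑ p ∈ P, 1 / (p : ℝ) ^ s

/-- **Chebotarev's density theorem over `ℚ`** (lower-density form for conjugation-stable sets), in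
the vocabulary of the prelude: the export of DS-C to DS-G. -/
def dsc_Chebotarev : Prop :=
  ∀ (G : Type) [Group G] [Finite G] (r : GQ →* G), GaloisFactorsThroughFiniteLevel r →
    Function.Surjective r → ∀ C : Set G, (∀ g x : G, x ∈ C → g * x * g⁻¹ ∈ C) →
      dsc_LowerDensityGE
        {p : ℕ | p.Prime ∧ ∀ A : ValuationSubring (AlgebraicClosure ℚ), A.LiesOverPrime p →
          ∀ σ : GQ, A.IsFrobeniusAt σ p → r σ ∈ C}
        ((Nat.card C : ℝ) / (Nat.card G : ℝ))

/-- **Chebotarev's density theorem, number-field form**: `L/ℚ` a Galois number field,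
`C ⊆ Gal(L/ℚ)` stable under conjugation; the primes `p` unramified in `L` all of whose Frobenius
elements lie in `C` have lower Dirichlet density `≥ |C| / |G|`. -/
def dsc_NF : Prop :=
  ∀ (L : Type) [Field L] [NumberField L] [IsGalois ℚ L] (C : Set (L ≃ₐ[ℚ] L)),
    (∀ g x : L ≃ₐ[ℚ] L, x ∈ C → g * x * g⁻¹ ∈ C) →
      dsc_LowerDensityGE
        {p : ℕ | p.Prime ∧ wc_Unram L p ∧ ∀ P : Ideal (NumberField.RingOfIntegers L),
          P.IsPrime → (p : NumberField.RingOfIntegers L) ∈ P →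
            ∀ g : L ≃ₐ[ℚ] L, wc_IsFrob g P p → g ∈ C}
        ((Nat.card C : ℝ) / (Nat.card (L ≃ₐ[ℚ] L) : ℝ))

/-- Lower density is monotone in the set. -/
theorem dsc_lowerDensityGE_mono {X Y : Set ℕ} (hXY : X ⊆ Y) {δ : ℝ}
    (h : dsc_LowerDensityGE X δ) : dsc_LowerDensityGE Y δ := by
  intro ε hε
  obtain ⟨s₀, hs₀, h1⟩ := h ε hε
  refine ⟨s₀, hs₀, fun s hs hss => ?_⟩
  obtain ⟨P, hP, hle⟩ := h1 s hs hss
  exact ⟨P, fun p hp => ⟨(hP p hp).1, hXY (hP p hp).2⟩, hle⟩

/-- Lower density is antitone in the bound. -/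
theorem dsc_lowerDensityGE_le {X : Set ℕ} {δ δ' : ℝ} (hδ : δ' ≤ δ)
    (h : dsc_LowerDensityGE X δ) : dsc_LowerDensityGE X δ' := by
  intro ε hε
  obtain ⟨s₀, hs₀, h1⟩ := h ε hε
  refine ⟨min s₀ 2, lt_min hs₀ one_lt_two, fun s hs hss => ?_⟩
  obtain ⟨P, hP, hle⟩ := h1 s hs (hss.trans_le (min_le_left _ _))
  refine ⟨P, hP, le_trans ?_ hle⟩
  have hlog : 0 ≤ Real.log (1 / (s - 1)) := by
    apply Real.log_nonneg
    have h2 : s - 1 < 1 := by linarith [hss.trans_le (min_le_right s₀ 2)]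
    have h3 : 0 < s - 1 := by linarith
    rw [le_div_iff₀ h3]
    linarith
  exact mul_le_mul_of_nonneg_right (by linarith) hlog

/-- Upper density is antitone in the set. -/
theorem dsc_upperDensityLE_mono {X Y : Set ℕ} (hXY : X ⊆ Y) {η : ℝ}
    (h : dsc_UpperDensityLE Y η) : dsc_UpperDensityLE X η := by
  intro ε hε
  obtain ⟨s₀, hs₀, h1⟩ := h ε hε
  exact ⟨s₀, hs₀, fun s hs hss P hP =>
    h1 s hs hss P fun p hp => ⟨(hP p hp).1, hXY (hP p hp).2⟩⟩

/-! ### Density of a function of `s` -/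

open Filter Topology

/-- `F s = c · log (1/(s-1)) + o(log (1/(s-1)))` as `s → 1⁺`. -/
def dsc_Density (F : ℝ → ℝ) (c : ℝ) : Prop :=
  ∀ δ : ℝ, 0 < δ → ∀ᶠ s in 𝓝[>] (1 : ℝ), |F s - c * wc_m s| ≤ δ * wc_m s

/-- `wc_m s → +∞` as `s → 1⁺`. -/
theorem dsc_tendsto_wc_m : Tendsto wc_m (𝓝[>] (1 : ℝ)) atTop := by
  unfold wc_m
  have h1 : Tendsto (fun s : ℝ => s - 1) (𝓝[>] (1 : ℝ)) (𝓝[>] (0 : ℝ)) := by
    refine tendsto_nhdsWithin_of_tendsto_nhds_of_eventually_within _ ?_ ?_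
    · have : Tendsto (fun s : ℝ => s - 1) (𝓝 (1 : ℝ)) (𝓝 (1 - 1)) :=
        (continuous_id.sub continuous_const).tendsto 1
      rw [sub_self] at this
      exact this.mono_left nhdsWithin_le_nhds
    · filter_upwards [self_mem_nhdsWithin] with s hs
      exact sub_pos.mpr (Set.mem_Ioi.mp hs)
  have h2 : Tendsto (fun s : ℝ => 1 / (s - 1)) (𝓝[>] (1 : ℝ)) atTop := by
    simp only [one_div]
    exact tendsto_inv_nhdsGT_zero.comp h1
  exact Real.tendsto_log_atTop.comp h2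

/-- A mass (`O(1)` error) is a density (`o(log)` error). -/
theorem dsc_density_of_mass {F : ℝ → ℝ} {c : ℝ} (h : wc_Mass F c) : dsc_Density F c := by
  obtain ⟨C, hC⟩ := h
  intro δ hδ
  have h1 : ∀ᶠ s in 𝓝[>] (1 : ℝ), C / δ ≤ wc_m s :=
    dsc_tendsto_wc_m.eventually (eventually_ge_atTop (C / δ))
  filter_upwards [hC, h1] with s hs1 hs2
  refine hs1.trans ?_
  rw [div_le_iff₀ hδ] at hs2
  linarith

theorem dsc_Density.add {F G : ℝ → ℝ} {c d : ℝ} (hF : dsc_Density F c) (hG : dsc_Density G d) :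
    dsc_Density (fun s => F s + G s) (c + d) := by
  intro δ hδ
  filter_upwards [hF (δ / 2) (half_pos hδ), hG (δ / 2) (half_pos hδ)] with s h1 h2
  have h3 : F s + G s - (c + d) * wc_m s = (F s - c * wc_m s) + (G s - d * wc_m s) := by ring
  rw [h3]
  refine (abs_add_le _ _).trans ?_
  linarith

theorem dsc_Density.const_mul {F : ℝ → ℝ} {c : ℝ} (hF : dsc_Density F c) (a : ℝ) :
    dsc_Density (fun s => a * F s) (a * c) := by
  intro δ hδ
  by_cases ha : a = 0
  · have h0 : ∀ᶠ s in 𝓝[>] (1 : ℝ), 0 ≤ wc_m s :=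
      dsc_tendsto_wc_m.eventually (eventually_ge_atTop 0)
    filter_upwards [h0] with s hs
    rw [ha]
    simp only [zero_mul, sub_zero, abs_zero]
    exact mul_nonneg hδ.le hs
  · have ha' : 0 < |a| := abs_pos.mpr ha
    filter_upwards [hF (δ / |a|) (div_pos hδ ha')] with s h1
    have h3 : a * F s - a * c * wc_m s = a * (F s - c * wc_m s) := by ring
    rw [h3, abs_mul]
    calc |a| * |F s - c * wc_m s| ≤ |a| * (δ / |a| * wc_m s) :=
          mul_le_mul_of_nonneg_left h1 ha'.le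
      _ = δ * wc_m s := by field_simp

theorem dsc_Density.congr {F G : ℝ → ℝ} {c : ℝ} (hF : dsc_Density F c)
    (h : ∃ C : ℝ, ∀ᶠ s in 𝓝[>] (1 : ℝ), |F s - G s| ≤ C) : dsc_Density G c := by
  obtain ⟨C, hC⟩ := h
  intro δ hδ
  have h1 : ∀ᶠ s in 𝓝[>] (1 : ℝ), C / (δ / 2) ≤ wc_m s :=
    dsc_tendsto_wc_m.eventually (eventually_ge_atTop (C / (δ / 2)))
  filter_upwards [hF (δ / 2) (half_pos hδ), hC, h1] with s h2 h3 h4
  rw [div_le_iff₀ (half_pos hδ)] at h4
  have h5 : G s - c * wc_m s = (F s - c * wc_m s) - (F s - G s) := by ring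
  rw [h5]
  refine (abs_sub _ _).trans ?_
  linarith

/-- **DS-C, two-sided `tsum` form** (this was the seam `ds_SeamC` of `DS/Seams.lean` v1; it is kept
here because `DS/Cheb/Export.lean` proves it): the Chebotarev density theorem over `ℚ`,
Dirichlet-density form, for a finite quotient `φ : Γℚ ↠ G'` and a conjugation-stable subset
`C ⊆ G'`; `S` = the ramified primes.  The seam consumed by DS-G is `dsc_Chebotarev`
(finite-subset form), deduced from this one in `DS/Cheb/Final.lean`. -/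
def ds_SeamC : Prop :=
  ∀ (G' : Type) [Group G'] [Finite G'] (φ : ds_G →* G'), GaloisFactorsThroughFiniteLevel φ →
    Function.Surjective φ → ∀ C : Set G', (∀ g h : G', g ∈ C → h * g * h⁻¹ ∈ C) →
      ∃ S : Finset ℕ, ∀ δ : ℝ, 0 < δ → ∃ s₀ : ℝ, 1 < s₀ ∧ ∀ s : ℝ, 1 < s → s < s₀ →
        |ds_primeSum {p | p ∉ S ∧ ∀ σ : ds_G, ds_FrobAt σ p → φ σ ∈ C} (fun _ => 1) s -
            (Nat.card C : ℝ) / (Nat.card G' : ℝ) * Real.log (1 / (s - 1))| ≤
          δ * Real.log (1 / (s - 1))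

/-- **Chebotarev, number-field form** (seam between the crossing argument and the export):
`∑_p #{P ∣ p : Frob_P = g} p^{-s}` has density `1 / ord g`. -/
def dsc_NFDensity : Prop :=
  ∀ (L : Type) [Field L] [NumberField L] [IsGalois ℚ L] (g : L ≃ₐ[ℚ] L),
    dsc_Density (wc_P fun p => (wc_N L p g : ℝ)) (1 / (orderOf g : ℝ))

end Fermat.Agent.DS
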