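/-
DS-C (Chebotarev over ℚ), leaf (C4) EXPORT, part 1 (helper24): the counting identity at an
unramified prime, for a conjugation-stable set `D` of `Gal(L/ℚ)`:

  `∑_{g ∈ D} ord(g) · N_p(g) = |G|` if every Frobenius element over `p` lies in `D`, and `= 0`
  otherwise

(`N_p(g) = wc_N L p g` = number of primes over `p` with Frobenius element `g`).
Prefix `dcc_`.
-/
import Mathlib
import Fermat.Agent.WC.FrobCount
import Fermat.Agent.WC.FrobBasic

set_option autoImplicit false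
set_option linter.style.haveILetI false
set_option linter.unusedSectionVars false

open NumberField
open scoped Pointwise

namespace Fermat.Agent.DS

open Fermat.Agent.WC

section NF

variable {L : Type*} [Field L] [NumberField L] [IsGalois ℚ L]

/-- the conjugate of a Frobenius element is a Frobenius element at the conjugate prime -/
theorem dcc_isFrob_conj {p : ℕ} {P : Ideal (𝓞 L)} {g : L ≃ₐ[ℚ] L} (hg : wc_IsFrob g P p)
    (h : L ≃ₐ[ℚ] L) : wc_IsFrob (h * g * h⁻¹) (h • P) p := by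
  intro x
  have h1 : (h * g * h⁻¹) • x - x ^ p = h • (g • (h⁻¹ • x) - (h⁻¹ • x) ^ p) := by
    rw [smul_sub, smul_pow', smul_inv_smul, mul_smul, mul_smul]
  rw [h1]
  exact Ideal.smul_mem_pointwise_smul h _ P (hg _)

/-- the primes over `p` are conjugate -/
theorem dcc_exists_smul {p : ℕ} (hp : p.Prime) {P P' : Ideal (𝓞 L)} (hP : P.IsPrime)
    (hpP : (p : 𝓞 L) ∈ P) (hP' : P'.IsPrime) (hpP' : (p : 𝓞 L) ∈ P') :
    ∃ h : L ≃ₐ[ℚ] L, h • P = P' := by
  haveI := hP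
  haveI := hP'
  have hu : P.under ℤ = P'.under ℤ := by
    rw [wcb_c_under hp P hP hpP, wcb_c_under hp P' hP' hpP']
  obtain ⟨g, hg⟩ := Algebra.IsInvariant.exists_smul_of_under_eq ℤ (𝓞 L) (L ≃ₐ[ℚ] L) P P' hu
  exact ⟨g, hg.symm⟩

omit [IsGalois ℚ L] in
/-- there is a prime over `p` -/
theorem dcc_exists_prime {p : ℕ} (hp : p.Prime) :
    ∃ P : Ideal (𝓞 L), P.IsPrime ∧ (p : 𝓞 L) ∈ P := by
  haveI : Fact p.Prime := ⟨hp⟩
  haveI hmax : (Ideal.span {(p : ℤ)}).IsMaximal := Int.ideal_span_isMaximal_of_prime p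
  obtain ⟨Q, hQmax, hQover⟩ :=
    Ideal.exists_maximal_ideal_liesOver_of_isIntegral (S := 𝓞 L) (Ideal.span {(p : ℤ)})
  refine ⟨Q, hQmax.isPrime, ?_⟩
  have h1 : (p : ℤ) ∈ Q.under ℤ := by
    rw [← hQover.over]
    exact Ideal.subset_span rfl
  rw [Ideal.under_def, Ideal.mem_comap] at h1
  simpa using h1

/-- the smul of a prime over `p` is a prime over `p` -/
theorem dcc_smul_mem {p : ℕ} {P : Ideal (𝓞 L)} (hpP : (p : 𝓞 L) ∈ P) (h : L ≃ₐ[ℚ] L) :
    (p : 𝓞 L) ∈ h • P := by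
  have h1 := Ideal.smul_mem_pointwise_smul h _ P hpP
  have h2 : h • (p : 𝓞 L) = (p : 𝓞 L) :=
    map_natCast (MulSemiringAction.toRingHom (L ≃ₐ[ℚ] L) (𝓞 L) h) p
  rwa [h2] at h1

/-- **the counting identity** for a conjugation-stable set of Galois elements -/
theorem dcc_count {p : ℕ} (hp : p.Prime) (hu : wc_Unram L p) (D : Finset (L ≃ₐ[ℚ] L))
    (hD : ∀ g h : L ≃ₐ[ℚ] L, g ∈ D → h * g * h⁻¹ ∈ D) :
    ∑ g ∈ D, orderOf g * wc_N L p g =
      open Classical in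
      if (∀ P : Ideal (𝓞 L), P.IsPrime → (p : 𝓞 L) ∈ P → ∀ g : L ≃ₐ[ℚ] L, wc_IsFrob g P p → g ∈ D)
      then Nat.card (L ≃ₐ[ℚ] L) else 0 := by
  classical
  set X : Finset (Ideal (𝓞 L)) := (wcb_primes_finite (L := L) hp).toFinset with hXdef
  have hX : ∀ P, P ∈ X ↔ P.IsPrime ∧ (p : 𝓞 L) ∈ P := fun P => by
    rw [hXdef, Set.Finite.mem_toFinset, Set.mem_ofPred_eq]
  have hN : ∀ c : L ≃ₐ[ℚ] L, wc_N L p c = (X.filter (fun P => wcb_frob p P = c)).card := by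
    intro c
    have e : {P : Ideal (𝓞 L) // P.IsPrime ∧ (p : 𝓞 L) ∈ P ∧ wc_IsFrob c P p} ≃
        {P // P ∈ X.filter (fun P => wcb_frob p P = c)} :=
      Equiv.subtypeEquivRight (fun P => by
        rw [Finset.mem_filter, hX]
        constructor
        · rintro ⟨h1, h2, h3⟩
          exact ⟨⟨h1, h2⟩, (wcb_isFrob_iff hp hu P h1 h2 c).1 h3⟩
        · rintro ⟨⟨h1, h2⟩, h3⟩
          exact ⟨h1, h2, (wcb_isFrob_iff hp hu P h1 h2 c).2 h3⟩)
    rw [wc_N, Nat.card_congr e, Nat.card_eq_fintype_card, Fintype.card_coe]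
  have h1 : ∀ c : L ≃ₐ[ℚ] L, orderOf c * wc_N L p c =
      ∑ P ∈ X.filter (fun P => wcb_frob p P = c), orderOf (wcb_frob p P) := by
    intro c
    rw [hN, Finset.sum_congr rfl (fun P hP => by rw [(Finset.mem_filter.1 hP).2]),
      Finset.sum_const, smul_eq_mul, mul_comm]
  set X' : Finset (Ideal (𝓞 L)) := X.filter (fun P => wcb_frob p P ∈ D) with hX'def
  have hL : ∑ g ∈ D, orderOf g * wc_N L p g = ∑ P ∈ X', orderOf (wcb_frob p P) := by
    rw [← Finset.sum_fiberwise_of_maps_to (s := X') (t := D) (g := wcb_frob p)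
      (fun P hP => (Finset.mem_filter.1 hP).2)]
    apply Finset.sum_congr rfl
    intro c hc
    rw [h1]
    apply Finset.sum_congr _ (fun _ _ => rfl)
    ext P
    rw [hX'def, Finset.mem_filter, Finset.mem_filter, Finset.mem_filter]
    constructor
    · rintro ⟨h2, h3⟩
      exact ⟨⟨h2, by rw [h3]; exact hc⟩, h3⟩
    · rintro ⟨⟨h2, -⟩, h3⟩
      exact ⟨h2, h3⟩
  rw [hL]
  -- a base prime
  obtain ⟨P₀, hP₀, hpP₀⟩ := dcc_exists_prime (L := L) hp
  have hP₀X : P₀ ∈ X := (hX P₀).2 ⟨hP₀, hpP₀⟩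
  -- Frobenius elements of conjugate primes are conjugate
  have hconj : ∀ P ∈ X, ∃ h : L ≃ₐ[ℚ] L, h • P₀ = P ∧ wcb_frob p P = h * wcb_frob p P₀ * h⁻¹ := by
    intro P hP
    rw [hX] at hP
    obtain ⟨h, hh⟩ := dcc_exists_smul hp hP₀ hpP₀ hP.1 hP.2
    refine ⟨h, hh, ?_⟩
    have h2 := dcc_isFrob_conj (wcb_frob_spec hp P₀ hP₀ hpP₀) h
    rw [hh] at h2
    exact (wcb_isFrob_iff hp hu P hP.1 hP.2 _).1 h2
  have horb : ∀ b, b ∈ X ↔ b ∈ MulAction.orbit (L ≃ₐ[ℚ] L) P₀ := by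
    intro b
    constructor
    · intro hb
      obtain ⟨h, hh, -⟩ := hconj b hb
      exact ⟨h, hh⟩
    · rintro ⟨h, rfl⟩
      rw [hX]
      haveI := hP₀
      exact ⟨inferInstance, dcc_smul_mem hpP₀ h⟩
  by_cases hcase : wcb_frob p P₀ ∈ D
  · -- all Frobenius elements lie in `D`
    have hall : ∀ P ∈ X, wcb_frob p P ∈ D := by
      intro P hP
      obtain ⟨h, -, hh⟩ := hconj P hP
      rw [hh]
      exact hD _ h hcase
    have hX' : X' = X := Finset.filter_true_of_mem hall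
    have hif : ∀ P : Ideal (𝓞 L), P.IsPrime → (p : 𝓞 L) ∈ P → ∀ g : L ≃ₐ[ℚ] L,
        wc_IsFrob g P p → g ∈ D := by
      intro P hP hpP g hg
      rw [← (wcb_isFrob_iff hp hu P hP hpP g).1 hg]
      exact hall P ((hX P).2 ⟨hP, hpP⟩)
    rw [if_pos hif, hX', ← wcb_c_sum_stabilizer (G := L ≃ₐ[ℚ] L) X P₀ horb]
    apply Finset.sum_congr rfl
    intro P hP
    rw [hX] at hP
    exact wcb_orderOf_frob hp hu P hP.1 hP.2
  · -- no Frobenius element lies in `D`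
    have hnone : ∀ P ∈ X, wcb_frob p P ∉ D := by
      intro P hP hmem
      obtain ⟨h, -, hh⟩ := hconj P hP
      apply hcase
      have h3 := hD _ h⁻¹ hmem
      rw [hh] at h3
      have h4 : h⁻¹ * (h * wcb_frob p P₀ * h⁻¹) * h⁻¹⁻¹ = wcb_frob p P₀ := by group
      rwa [h4] at h3
    have hX' : X' = ∅ := Finset.filter_false_of_mem hnone
    have hif : ¬ ∀ P : Ideal (𝓞 L), P.IsPrime → (p : 𝓞 L) ∈ P → ∀ g : L ≃ₐ[ℚ] L,
        wc_IsFrob g P p → g ∈ D := by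
      intro hall
      exact hcase (hall P₀ hP₀ hpP₀ _ (wcb_frob_spec hp P₀ hP₀ hpP₀))
    rw [if_neg hif, hX', Finset.sum_empty]

end NF

end Fermat.Agent.DS
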