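/-
DS-C (Chebotarev over ℚ), leaf (C4) EXPORT, part 2 (helper24): the dictionary between Frobenius
elements at places of `Q̄` (`A.IsFrobeniusAt σ p`, prelude) and Frobenius elements at primes of a
finite Galois `K ⊆ Q̄` (`wc_IsFrob g P p`, WC/Defs), at an unramified prime `p`:

  `{σ|_K : σ a Frobenius element at some place of Q̄ over p} = {g : g a Frobenius element at some
   prime of 𝓞 K over p}`.

Prefix `dcc_`.
-/
import Mathlib
import Fermat.Agent.WC.Main
import Fermat.Agent.DS.Defs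

set_option autoImplicit false
set_option linter.style.haveILetI false
set_option linter.unusedSectionVars false

namespace Fermat.Agent.DS

open Fermat.Agent.S54 Fermat.Agent.S14.Reduction Fermat.Agent.S55 Fermat.Agent.WC NumberField

attribute [local instance] Fermat.Agent.S54.galAction
attribute [local instance] Fermat.Agent.S14.Reduction.algebraIntQbar

open scoped Pointwise

local notation "GQ" => (AlgebraicClosure ℚ ≃ₐ[ℚ] AlgebraicClosure ℚ)
local notation "Qbar" => AlgebraicClosure ℚ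

/-- Instance-path repair: the default `Algebra ℚ (AlgebraicClosure ℚ)` is the division-ring one. -/
local instance dcc_qbarIsAlgebraic : Algebra.IsAlgebraic ℚ (AlgebraicClosure ℚ) :=
  AlgebraicClosure.isAlgebraic ℚ

local instance dcc_qbarIsAlgClosure : IsAlgClosure ℚ (AlgebraicClosure ℚ) :=
  ⟨inferInstance, inferInstance⟩

/-- the Frobenius congruence on algebraic integers, from the prelude's `IsFrobeniusAt` -/
theorem dcc_frob_intQbar {p : ℕ} (A : ValuationSubring Qbar) (σ : GQ)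
    (hσ : A.IsFrobeniusAt σ p) (b : intQbar) : σ • b - b ^ p ∈ pl_Q A := by
  have hbA : (b : Qbar) ∈ A := pl_intQbar_le A b
  have h := hσ.smul_residue_eq (IsLocalRing.residue A ⟨(b : Qbar), hbA⟩)
  rw [← IsLocalRing.ResidueField.residue_smul, ← map_pow] at h
  have h1 := Ideal.Quotient.eq.mp h
  rw [← ValuationSubring.coe_mem_nonunits_iff] at h1
  have h2 := (ValuationSubring.mem_nonunits_iff (A := A)).1 h1
  rw [pl_mem_Q]
  exact h2

section NF

variable (K : IntermediateField ℚ Qbar) [FiniteDimensional ℚ K] [Normal ℚ K] [IsGalois ℚ K]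
  [NumberField K]

/-- **restriction of a Frobenius element** of `Q̄` is a Frobenius element of `K` -/
theorem dcc_isFrob_restrict {p : ℕ} (A : ValuationSubring Qbar) (σ : GQ)
    (hσ : A.IsFrobeniusAt σ p) :
    wc_IsFrob (AlgEquiv.restrictNormalHom K σ) (pl_ideal K A) p := by
  intro x
  show toIntQbar K (AlgEquiv.restrictNormalHom K σ • x - x ^ p) ∈ pl_Q A
  rw [map_sub, map_pow, ← pl_smul_toIntQbar]
  exact dcc_frob_intQbar A σ hσ _

/-- **lifting a Frobenius element** of `K` at an unramified prime to a Frobenius element of `Q̄` -/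
theorem dcc_exists_frob_lift {p : ℕ} (hp : p.Prime) (hu : wc_Unram K p) (P : Ideal (𝓞 K))
    (hP : P.IsPrime) (hpP : (p : 𝓞 K) ∈ P) (g : K ≃ₐ[ℚ] K) (hg : wc_IsFrob g P p) :
    ∃ (A : ValuationSubring Qbar) (σ : GQ), A.LiesOverPrime p ∧ A.IsFrobeniusAt σ p ∧
      AlgEquiv.restrictNormalHom K σ = g := by
  classical
  haveI := hP
  have hP0 : P ≠ ⊥ := by
    intro h
    rw [h, Ideal.mem_bot] at hpP
    exact (Nat.cast_ne_zero.2 hp.ne_zero : ((p : ℕ) : 𝓞 K) ≠ 0) hpP
  haveI hPmax : P.IsMaximal := Ideal.IsPrime.isMaximal hP hP0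
  obtain ⟨Q, hQmax, hQP⟩ := Ideal.exists_maximal_ideal_liesOver_of_isIntegral (S := intQbar) P
  haveI := hQmax
  haveI := hQP
  haveI hQprime : Q.IsPrime := hQmax.isPrime
  have hmemQ : ∀ x : 𝓞 K, toIntQbar K x ∈ Q ↔ x ∈ P := by
    intro x
    rw [hQP.over]
    rfl
  haveI hspanmax : (Ideal.span {(p : ℤ)}).IsMaximal :=
    PrincipalIdealRing.isMaximal_of_irreducible (Nat.prime_iff_prime_int.mp hp).irreducible
  haveI hQℓ : Q.LiesOver (Ideal.span {(p : ℤ)}) := by
    constructor
    refine hspanmax.eq_of_le (Ideal.IsPrime.ne_top (Ideal.IsPrime.under ℤ Q)) ?_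
    rw [Ideal.span_singleton_le_iff_mem, Ideal.under_def, Ideal.mem_comap]
    have h1 : toIntQbar K ((p : ℕ) : 𝓞 K) ∈ Q := (hmemQ _).mpr hpP
    have h2 : algebraMap ℤ intQbar (p : ℤ) = toIntQbar K ((p : ℕ) : 𝓞 K) := by
      rw [map_natCast]
      simp
    rw [h2]
    exact h1
  obtain ⟨φ, hφQ, hφ⟩ := exists_frob_intQbar hp Q
  have hφ₁ : wc_IsFrob (AlgEquiv.restrictNormalHom K φ) P p := by
    intro x
    rw [← hmemQ, map_sub, map_pow, ← pl_smul_toIntQbar]
    exact hφ _
  have heq : AlgEquiv.restrictNormalHom K φ = g :=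
    wcf_frob_unique K hp.ne_zero hu hpP hg hφ₁
  exact ⟨valSubring hp Q, φ, liesOverPrime_valSubring hp Q,
    isFrobeniusAt_valSubring hp Q hφQ hφ, heq⟩

/-- **the dictionary**: at an unramified prime, a property of the restrictions of all Frobenius
elements of `Q̄` over `p` is a property of all Frobenius elements of `K` over `p`. -/
theorem dcc_forall_frob_iff {p : ℕ} (hp : p.Prime) (hu : wc_Unram K p) (T : Set (K ≃ₐ[ℚ] K)) :
    (∀ σ : GQ, ds_FrobAt σ p → AlgEquiv.restrictNormalHom K σ ∈ T) ↔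
      ∀ P : Ideal (𝓞 K), P.IsPrime → (p : 𝓞 K) ∈ P → ∀ g : K ≃ₐ[ℚ] K, wc_IsFrob g P p → g ∈ T := by
  constructor
  · intro h P hP hpP g hg
    obtain ⟨A, σ, hA, hσ, rfl⟩ := dcc_exists_frob_lift K hp hu P hP hpP g hg
    exact h σ ⟨A, hA, hσ⟩
  · rintro h σ ⟨A, hA, hσ⟩
    exact h (pl_ideal K A) inferInstance (pl_natCast_mem_ideal K A hA) _
      (dcc_isFrob_restrict K A σ hσ)

end NF

end Fermat.Agent.DS
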