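/-
DS-C (Chebotarev over ℚ), leaf (C4) EXPORT, part 3 (helper24):

  **`dcc_export : dsc_NFDensity → ds_SeamC`**

from the number-field form of Chebotarev's theorem (`dsc_NFDensity`, DS/Cheb/Defs.lean: for a finite
Galois `L/ℚ` and `g ∈ Gal(L/ℚ)`, `∑_p #{P ∣ p : Frob_P = g} p^{-s}` has Dirichlet density
`1 / ord g`) to the seam `ds_SeamC` of DS/Seams.lean (vocabulary of the prelude: a homomorphism
`φ : Gal(Q̄/ℚ) → G'` of finite level, a conjugation-stable `C ⊆ G'`, Frobenius elements at places of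
`Q̄`).

Route: `φ` factors through `Gal(K/ℚ)`, `K` the normal closure of the level field (`r̄`); `S` := the
primes ramified in `K`; at `p ∉ S` the dictionary `dcc_forall_frob_iff` and the counting identity
`dcc_count` give `1[Frob_p ⊆ r̄⁻¹C] = ∑_{g ∈ r̄⁻¹C} (ord g / |G|) · wc_N K p g`; sum over `p`.
Prefix `dcc_`.
-/
import Mathlib
import Fermat.Agent.DS.Seams
import Fermat.Agent.DS.Cheb.Defs
import Fermat.Agent.DS.Cheb.ExportCount
import Fermat.Agent.DS.Cheb.ExportDict
import Fermat.Agent.WC.Mass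

set_option autoImplicit false
set_option linter.style.haveILetI false
set_option linter.unusedSectionVars false
set_option maxHeartbeats 1000000
set_option synthInstance.maxHeartbeats 200000

namespace Fermat.Agent.DS

open Fermat.Agent.WC Fermat.Agent.S14.Reduction NumberField Filter Topology

local notation "GQ" => (AlgebraicClosure ℚ ≃ₐ[ℚ] AlgebraicClosure ℚ)
local notation "Qbar" => AlgebraicClosure ℚ

attribute [local instance] dcc_qbarIsAlgebraic dcc_qbarIsAlgClosure

/-- the preimage of a set under a surjective homomorphism of finite groups has the same relative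
size -/
theorem dcc_card_preimage {G G' : Type*} [Group G] [Fintype G] [Group G'] [Fintype G']
    [DecidableEq G'] (f : G →* G') (hf : Function.Surjective f) (C : Finset G') :
    ((Finset.univ.filter (fun g => f g ∈ C)).card : ℝ) / Fintype.card G =
      (C.card : ℝ) / Fintype.card G' := by
  classical
  set k := (Finset.univ.filter (fun g : G => f g = 1)).card with hk
  have hfib : ∀ c : G', (Finset.univ.filter (fun g : G => f g = c)).card = k := fun c =>
    MonoidHom.card_fiber_eq_of_mem_range f (hf c) (hf 1)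
  have key : ∀ C : Finset G', (Finset.univ.filter (fun g => f g ∈ C)).card = C.card * k := by
    intro C
    rw [Finset.card_eq_sum_card_fiberwise (f := f)
      (s := Finset.univ.filter (fun g => f g ∈ C)) (t := C)
      (fun g hg => (Finset.mem_filter.1 (Finset.mem_coe.1 hg)).2)]
    have h : ∀ c ∈ C, ((Finset.univ.filter (fun g => f g ∈ C)).filter (fun g => f g = c)).card
        = k := by
      intro c hc
      rw [← hfib c]
      congr 1
      ext g
      simp only [Finset.mem_filter, Finset.mem_univ, true_and]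
      constructor
      · rintro ⟨-, h2⟩
        exact h2
      · intro h2
        exact ⟨by rw [h2]; exact hc, h2⟩
    rw [Finset.sum_congr rfl h, Finset.sum_const, smul_eq_mul]
  have h2 : Fintype.card G = Fintype.card G' * k := by
    have := key Finset.univ
    simpa using this
  have hk0 : 0 < k := by
    rw [hk, Finset.card_pos]
    exact ⟨1, by simp⟩
  have hG' : (0 : ℝ) < Fintype.card G' := by exact_mod_cast Fintype.card_pos
  have hk0' : (k : ℝ) ≠ 0 := by exact_mod_cast hk0.ne'
  rw [key C, h2]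
  push_cast
  field_simp

/-- densities add up over finite sums -/
theorem dcc_density_sum {ι : Type*} (t : Finset ι) (F : ι → ℝ → ℝ) (c : ι → ℝ)
    (h : ∀ i ∈ t, dsc_Density (F i) (c i)) :
    dsc_Density (fun s => ∑ i ∈ t, F i s) (∑ i ∈ t, c i) := by
  classical
  induction t using Finset.induction_on with
  | empty =>
    simp only [Finset.sum_empty]
    exact dsc_density_of_mass wc_Mass.zero
  | insert a t ha ih =>
    have h1 := (h a (Finset.mem_insert_self a t)).add
      (ih fun i hi => h i (Finset.mem_insert_of_mem hi))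
    have e1 : (fun s => ∑ i ∈ insert a t, F i s) = fun s => F a s + ∑ i ∈ t, F i s := by
      funext s
      rw [Finset.sum_insert ha]
    rw [e1, Finset.sum_insert ha]
    exact h1

/-- a density statement in explicit `(s₀, δ)` form -/
theorem dcc_density_unpack {F : ℝ → ℝ} {c : ℝ} (h : dsc_Density F c) {δ : ℝ} (hδ : 0 < δ) :
    ∃ s₀ : ℝ, 1 < s₀ ∧ ∀ s : ℝ, 1 < s → s < s₀ →
      |F s - c * Real.log (1 / (s - 1))| ≤ δ * Real.log (1 / (s - 1)) := by
  have h1 := h δ hδ
  rw [eventually_iff, mem_nhdsGT_iff_exists_Ioo_subset] at h1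
  obtain ⟨u, hu, hsub⟩ := h1
  exact ⟨u, hu, fun s hs hsu => hsub ⟨hs, hsu⟩⟩

/-- **(C4) EXPORT**: the number-field form of Chebotarev's density theorem implies the seam
`ds_SeamC`. -/
theorem dcc_export (h : dsc_NFDensity) : ds_SeamC := by
  intro G' _ _ φ hfin hsurj C hC
  classical
  obtain ⟨L₀, hL₀fin, hL₀⟩ := hfin
  haveI := hL₀fin
  let K : IntermediateField ℚ Qbar := IntermediateField.normalClosure ℚ ↥L₀ Qbar
  haveI hKfin : FiniteDimensional ℚ K := normalClosure.is_finiteDimensional ℚ _ Qbar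
  haveI hKnormal : Normal ℚ K := normalClosure.normal ℚ _ Qbar
  haveI : NumberField K := ⟨⟩
  haveI : IsGalois ℚ K := ⟨⟩
  haveI : Fintype (K ≃ₐ[ℚ] K) := Fintype.ofFinite _
  haveI : Fintype G' := Fintype.ofFinite _
  have hL₀K : L₀ ≤ K := IntermediateField.le_normalClosure _
  -- `φ` factors through the restriction to `K`
  set res : GQ →* (K ≃ₐ[ℚ] K) := AlgEquiv.restrictNormalHom (F := ℚ) (K₁ := Qbar) K with hres
  have hker : res.ker ≤ φ.ker := by
    intro σ hσ
    rw [hres, ker_restrictNormalHom, IntermediateField.mem_fixingSubgroup_iff] at hσ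
    exact hL₀ σ (fun x hx => hσ x (hL₀K hx))
  have hres_surj : Function.Surjective res := AlgEquiv.restrictNormalHom_surjective Qbar
  set rbar : (K ≃ₐ[ℚ] K) →* G' := MonoidHom.liftOfSurjective res hres_surj ⟨φ, hker⟩ with hrbardef
  have hrbar : ∀ σ, rbar (res σ) = φ σ := fun σ =>
    MonoidHom.liftOfRightInverse_comp_apply res _ (Function.rightInverse_surjInv hres_surj)
      ⟨φ, hker⟩ σ
  have hrbar_surj : Function.Surjective rbar := by
    intro c
    obtain ⟨σ, rfl⟩ := hsurj c
    exact ⟨res σ, hrbar σ⟩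
  -- the conjugation-stable set upstairs
  set T : Set (K ≃ₐ[ℚ] K) := {g | rbar g ∈ C} with hT
  set D : Finset (K ≃ₐ[ℚ] K) := Finset.univ.filter (fun g => rbar g ∈ C) with hDdef
  have hDmem : ∀ g, g ∈ D ↔ g ∈ T := fun g => by
    rw [hDdef, Finset.mem_filter]
    simp [hT]
  have hD : ∀ g k : K ≃ₐ[ℚ] K, g ∈ D → k * g * k⁻¹ ∈ D := by
    intro g k hg
    rw [hDmem] at hg ⊢
    show rbar (k * g * k⁻¹) ∈ C
    rw [map_mul, map_mul, map_inv]
    exact hC _ _ hg
  -- the ramified primes
  set S : Finset ℕ := (wcb_finite_ram K).toFinset with hSdef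
  have hS : ∀ p : ℕ, p.Prime → (p ∉ S ↔ wc_Unram K p) := by
    intro p hp
    rw [hSdef, Set.Finite.mem_toFinset, Set.mem_ofPred_eq]
    constructor
    · intro h1
      by_contra h2
      exact h1 ⟨hp, h2⟩
    · rintro h1 ⟨-, h2⟩
      exact h2 h1
  refine ⟨S, ?_⟩
  -- cardinalities
  set n : ℕ := Fintype.card (K ≃ₐ[ℚ] K) with hn
  have hn0 : (0 : ℝ) < n := by exact_mod_cast Fintype.card_pos
  have hncard : Nat.card (K ≃ₐ[ℚ] K) = n := Nat.card_eq_fintype_card
  -- the coefficient functions
  set c : (K ≃ₐ[ℚ] K) → ℝ := fun g => (orderOf g : ℝ) / n with hc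
  have hc0 : ∀ g, 0 ≤ c g := fun g => div_nonneg (Nat.cast_nonneg _) hn0.le
  have hc1 : ∀ g, c g ≤ 1 := fun g => by
    rw [hc]
    show (orderOf g : ℝ) / n ≤ 1
    rw [div_le_one hn0]
    exact_mod_cast orderOf_le_card_univ
  set B : ℝ := (Module.finrank ℚ K : ℝ) with hB
  have hNle : ∀ (g : K ≃ₐ[ℚ] K) (p : ℕ), p.Prime → |c g * (wc_N K p g : ℝ)| ≤ B := by
    intro g p hp
    rw [abs_of_nonneg (mul_nonneg (hc0 g) (Nat.cast_nonneg _))]
    calc c g * (wc_N K p g : ℝ) ≤ 1 * (wc_N K p g : ℝ) :=
          mul_le_mul_of_nonneg_right (hc1 g) (Nat.cast_nonneg _)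
      _ = (wc_N K p g : ℝ) := one_mul _
      _ ≤ B := by
        rw [hB]
        exact_mod_cast wcb_N_le K hp g
  set f₁ : ℕ → ℝ := fun p => ∑ g ∈ D, c g * (wc_N K p g : ℝ) with hf₁
  have hf₁0 : ∀ p, 0 ≤ f₁ p := fun p =>
    Finset.sum_nonneg fun g _ => mul_nonneg (hc0 g) (Nat.cast_nonneg _)
  have hf₁B : ∀ p : ℕ, p.Prime → |f₁ p| ≤ D.card * B := by
    intro p hp
    rw [abs_of_nonneg (hf₁0 p)]
    calc f₁ p ≤ ∑ _g ∈ D, B := Finset.sum_le_sum fun g _ =>
          (le_abs_self _).trans (hNle g p hp)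
      _ = D.card * B := by rw [Finset.sum_const, nsmul_eq_mul]
  set f₂ : ℕ → ℝ := fun p => if p ∈ S then f₁ p else 0 with hf₂
  have hf₂B : ∀ p : ℕ, p.Prime → |f₂ p| ≤ D.card * B := by
    intro p hp
    rw [hf₂]
    show |if p ∈ S then f₁ p else 0| ≤ _
    split_ifs
    · exact hf₁B p hp
    · rw [abs_zero]
      exact mul_nonneg (Nat.cast_nonneg _) (Nat.cast_nonneg _)
  -- the set of primes of the seam
  set X : Set ℕ := {p | p ∉ S ∧ ∀ σ : ds_G, ds_FrobAt σ p → φ σ ∈ C} with hX
  -- the per-prime identity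
  have hkey : ∀ p : ℕ, p.Prime → (if p ∈ X then (1 : ℝ) else 0) = f₁ p - f₂ p := by
    intro p hp
    by_cases hpS : p ∈ S
    · have h1 : p ∉ X := fun hx => hx.1 hpS
      rw [if_neg h1, hf₂]
      show (0 : ℝ) = f₁ p - if p ∈ S then f₁ p else 0
      rw [if_pos hpS, sub_self]
    · have hu : wc_Unram K p := (hS p hp).1 hpS
      have hiff := dcc_forall_frob_iff K hp hu T
      have hcount := dcc_count hp hu D hD
      have hcond : (p ∈ X) ↔ ∀ P : Ideal (𝓞 K), P.IsPrime → (p : 𝓞 K) ∈ P →
          ∀ g : K ≃ₐ[ℚ] K, wc_IsFrob g P p → g ∈ D := by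
        constructor
        · rintro ⟨-, hx⟩ P hP hpP g hg
          rw [hDmem]
          refine hiff.1 (fun σ hσ => ?_) P hP hpP g hg
          show rbar (res σ) ∈ C
          rw [hrbar]
          exact hx σ hσ
        · intro hx
          refine ⟨hpS, fun σ hσ => ?_⟩
          have h2 : res σ ∈ T :=
            hiff.2 (fun P hP hpP g hg => (hDmem g).1 (hx P hP hpP g hg)) σ hσ
          have h3 : rbar (res σ) ∈ C := h2
          rwa [hrbar] at h3
      have hf₂p : f₂ p = 0 := by
        rw [hf₂]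
        show (if p ∈ S then f₁ p else 0) = 0
        rw [if_neg hpS]
      rw [hf₂p, sub_zero]
      have hsum : f₁ p = ((∑ g ∈ D, orderOf g * wc_N K p g : ℕ) : ℝ) / n := by
        rw [hf₁]
        show ∑ g ∈ D, c g * (wc_N K p g : ℝ) = _
        rw [Nat.cast_sum, Finset.sum_div]
        refine Finset.sum_congr rfl fun g _ => ?_
        rw [hc]
        show (orderOf g : ℝ) / n * (wc_N K p g : ℝ) = _
        push_cast
        ring
      rw [hsum, hcount]
      by_cases hx : p ∈ X
      · rw [if_pos hx, if_pos (hcond.1 hx), hncard, div_self hn0.ne']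
      · rw [if_neg hx, if_neg (fun h2 => hx (hcond.2 h2)), Nat.cast_zero, zero_div]
  -- the density of `wc_P f₁`
  have hdens₁ : dsc_Density (wc_P f₁) ((D.card : ℝ) / n) := by
    have h1 : ∀ g ∈ D, dsc_Density (fun s => c g * wc_P (fun p => (wc_N K p g : ℝ)) s)
        (c g * (1 / (orderOf g : ℝ))) := fun g _ => (h K g).const_mul (c g)
    have h2 := dcc_density_sum D _ _ h1
    have e1 : ∑ g ∈ D, c g * (1 / (orderOf g : ℝ)) = (D.card : ℝ) / n := by
      have : ∀ g ∈ D, c g * (1 / (orderOf g : ℝ)) = 1 / n := by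
        intro g _
        have ho : (orderOf g : ℝ) ≠ 0 := by exact_mod_cast (orderOf_pos g).ne'
        rw [hc]
        show (orderOf g : ℝ) / n * (1 / (orderOf g : ℝ)) = 1 / n
        field_simp
      rw [Finset.sum_congr rfl this, Finset.sum_const, nsmul_eq_mul]
      ring
    rw [e1] at h2
    refine h2.congr ⟨0, ?_⟩
    filter_upwards [self_mem_nhdsWithin] with s hs
    have hs1 : 1 < s := hs
    have e2 : wc_P f₁ s = ∑ g ∈ D, c g * wc_P (fun p => (wc_N K p g : ℝ)) s := by
      rw [hf₁, wc_P_sum D (fun g p => c g * (wc_N K p g : ℝ)) hNle hs1]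
      refine Finset.sum_congr rfl fun g _ => ?_
      exact wc_P_const_mul (c g) _ s
    rw [e2, sub_self, abs_zero]
  -- `wc_P f₂` is bounded
  have hdens₂ : dsc_Density (wc_P f₂) 0 := by
    refine dsc_density_of_mass (wc_Mass_P_of_finite ?_)
    refine (S.finite_toSet).subset ?_
    intro p hp
    rw [Set.mem_ofPred_eq, hf₂] at hp
    by_contra hpS
    apply hp
    show (if p ∈ S then f₁ p else 0) = 0
    rw [if_neg (fun h => hpS (Finset.mem_coe.2 h))]
  -- the prime sum of the seam
  have hdens : dsc_Density (fun s => ds_primeSum X (fun _ => 1) s) ((D.card : ℝ) / n) := by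
    have h1 := hdens₁.add (hdens₂.const_mul (-1))
    rw [mul_zero, add_zero] at h1
    refine h1.congr ⟨0, ?_⟩
    filter_upwards [self_mem_nhdsWithin] with s hs
    have hs1 : 1 < s := hs
    have e1 : ds_primeSum X (fun _ => 1) s = wc_P (fun p => f₁ p - f₂ p) s := by
      unfold ds_primeSum wc_P
      refine tsum_congr fun p => ?_
      show X.indicator (fun n : ℕ => (1 : ℝ) * (n : ℝ) ^ (-s)) (p : ℕ) =
        (f₁ p - f₂ p) * ((p : ℕ) : ℝ) ^ (-s)
      rw [← hkey p p.2, Set.indicator_apply]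
      split_ifs <;> simp
    rw [e1, wc_P_sub hf₁B hf₂B hs1]
    have e2 : wc_P f₁ s + -1 * wc_P f₂ s - (wc_P f₁ s - wc_P f₂ s) = 0 := by ring
    rw [e2, abs_zero]
  -- cardinalities
  have hcard : (D.card : ℝ) / n = (Nat.card C : ℝ) / (Nat.card G' : ℝ) := by
    have h1 := dcc_card_preimage rbar hrbar_surj (Finset.univ.filter (fun x => x ∈ C))
    have h2 : Nat.card C = (Finset.univ.filter (fun x : G' => x ∈ C)).card := by
      rw [Nat.card_eq_fintype_card, Fintype.card_subtype]
    have h3 : D = Finset.univ.filter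
        (fun g => rbar g ∈ Finset.univ.filter (fun x : G' => x ∈ C)) := by
      ext g
      simp [hDdef]
    rw [h2, Nat.card_eq_fintype_card, h3, hn]
    exact h1
  rw [hcard] at hdens
  intro δ hδ
  exact dcc_density_unpack hdens hδ

end Fermat.Agent.DS
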