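/-
DS-C (Chebotarev over ℚ): the bridge from the output shape of the crossing argument
(`|F s - c · m(s)| ≤ ε · m(s) + C` for every `ε > 0`) to the number-field seam `dsc_NFDensity`, and
from there (helper24's `dcc_export`) to the official seam `ds_SeamC`.
Owner: helper19.  Prefix `dsc_`.
-/
import Mathlib
import Fermat.Agent.DS.Cheb.Export

set_option autoImplicit false

namespace Fermat.Agent.DS

open Filter Topology NumberField Fermat.Agent.WC

/-- An `ε · m(s) + C` error for every `ε > 0` is an `o(m(s))` error. -/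
theorem dsc_density_of_eps {F : ℝ → ℝ} {c : ℝ}
    (h : ∀ ε : ℝ, 0 < ε → ∃ C : ℝ, ∀ᶠ s in 𝓝[>] (1 : ℝ),
      |F s - c * wc_m s| ≤ ε * wc_m s + C) : dsc_Density F c := by
  intro δ hδ
  obtain ⟨C, hC⟩ := h (δ / 2) (half_pos hδ)
  have h1 : ∀ᶠ s in 𝓝[>] (1 : ℝ), C / (δ / 2) ≤ wc_m s :=
    dsc_tendsto_wc_m.eventually (eventually_ge_atTop _)
  filter_upwards [hC, h1] with s h2 h3
  rw [div_le_iff₀ (half_pos hδ)] at h3
  linarith

/-- The output shape of the crossing argument `[C-X]`. -/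
def dsc_Crossing : Prop :=
  ∀ (L : Type) [Field L] [NumberField L] [IsGalois ℚ L] (σ : L ≃ₐ[ℚ] L) (ε : ℝ), 0 < ε →
    ∃ C : ℝ, ∀ᶠ s in 𝓝[>] (1 : ℝ),
      |wc_P (fun p => (wc_N L p σ : ℝ)) s - (1 / (orderOf σ : ℝ)) * wc_m s| ≤ ε * wc_m s + C

theorem dsc_NFDensity_of_crossing (h : dsc_Crossing) : dsc_NFDensity :=
  fun L _ _ _ g => dsc_density_of_eps (h L g)

/-- The crossing argument implies the official seam `ds_SeamC`. -/
theorem dsc_seamC_of_crossing (h : dsc_Crossing) : ds_SeamC :=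
  dcc_export (dsc_NFDensity_of_crossing h)

end Fermat.Agent.DS
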