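import Mathlib

/-!
# DS-C leaf [C-CNT]: a squarefree odd modulus `m` for which almost every unit `t` mod `m`
has order divisible by `f` and `-1 ∉ ⟨t⟩`.
-/

namespace Fermat.Agent.DS

open Nat

/-- units mod `m` whose order is NOT divisible by `f` -/
def dcg_A (f m : ℕ) : Set (ZMod m)ˣ := {t | ¬ f ∣ orderOf t}

/-- units mod `m` whose cyclic subgroup contains `-1` -/
def dcg_B (m : ℕ) : Set (ZMod m)ˣ := {t | (-1 : (ZMod m)ˣ) ∈ Subgroup.zpowers t}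

/-- the Chinese remainder theorem on unit groups -/
noncomputable def dcg_crt {m n : ℕ} (h : m.Coprime n) :
    (ZMod (m * n))ˣ ≃* (ZMod m)ˣ × (ZMod n)ˣ :=
  (Units.mapEquiv (ZMod.chineseRemainder h).toMulEquiv).trans MulEquiv.prodUnits

theorem dcg_crt_neg_one {m n : ℕ} (h : m.Coprime n) :
    dcg_crt h (-1) = ((-1 : (ZMod m)ˣ), (-1 : (ZMod n)ˣ)) := by
  apply Prod.ext <;> apply Units.ext <;> simp [dcg_crt, MulEquiv.prodUnits]

theorem dcg_card_units (m : ℕ) [NeZero m] : Nat.card (ZMod m)ˣ = φ m := by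
  rw [Nat.card_eq_fintype_card, ZMod.card_units_eq_totient]

theorem dcg_A_mul (f : ℕ) {m n : ℕ} [NeZero m] [NeZero n] (h : m.Coprime n) :
    (dcg_A f (m * n)).ncard ≤ (dcg_A f m).ncard * (dcg_A f n).ncard := by
  rw [← Set.ncard_prod]
  refine Set.ncard_le_ncard_of_injOn (dcg_crt h) ?_ (dcg_crt h).injective.injOn (Set.toFinite _)
  intro t ht
  have ho : orderOf t = (orderOf (dcg_crt h t).1).lcm (orderOf (dcg_crt h t).2) := by
    rw [← MulEquiv.orderOf_eq (dcg_crt h) t, Prod.orderOf]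
  refine ⟨fun h1 => ht ?_, fun h1 => ht ?_⟩
  · rw [ho]; exact h1.trans (Nat.dvd_lcm_left _ _)
  · rw [ho]; exact h1.trans (Nat.dvd_lcm_right _ _)

theorem dcg_B_mul {m n : ℕ} [NeZero m] [NeZero n] (h : m.Coprime n) :
    (dcg_B (m * n)).ncard ≤ (dcg_B m).ncard * (dcg_B n).ncard := by
  rw [← Set.ncard_prod]
  refine Set.ncard_le_ncard_of_injOn (dcg_crt h) ?_ (dcg_crt h).injective.injOn (Set.toFinite _)
  intro t ht
  obtain ⟨k, hk⟩ := Subgroup.mem_zpowers_iff.mp ht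
  have h1 : (dcg_crt h t) ^ k = ((-1 : (ZMod m)ˣ), (-1 : (ZMod n)ˣ)) := by
    rw [← map_zpow, hk, dcg_crt_neg_one]
  refine ⟨Subgroup.mem_zpowers_iff.mpr ⟨k, ?_⟩, Subgroup.mem_zpowers_iff.mpr ⟨k, ?_⟩⟩
  · have := congrArg Prod.fst h1
    simpa using this
  · have := congrArg Prod.snd h1
    simpa using this

theorem dcg_gen (q : ℕ) [Fact q.Prime] :
    ∃ g : (ZMod q)ˣ, (∀ x, x ∈ Subgroup.zpowers g) ∧ orderOf g = q - 1 := by
  obtain ⟨g, hg⟩ := IsCyclic.exists_generator (α := (ZMod q)ˣ)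
  refine ⟨g, hg, ?_⟩
  rw [orderOf_eq_card_of_forall_mem_zpowers hg, dcg_card_units,
    Nat.totient_prime (Fact.out : q.Prime)]

theorem dcg_A_prime {f q : ℕ} (hf : 0 < f) (hq : q.Prime) (hqf : q ≡ 1 [MOD f]) :
    f * (dcg_A f q).ncard ≤ (f - 1) * (q - 1) := by
  have : Fact q.Prime := ⟨hq⟩
  obtain ⟨g, hg, hord⟩ := dcg_gen q
  have hdvd : f ∣ q - 1 := (Nat.modEq_iff_dvd' hq.one_le).mp hqf.symm
  obtain ⟨k, hk⟩ := hdvd
  have hq1 : 0 < q - 1 := Nat.sub_pos_of_lt hq.one_lt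
  have hk0 : k ≠ 0 := by
    rintro rfl
    simp at hk
    omega
  -- the good coset
  set S : Set (ZMod q)ˣ := (fun x => g * x) '' (Subgroup.zpowers (g ^ f) : Set (ZMod q)ˣ) with hS
  have hScard : S.ncard = k := by
    rw [hS, Set.ncard_image_of_injective _ (mul_right_injective g)]
    have h1 : ((Subgroup.zpowers (g ^ f) : Set (ZMod q)ˣ)).ncard =
        Nat.card (Subgroup.zpowers (g ^ f)) := (Nat.card_coe_set_eq _).symm
    rw [h1, Nat.card_zpowers, orderOf_pow_of_dvd hf.ne' (by rw [hord, hk]; exact dvd_mul_right _ _),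
      hord, hk, Nat.mul_div_cancel_left _ hf]
  have hSsub : S ⊆ (dcg_A f q)ᶜ := by
    rintro _ ⟨x, hx, rfl⟩
    obtain ⟨j, rfl⟩ := Subgroup.mem_zpowers_iff.mp hx
    have hxk : ((g ^ f) ^ j) ^ k = 1 := by
      rw [← zpow_natCast, ← zpow_mul, mul_comm, zpow_mul, zpow_natCast, ← pow_mul, ← hk, ← hord,
        pow_orderOf_eq_one, one_zpow]
    have h2 : (g * (g ^ f) ^ j) ^ k = g ^ k := by rw [mul_pow, hxk, mul_one]
    have h3 : orderOf (g ^ k) = f := by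
      rw [orderOf_pow_of_dvd hk0 (by rw [hord, hk]; exact dvd_mul_left _ _), hord, hk,
        Nat.mul_div_cancel _ (Nat.pos_of_ne_zero hk0)]
    show ¬ ¬ f ∣ orderOf (g * (g ^ f) ^ j)
    rw [not_not]
    calc f = orderOf ((g * (g ^ f) ^ j) ^ k) := by rw [h2, h3]
      _ ∣ orderOf (g * (g ^ f) ^ j) := orderOf_pow_dvd k
  have hle : k ≤ (dcg_A f q)ᶜ.ncard := hScard ▸ Set.ncard_le_ncard hSsub (Set.toFinite _)
  have hsum : (dcg_A f q).ncard + (dcg_A f q)ᶜ.ncard = q - 1 := by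
    rw [Set.ncard_add_ncard_compl, dcg_card_units, Nat.totient_prime hq]
  obtain ⟨f', rfl⟩ : ∃ f', f = f' + 1 := ⟨f - 1, by omega⟩
  rw [Nat.add_sub_cancel]
  have e1 : (f' + 1) * (dcg_A (f' + 1) q).ncard + (f' + 1) * (dcg_A (f' + 1) q)ᶜ.ncard =
      (f' + 1) * (q - 1) := by rw [← mul_add, hsum]
  have e2 : (f' + 1) * k ≤ (f' + 1) * (dcg_A (f' + 1) q)ᶜ.ncard := Nat.mul_le_mul_left _ hle
  have e3 : (f' + 1) * (q - 1) = f' * (q - 1) + (q - 1) := by ring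
  omega

theorem dcg_B_prime {q : ℕ} (hq : q.Prime) (hq4 : q ≡ 3 [MOD 4]) :
    2 * (dcg_B q).ncard ≤ q - 1 := by
  have : Fact q.Prime := ⟨hq⟩
  obtain ⟨g, hg, hord⟩ := dcg_gen q
  have hq3 : q % 4 = 3 := hq4
  obtain ⟨k, hk, hkodd⟩ : ∃ k, q - 1 = 2 * k ∧ ¬ 2 ∣ k := ⟨(q - 1) / 2, by omega, by omega⟩
  have hk0 : k ≠ 0 := by rintro rfl; simp at hkodd
  have hneg : orderOf (-1 : (ZMod q)ˣ) = 2 := by
    have : Fact (2 < q) := ⟨by omega⟩
    have : Fact (Nat.Prime 2) := ⟨Nat.prime_two⟩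
    refine orderOf_eq_prime (by simp) ?_
    intro h
    have h' := congrArg Units.val h
    simp only [Units.val_neg, Units.val_one] at h'
    exact ZMod.neg_one_ne_one h'
  set S : Set (ZMod q)ˣ := (Subgroup.zpowers (g ^ 2) : Set (ZMod q)ˣ) with hS
  have hScard : S.ncard = k := by
    have h1 : S.ncard = Nat.card (Subgroup.zpowers (g ^ 2)) := (Nat.card_coe_set_eq _).symm
    rw [h1, Nat.card_zpowers, orderOf_pow_of_dvd two_ne_zero (by rw [hord, hk]; exact dvd_mul_right _ _),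
      hord, hk, Nat.mul_div_cancel_left _ two_pos]
  have hSsub : S ⊆ (dcg_B q)ᶜ := by
    intro x hx hB
    obtain ⟨j, rfl⟩ := Subgroup.mem_zpowers_iff.mp hx
    have hxk : ((g ^ 2) ^ j) ^ k = 1 := by
      rw [← zpow_natCast, ← zpow_mul, mul_comm, zpow_mul, zpow_natCast, ← pow_mul, ← hk, ← hord,
        pow_orderOf_eq_one, one_zpow]
    have h1 : orderOf ((g ^ 2) ^ j) ∣ k := orderOf_dvd_of_pow_eq_one hxk
    have h2 : orderOf (-1 : (ZMod q)ˣ) ∣ orderOf ((g ^ 2) ^ j) := orderOf_dvd_of_mem_zpowers hB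
    rw [hneg] at h2
    exact hkodd (h2.trans h1)
  have hle : k ≤ (dcg_B q)ᶜ.ncard := hScard ▸ Set.ncard_le_ncard hSsub (Set.toFinite _)
  have hsum : (dcg_B q).ncard + (dcg_B q)ᶜ.ncard = q - 1 := by
    rw [Set.ncard_add_ncard_compl, dcg_card_units, Nat.totient_prime hq]
  omega

/-- proportion of units mod `m` whose order is not divisible by `f` -/
noncomputable def dcg_a (f m : ℕ) : ℝ := ((dcg_A f m).ncard : ℝ) / (φ m : ℝ)

/-- proportion of units mod `m` whose cyclic subgroup contains `-1` -/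
noncomputable def dcg_b (m : ℕ) : ℝ := ((dcg_B m).ncard : ℝ) / (φ m : ℝ)

theorem dcg_ncard_le (m : ℕ) (hm : m ≠ 0) (s : Set (ZMod m)ˣ) : s.ncard ≤ φ m := by
  have : NeZero m := ⟨hm⟩
  rw [← dcg_card_units m, ← Set.ncard_univ]
  exact Set.ncard_le_ncard (Set.subset_univ _) (Set.toFinite _)

theorem dcg_a_nonneg (f m : ℕ) : 0 ≤ dcg_a f m := by unfold dcg_a; positivity

theorem dcg_b_nonneg (m : ℕ) : 0 ≤ dcg_b m := by unfold dcg_b; positivity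

theorem dcg_a_le_one (f m : ℕ) (hm : m ≠ 0) : dcg_a f m ≤ 1 := by
  unfold dcg_a
  have h1 : (0 : ℝ) < φ m := by exact_mod_cast Nat.totient_pos.mpr (Nat.pos_of_ne_zero hm)
  rw [div_le_one h1]
  exact_mod_cast dcg_ncard_le m hm _

theorem dcg_b_le_one (m : ℕ) (hm : m ≠ 0) : dcg_b m ≤ 1 := by
  unfold dcg_b
  have h1 : (0 : ℝ) < φ m := by exact_mod_cast Nat.totient_pos.mpr (Nat.pos_of_ne_zero hm)
  rw [div_le_one h1]
  exact_mod_cast dcg_ncard_le m hm _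

theorem dcg_a_mul (f m n : ℕ) (hm : m ≠ 0) (hn : n ≠ 0) (h : m.Coprime n) :
    dcg_a f (m * n) ≤ dcg_a f m * dcg_a f n := by
  have : NeZero m := ⟨hm⟩
  have : NeZero n := ⟨hn⟩
  unfold dcg_a
  rw [Nat.totient_mul h, Nat.cast_mul]
  have h1 : (0 : ℝ) < φ m := by exact_mod_cast Nat.totient_pos.mpr (Nat.pos_of_ne_zero hm)
  have h2 : (0 : ℝ) < φ n := by exact_mod_cast Nat.totient_pos.mpr (Nat.pos_of_ne_zero hn)
  have key : ((dcg_A f (m * n)).ncard : ℝ) ≤ ((dcg_A f m).ncard : ℝ) * ((dcg_A f n).ncard : ℝ) := by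
    exact_mod_cast dcg_A_mul f h
  calc ((dcg_A f (m * n)).ncard : ℝ) / ((φ m : ℝ) * (φ n : ℝ))
      ≤ (((dcg_A f m).ncard : ℝ) * ((dcg_A f n).ncard : ℝ)) / ((φ m : ℝ) * (φ n : ℝ)) :=
        div_le_div_of_nonneg_right key (mul_pos h1 h2).le
    _ = _ := by rw [mul_div_mul_comm]

theorem dcg_b_mul (m n : ℕ) (hm : m ≠ 0) (hn : n ≠ 0) (h : m.Coprime n) :
    dcg_b (m * n) ≤ dcg_b m * dcg_b n := by
  have : NeZero m := ⟨hm⟩
  have : NeZero n := ⟨hn⟩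
  unfold dcg_b
  rw [Nat.totient_mul h, Nat.cast_mul]
  have h1 : (0 : ℝ) < φ m := by exact_mod_cast Nat.totient_pos.mpr (Nat.pos_of_ne_zero hm)
  have h2 : (0 : ℝ) < φ n := by exact_mod_cast Nat.totient_pos.mpr (Nat.pos_of_ne_zero hn)
  have key : ((dcg_B (m * n)).ncard : ℝ) ≤ ((dcg_B m).ncard : ℝ) * ((dcg_B n).ncard : ℝ) := by
    exact_mod_cast dcg_B_mul h
  calc ((dcg_B (m * n)).ncard : ℝ) / ((φ m : ℝ) * (φ n : ℝ))
      ≤ (((dcg_B m).ncard : ℝ) * ((dcg_B n).ncard : ℝ)) / ((φ m : ℝ) * (φ n : ℝ)) :=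
        div_le_div_of_nonneg_right key (mul_pos h1 h2).le
    _ = _ := by rw [mul_div_mul_comm]

theorem dcg_a_prime {f q : ℕ} (hf : 0 < f) (hq : q.Prime) (hqf : q ≡ 1 [MOD f]) :
    dcg_a f q ≤ 1 - 1 / (f : ℝ) := by
  unfold dcg_a
  rw [Nat.totient_prime hq]
  have h1 : (0 : ℝ) < ((q - 1 : ℕ) : ℝ) := by exact_mod_cast Nat.sub_pos_of_lt hq.one_lt
  have hf' : (0 : ℝ) < f := by exact_mod_cast hf
  rw [div_le_iff₀ h1]
  have h := dcg_A_prime hf hq hqf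
  have h' : (f : ℝ) * ((dcg_A f q).ncard : ℝ) ≤ ((f : ℝ) - 1) * ((q - 1 : ℕ) : ℝ) := by
    have : ((f - 1 : ℕ) : ℝ) = (f : ℝ) - 1 := by
      rw [Nat.cast_sub hf]; simp
    rw [← this]
    exact_mod_cast h
  have e : (1 - 1 / (f : ℝ)) * ((q - 1 : ℕ) : ℝ) = ((f : ℝ) - 1) * ((q - 1 : ℕ) : ℝ) / f := by
    field_simp
  rw [e, le_div_iff₀ hf', mul_comm]
  exact h'

theorem dcg_b_prime {q : ℕ} (hq : q.Prime) (hq4 : q ≡ 3 [MOD 4]) :
    dcg_b q ≤ 1 / 2 := by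
  unfold dcg_b
  rw [Nat.totient_prime hq]
  have h1 : (0 : ℝ) < ((q - 1 : ℕ) : ℝ) := by exact_mod_cast Nat.sub_pos_of_lt hq.one_lt
  rw [div_le_iff₀ h1]
  have h := dcg_B_prime hq hq4
  have h' : (2 : ℝ) * ((dcg_B q).ncard : ℝ) ≤ ((q - 1 : ℕ) : ℝ) := by exact_mod_cast h
  linarith

/-- the generic builder: a squarefree odd product of `r` primes satisfying `P`, coprime to `M₀`,
on which a submultiplicative ratio is at most `θ ^ r`. -/
theorem dcg_build (P : ℕ → Prop) (c : ℕ → ℝ) (θ : ℝ) (hθ : 0 ≤ θ) (hc0 : ∀ n, 0 ≤ c n)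
    (hc1 : c 1 ≤ 1)
    (hmul : ∀ m n, m ≠ 0 → n ≠ 0 → m.Coprime n → c (m * n) ≤ c m * c n)
    (hP : ∀ p, p.Prime → P p → c p ≤ θ) (hex : ∀ n, ∃ p > n, p.Prime ∧ P p)
    (r M₀ : ℕ) (hM : M₀ ≠ 0) :
    ∃ Q, Q.Coprime M₀ ∧ Odd Q ∧ Squarefree Q ∧ 3 ^ r ≤ Q ∧ c Q ≤ θ ^ r := by
  induction r with
  | zero => exact ⟨1, Nat.coprime_one_left _, odd_one, squarefree_one, by simp, by simpa using hc1⟩
  | succ r ih =>
    obtain ⟨Q, hQM, hQodd, hQsq, hQ3, hQc⟩ := ih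
    have hQ0 : Q ≠ 0 := by rintro rfl; simp at hQodd
    obtain ⟨p, hpgt, hp, hPp⟩ := hex (Q * M₀ + 2)
    have hQM0 : 0 < Q * M₀ := Nat.mul_pos (Nat.pos_of_ne_zero hQ0) (Nat.pos_of_ne_zero hM)
    have hpQ : Q < p := by
      have : Q ≤ Q * M₀ := Nat.le_mul_of_pos_right _ (Nat.pos_of_ne_zero hM)
      omega
    have hpM : M₀ < p := by
      have : M₀ ≤ Q * M₀ := Nat.le_mul_of_pos_left _ (Nat.pos_of_ne_zero hQ0)
      omega
    have hcopQ : Q.Coprime p :=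
      ((Nat.Prime.coprime_iff_not_dvd hp).mpr
        (Nat.not_dvd_of_pos_of_lt (Nat.pos_of_ne_zero hQ0) hpQ)).symm
    have hcopM : p.Coprime M₀ :=
      (Nat.Prime.coprime_iff_not_dvd hp).mpr
        (Nat.not_dvd_of_pos_of_lt (Nat.pos_of_ne_zero hM) hpM)
    have hpodd : Odd p := hp.odd_of_ne_two (by omega)
    refine ⟨Q * p, Nat.Coprime.mul_left hQM hcopM, hQodd.mul hpodd,
      (Nat.squarefree_mul hcopQ).mpr ⟨hQsq, (Nat.prime_iff.mp hp).squarefree⟩, ?_, ?_⟩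
    · rw [pow_succ]
      exact Nat.mul_le_mul hQ3 (by omega)
    · calc c (Q * p) ≤ c Q * c p := hmul Q p hQ0 hp.ne_zero hcopQ
        _ ≤ θ ^ r * θ := mul_le_mul hQc (hP p hp hPp) (hc0 p) (pow_nonneg hθ r)
        _ = θ ^ (r + 1) := (pow_succ θ r).symm

/-- **[C-CNT]** For every `f ≥ 1` and `ε > 0` there is an odd squarefree `m ≥ 3` such that all but
an `ε`-proportion of the units `t` mod `m` satisfy `f ∣ orderOf t` and `-1 ∉ ⟨t⟩`. -/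
theorem dcg_main (f : ℕ) (hf : 1 ≤ f) (ε : ℝ) (hε : 0 < ε) :
    ∃ m : ℕ, 3 ≤ m ∧ Odd m ∧ Squarefree m ∧
      (Nat.card {t : (ZMod m)ˣ //
        ¬ (f ∣ orderOf t ∧ (-1 : (ZMod m)ˣ) ∉ Subgroup.zpowers t)} : ℝ) ≤ ε * (Nat.totient m : ℝ) := by
  have hf0 : 0 < f := hf
  have : NeZero f := ⟨hf0.ne'⟩
  have hfR : (1 : ℝ) ≤ f := by exact_mod_cast hf
  set θ₁ : ℝ := 1 - 1 / (f : ℝ) with hθ₁
  have hθ₁0 : 0 ≤ θ₁ := by
    rw [hθ₁, sub_nonneg, div_le_one (by linarith)]; exact hfR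
  have hθ₁1 : θ₁ < 1 := by
    rw [hθ₁]; have : (0 : ℝ) < 1 / (f : ℝ) := by positivity
    linarith
  obtain ⟨r₁, hr₁⟩ := exists_pow_lt_of_lt_one (half_pos hε) hθ₁1
  obtain ⟨r₂, hr₂⟩ := exists_pow_lt_of_lt_one (half_pos hε) (by norm_num : (1 / 2 : ℝ) < 1)
  set r := max r₁ r₂ + 1 with hr
  have hr1 : θ₁ ^ r ≤ ε / 2 :=
    (pow_le_pow_of_le_one hθ₁0 hθ₁1.le (by omega)).trans hr₁.le
  have hr2 : (1 / 2 : ℝ) ^ r ≤ ε / 2 :=
    (pow_le_pow_of_le_one (by norm_num) (by norm_num) (by omega)).trans hr₂.le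
  -- first block: primes ≡ 1 mod f
  obtain ⟨Q, -, hQodd, hQsq, hQ3, hQc⟩ :=
    dcg_build (fun p => p ≡ 1 [MOD f]) (dcg_a f) θ₁ hθ₁0 (dcg_a_nonneg f)
      (dcg_a_le_one f 1 one_ne_zero) (dcg_a_mul f)
      (fun p hp hpf => dcg_a_prime hf0 hp hpf)
      (fun n => by
        obtain ⟨p, hpn, hp, hpa⟩ :=
          Nat.forall_exists_prime_gt_and_eq_mod (q := f) (a := 1) isUnit_one n
        refine ⟨p, hpn, hp, ?_⟩
        rw [← ZMod.natCast_eq_natCast_iff]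
        simpa using hpa) r 1 one_ne_zero
  have hQ0 : Q ≠ 0 := by rintro rfl; simp at hQodd
  -- second block: primes ≡ 3 mod 4, coprime to Q
  obtain ⟨Q', hQ'Q, hQ'odd, hQ'sq, hQ'3, hQ'c⟩ :=
    dcg_build (fun p => p ≡ 3 [MOD 4]) dcg_b (1 / 2) (by norm_num) dcg_b_nonneg
      (dcg_b_le_one 1 one_ne_zero) dcg_b_mul
      (fun p hp hp4 => dcg_b_prime hp hp4)
      (fun n => by
        obtain ⟨p, hpn, hp, hpa⟩ :=
          Nat.forall_exists_prime_gt_and_eq_mod (q := 4) (a := 3) (by decide) n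
        refine ⟨p, hpn, hp, ?_⟩
        rw [← ZMod.natCast_eq_natCast_iff]
        simpa using hpa) r Q hQ0
  have hQ'0 : Q' ≠ 0 := by rintro rfl; simp at hQ'odd
  have hcop : Q.Coprime Q' := hQ'Q.symm
  have hm0 : Q * Q' ≠ 0 := Nat.mul_ne_zero hQ0 hQ'0
  have : NeZero (Q * Q') := ⟨hm0⟩
  refine ⟨Q * Q', ?_, hQodd.mul hQ'odd, (Nat.squarefree_mul hcop).mpr ⟨hQsq, hQ'sq⟩, ?_⟩
  · have h3 : 3 ≤ Q := le_trans (by rw [hr, pow_succ]; exact Nat.le_mul_of_pos_left _ (by positivity)) hQ3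
    calc 3 ≤ Q := h3
      _ ≤ Q * Q' := Nat.le_mul_of_pos_right _ (Nat.pos_of_ne_zero hQ'0)
  · have hφ : (0 : ℝ) < φ (Q * Q') := by
      exact_mod_cast Nat.totient_pos.mpr (Nat.pos_of_ne_zero hm0)
    have hsub : {t : (ZMod (Q * Q'))ˣ |
        ¬ (f ∣ orderOf t ∧ (-1 : (ZMod (Q * Q'))ˣ) ∉ Subgroup.zpowers t)} ⊆
        dcg_A f (Q * Q') ∪ dcg_B (Q * Q') := by
      intro t ht
      by_cases h1 : f ∣ orderOf t
      · right
        by_contra h2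
        exact ht ⟨h1, h2⟩
      · left; exact h1
    have hcard : Nat.card {t : (ZMod (Q * Q'))ˣ //
        ¬ (f ∣ orderOf t ∧ (-1 : (ZMod (Q * Q'))ˣ) ∉ Subgroup.zpowers t)} ≤
        (dcg_A f (Q * Q')).ncard + (dcg_B (Q * Q')).ncard := by
      have e : Nat.card {t : (ZMod (Q * Q'))ˣ //
          ¬ (f ∣ orderOf t ∧ (-1 : (ZMod (Q * Q'))ˣ) ∉ Subgroup.zpowers t)} =
          Set.ncard {t : (ZMod (Q * Q'))ˣ |
          ¬ (f ∣ orderOf t ∧ (-1 : (ZMod (Q * Q'))ˣ) ∉ Subgroup.zpowers t)} :=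
        Nat.card_coe_set_eq _
      rw [e]
      exact (Set.ncard_le_ncard hsub (Set.toFinite _)).trans (Set.ncard_union_le _ _)
    have hA : ((dcg_A f (Q * Q')).ncard : ℝ) ≤ ε / 2 * φ (Q * Q') := by
      have h1 : dcg_a f (Q * Q') ≤ ε / 2 :=
        calc dcg_a f (Q * Q') ≤ dcg_a f Q * dcg_a f Q' := dcg_a_mul f Q Q' hQ0 hQ'0 hcop
          _ ≤ θ₁ ^ r * 1 :=
            mul_le_mul hQc (dcg_a_le_one f Q' hQ'0) (dcg_a_nonneg f Q') (pow_nonneg hθ₁0 r)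
          _ ≤ ε / 2 := by rw [mul_one]; exact hr1
      unfold dcg_a at h1
      rwa [div_le_iff₀ hφ] at h1
    have hB : ((dcg_B (Q * Q')).ncard : ℝ) ≤ ε / 2 * φ (Q * Q') := by
      have h1 : dcg_b (Q * Q') ≤ ε / 2 :=
        calc dcg_b (Q * Q') ≤ dcg_b Q * dcg_b Q' := dcg_b_mul Q Q' hQ0 hQ'0 hcop
          _ ≤ 1 * (1 / 2) ^ r :=
            mul_le_mul (dcg_b_le_one Q hQ0) hQ'c (dcg_b_nonneg Q') zero_le_one
          _ ≤ ε / 2 := by rw [one_mul]; exact hr2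
      unfold dcg_b at h1
      rwa [div_le_iff₀ hφ] at h1
    calc (Nat.card {t : (ZMod (Q * Q'))ˣ //
          ¬ (f ∣ orderOf t ∧ (-1 : (ZMod (Q * Q'))ˣ) ∉ Subgroup.zpowers t)} : ℝ)
        ≤ ((dcg_A f (Q * Q')).ncard : ℝ) + ((dcg_B (Q * Q')).ncard : ℝ) := by exact_mod_cast hcard
      _ ≤ ε / 2 * φ (Q * Q') + ε / 2 * φ (Q * Q') := add_le_add hA hB
      _ = ε * φ (Q * Q') := by ring

end Fermat.Agent.DS
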