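/-
[C-CYC] (DS-C leaf, helper13's architecture #1606): the cyclotomic tower `L ⊂ L' = L(ζ_m)` over `ℚ`.
Pure field theory, Mathlib only.  Prefix `dcy_`.
-/
import Mathlib

set_option autoImplicit false
set_option linter.style.haveILetI false
set_option linter.unusedSectionVars false

namespace Fermat.Agent.DS

open Polynomial

section Kernel

/-! ### The fibres of `Gal(L'/ℚ) → Gal(L/ℚ)` (no cyclotomic hypothesis) -/

variable (L L' : Type*) [Field L] [Field L'] [Algebra ℚ L] [Algebra ℚ L'] [Algebra L L']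
  [IsScalarTower ℚ L L'] [Normal ℚ L]

/-- `g` restricted to `L`, evaluated: `algebraMap (g|_L x) = g (algebraMap x)`. -/
theorem dcy_restrict_commutes (g : L' ≃ₐ[ℚ] L') (x : L) :
    algebraMap L L' (AlgEquiv.restrictNormalHom L g x) = g (algebraMap L L' x) :=
  AlgEquiv.restrictNormal_commutes g L x

/-- A `ℚ`-automorphism of `L'` restricts to the identity of `L` iff it fixes `L` pointwise. -/
theorem dcy_restrict_eq_iff (g g' : L' ≃ₐ[ℚ] L') :
    AlgEquiv.restrictNormalHom L g = AlgEquiv.restrictNormalHom L g' ↔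
      ∀ x : L, g (algebraMap L L' x) = g' (algebraMap L L' x) := by
  constructor
  · intro h x
    rw [← dcy_restrict_commutes, ← dcy_restrict_commutes, h]
  · intro h
    ext x
    apply (algebraMap L L').injective
    rw [dcy_restrict_commutes, dcy_restrict_commutes, h]

/-- The kernel of the restriction map is `Gal(L'/L)`. -/
noncomputable def dcy_kerEquiv :
    {g : L' ≃ₐ[ℚ] L' // AlgEquiv.restrictNormalHom L g = 1} ≃ (L' ≃ₐ[L] L') where
  toFun g :=
    { (g.1 : L' ≃+* L') with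
      commutes' := fun x => by
        have h := (dcy_restrict_eq_iff L L' g.1 1).mp (by rw [g.2, map_one]) x
        simpa using h }
  invFun h := ⟨h.restrictScalars ℚ, by
    rw [← map_one (AlgEquiv.restrictNormalHom (F := ℚ) (K₁ := L') L), dcy_restrict_eq_iff]
    intro x
    simp⟩
  left_inv g := by
    apply Subtype.ext
    ext x
    rfl
  right_inv h := by
    ext x
    rfl

/-- Every fibre of the restriction map is in bijection with the kernel. -/
noncomputable def dcy_fiberEquiv (g₀ : L' ≃ₐ[ℚ] L') :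
    {g : L' ≃ₐ[ℚ] L' // AlgEquiv.restrictNormalHom L g = 1} ≃
      {g : L' ≃ₐ[ℚ] L' // AlgEquiv.restrictNormalHom L g = AlgEquiv.restrictNormalHom L g₀} where
  toFun g := ⟨g₀ * g.1, by rw [map_mul, g.2, mul_one]⟩
  invFun g := ⟨g₀⁻¹ * g.1, by rw [map_mul, g.2, map_inv, inv_mul_cancel]⟩
  left_inv g := by
    apply Subtype.ext
    simp
  right_inv g := by
    apply Subtype.ext
    simp

/-- **Fibre count**: every fibre of `Gal(L'/ℚ) → Gal(L/ℚ)` has `[L' : L]` elements. -/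
theorem dcy_card_fiber_gen [FiniteDimensional L L'] [IsGalois ℚ L'] (σ : L ≃ₐ[ℚ] L) :
    Nat.card {g : L' ≃ₐ[ℚ] L' // AlgEquiv.restrictNormalHom L g = σ} = Module.finrank L L' := by
  haveI : IsGalois L L' := IsGalois.tower_top_of_isGalois ℚ L L'
  obtain ⟨g₀, rfl⟩ := AlgEquiv.restrictNormalHom_surjective (F := ℚ) (K₁ := L) L' σ
  rw [← IsGalois.card_aut_eq_finrank L L']
  exact Nat.card_congr ((dcy_fiberEquiv L L' g₀).symm.trans (dcy_kerEquiv L L'))

end Kernel

section General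

variable (L L' : Type*) [Field L] [NumberField L] [Field L'] [NumberField L'] [Algebra L L']

/-- `L(ζ_m)/ℚ` is Galois when `L/ℚ` is. -/
theorem dcy_isGalois (m : ℕ) [NeZero m] [IsCyclotomicExtension {m} L L'] [IsGalois ℚ L] :
    IsGalois ℚ L' := by
  obtain ⟨f, hfsep, hfsplit⟩ := IsGalois.is_separable_splitting_field ℚ L
  haveI := hfsplit
  haveI : IsSplittingField L L' ((X ^ m - 1 : ℚ[X]).map (algebraMap ℚ L)) := by
    have h := IsCyclotomicExtension.isSplittingField_X_pow_sub_one m L L'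
    simpa using h
  haveI : IsSplittingField ℚ L' (f * (X ^ m - 1)) :=
    IsSplittingField.mul (K := L) L' f (X ^ m - 1) hfsep.ne_zero (X_pow_sub_C_ne_zero (NeZero.pos m) 1)
  haveI : Normal ℚ L' := Normal.of_isSplittingField (f * (X ^ m - 1))
  exact {}

/-- **Fibre count**, for the tower `ℚ ⊂ L ⊂ L' = L(ζ_m)`. -/
theorem dcy_card_fiber (m : ℕ) [NeZero m] [IsCyclotomicExtension {m} L L'] [IsGalois ℚ L]
    (σ : L ≃ₐ[ℚ] L) :
    Nat.card {g : L' ≃ₐ[ℚ] L' // AlgEquiv.restrictNormalHom L g = σ} = Module.finrank L L' := by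
  haveI : IsGalois ℚ L' := dcy_isGalois L L' m
  haveI : FiniteDimensional L L' := IsCyclotomicExtension.finiteDimensional {m} L L'
  exact dcy_card_fiber_gen L L' σ

variable {L'} {m : ℕ} [NeZero m] [IsCyclotomicExtension {m} L L']

/-- **Extensionality**: an element of `Gal(L(ζ_m)/ℚ)` is determined by its restriction to `L`
and its value at `ζ_m`. -/
theorem dcy_ext_of [IsGalois ℚ L] {ζ : L'} (hζ : IsPrimitiveRoot ζ m) (g g' : L' ≃ₐ[ℚ] L')
    (hL : AlgEquiv.restrictNormalHom L g = AlgEquiv.restrictNormalHom L g')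
    (hz : g ζ = g' ζ) : g = g' := by
  have htop : Algebra.adjoin L {ζ} = ⊤ := IsCyclotomicExtension.adjoin_primitive_root_eq_top hζ
  have hmap := (dcy_restrict_eq_iff L L' g g').mp hL
  ext y
  have hy : y ∈ Algebra.adjoin L {ζ} := htop ▸ Algebra.mem_top
  induction hy using Algebra.adjoin_induction with
  | mem x hx => rw [Set.mem_singleton_iff.mp hx]; exact hz
  | algebraMap r => exact hmap r
  | add x y _ _ hx hy => rw [map_add, map_add, hx, hy]
  | mul x y _ _ hx hy => rw [map_mul, map_mul, hx, hy]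

/-- **Degree bound**: `φ(m) ≤ [L(ζ_m) : L] · [L : ℚ]` (no linear disjointness needed). -/
theorem dcy_finrank_of {ζ : L'} (hζ : IsPrimitiveRoot ζ m) :
    Nat.totient m ≤ Module.finrank L L' * Module.finrank ℚ L := by
  have h1 : (minpoly ℚ ζ).natDegree ≤ Module.finrank ℚ L' := minpoly.natDegree_le ζ
  rw [← Polynomial.cyclotomic_eq_minpoly_rat hζ (NeZero.pos m), natDegree_cyclotomic,
    ← Module.finrank_mul_finrank ℚ L L'] at h1
  rwa [mul_comm]

variable (L') (m) in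
/-- **Degree bound**, for the tower `ℚ ⊂ L ⊂ L' = L(ζ_m)`. -/
theorem dcy_finrank : Nat.totient m ≤ Module.finrank L L' * Module.finrank ℚ L :=
  dcy_finrank_of L (IsCyclotomicExtension.zeta_spec m L L')

end General

section Character

/-! ### The cyclotomic character `Gal(L'/ℚ) → (ℤ/m)ˣ` attached to a primitive root `ζ`

Only `L'` matters here. -/

variable {L' : Type*} [Field L'] [Algebra ℚ L'] {m : ℕ} [NeZero m] {ζ : L'}

/-- The cyclotomic character (Mathlib's `IsPrimitiveRoot.autToPow`), as a monoid hom. -/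
noncomputable def dcy_chi (hζ : IsPrimitiveRoot ζ m) : (L' ≃ₐ[ℚ] L') →* (ZMod m)ˣ :=
  hζ.autToPow ℚ

theorem dcy_chi_spec (hζ : IsPrimitiveRoot ζ m) (g : L' ≃ₐ[ℚ] L') :
    g ζ = ζ ^ ((dcy_chi hζ g : (ZMod m)ˣ) : ZMod m).val :=
  (hζ.autToPow_spec ℚ g).symm

/-- `ζ ^ a.val = ζ ^ b.val` forces `a = b` in `ZMod m`. -/
theorem dcy_pow_val_inj (hζ : IsPrimitiveRoot ζ m) {a b : ZMod m}
    (h : ζ ^ a.val = ζ ^ b.val) : a = b :=
  ZMod.val_injective m (hζ.pow_inj (ZMod.val_lt a) (ZMod.val_lt b) h)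

/-- The character is characterised by the action on `ζ`. -/
theorem dcy_chi_eq_iff (hζ : IsPrimitiveRoot ζ m) (g : L' ≃ₐ[ℚ] L') (t : (ZMod m)ˣ) :
    dcy_chi hζ g = t ↔ g ζ = ζ ^ (t : ZMod m).val := by
  constructor
  · rintro rfl
    exact dcy_chi_spec hζ g
  · intro h
    rw [dcy_chi_spec hζ g] at h
    exact Units.ext (dcy_pow_val_inj hζ h)

/-- `g ζ = ζ` iff the character of `g` is trivial. -/
theorem dcy_chi_eq_one_iff (hζ : IsPrimitiveRoot ζ m) (g : L' ≃ₐ[ℚ] L') :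
    dcy_chi hζ g = 1 ↔ g ζ = ζ := by
  rw [dcy_chi_eq_iff]
  rcases Nat.lt_or_ge 1 m with hm | hm
  · haveI : Fact (1 < m) := ⟨hm⟩
    rw [Units.val_one, ZMod.val_one, pow_one]
  · have hm1 : m = 1 := le_antisymm hm (NeZero.pos m)
    subst hm1
    have hζ1 : ζ = 1 := by simpa using hζ
    subst hζ1
    simp

/-- `g ζ = ζ⁻¹` iff the character of `g` is `-1`. -/
theorem dcy_chi_eq_neg_one_iff (hζ : IsPrimitiveRoot ζ m) (g : L' ≃ₐ[ℚ] L') :
    dcy_chi hζ g = -1 ↔ g ζ = ζ⁻¹ := by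
  rw [dcy_chi_eq_iff]
  have hinv : ζ ^ ((-1 : (ZMod m)ˣ) : ZMod m).val = ζ⁻¹ := by
    have hz0 : ζ ≠ 0 := hζ.ne_zero (NeZero.ne m)
    obtain ⟨k, rfl⟩ : ∃ k, m = k + 1 := ⟨m - 1, (Nat.sub_add_cancel (NeZero.pos m)).symm⟩
    rw [Units.val_neg, Units.val_one, ZMod.val_neg_one]
    apply eq_inv_of_mul_eq_one_left
    rw [← pow_succ, hζ.pow_eq_one]
  rw [hinv]

/-- **Existence of the exponent** (#1606 form). -/
theorem dcy_exists_pow_of (hζ : IsPrimitiveRoot ζ m) (g : L' ≃ₐ[ℚ] L') :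
    ∃ t : (ZMod m)ˣ, g ζ = ζ ^ (t : ZMod m).val :=
  ⟨dcy_chi hζ g, dcy_chi_spec hζ g⟩

/-- If `-1 ∉ ⟨χ(g)⟩` then no element of `⟨g⟩` acts on `ζ` as complex conjugation. -/
theorem dcy_no_conj (hζ : IsPrimitiveRoot ζ m) (g : L' ≃ₐ[ℚ] L')
    (hneg : (-1 : (ZMod m)ˣ) ∉ Subgroup.zpowers (dcy_chi hζ g)) :
    ∀ c ∈ Subgroup.zpowers g, c ζ ≠ ζ⁻¹ := by
  intro c hc hcz
  obtain ⟨k, rfl⟩ := Subgroup.mem_zpowers_iff.mp hc
  apply hneg
  rw [← dcy_chi_eq_neg_one_iff hζ, map_zpow] at hcz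
  exact Subgroup.mem_zpowers_iff.mpr ⟨k, hcz⟩

end Character

section Crossing

/-! ### Consumer lemmas for the crossing argument -/

variable (L : Type*) {L' : Type*} [Field L] [NumberField L] [IsGalois ℚ L] [Field L']
  [NumberField L'] [Algebra L L'] {m : ℕ} [NeZero m] [IsCyclotomicExtension {m} L L'] {ζ : L'}

/-- `g ↦ (g|_L, χ(g))` is injective on `Gal(L(ζ_m)/ℚ)`. -/
theorem dcy_pair_injective (hζ : IsPrimitiveRoot ζ m) :
    Function.Injective
      (fun g : L' ≃ₐ[ℚ] L' => (AlgEquiv.restrictNormalHom L g, dcy_chi hζ g)) := by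
  intro g g' h
  have h1 : AlgEquiv.restrictNormalHom L g = AlgEquiv.restrictNormalHom L g' :=
    congrArg Prod.fst h
  have h2 : dcy_chi hζ g = dcy_chi hζ g' := congrArg Prod.snd h
  refine dcy_ext_of L hζ g g' h1 ?_
  rw [dcy_chi_spec hζ g, dcy_chi_spec hζ g', h2]

/-- In a fibre over `σ`, at most `|B|` elements have character in `B`. -/
theorem dcy_card_fiber_chi_le (hζ : IsPrimitiveRoot ζ m) (σ : L ≃ₐ[ℚ] L) (B : Set (ZMod m)ˣ) :
    Nat.card {g : L' ≃ₐ[ℚ] L' // AlgEquiv.restrictNormalHom L g = σ ∧ dcy_chi hζ g ∈ B} ≤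
      Nat.card B := by
  refine Nat.card_le_card_of_injective
    (fun g => (⟨dcy_chi hζ g.1, g.2.2⟩ : B)) ?_
  intro g g' h
  apply Subtype.ext
  apply dcy_pair_injective L hζ
  have h2 : dcy_chi hζ g.1 = dcy_chi hζ g'.1 := congrArg Subtype.val h
  exact Prod.ext (g.2.1.trans g'.2.1.symm) h2

/-- **Faithfulness** (hypothesis `hfaith` of `dcd_mass_cyclo`): if `ord(g|_L) ∣ ord χ(g)` then
`⟨g⟩` acts faithfully on `ζ`. -/
theorem dcy_faithful (hζ : IsPrimitiveRoot ζ m) (g : L' ≃ₐ[ℚ] L')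
    (hord : orderOf (AlgEquiv.restrictNormalHom L g) ∣ orderOf (dcy_chi hζ g)) :
    ∀ c ∈ Subgroup.zpowers g, c ζ = ζ → c = 1 := by
  intro c hc hcz
  obtain ⟨k, rfl⟩ := Subgroup.mem_zpowers_iff.mp hc
  have h1 : dcy_chi hζ g ^ k = 1 := by
    rw [← map_zpow]; exact (dcy_chi_eq_one_iff hζ _).mpr hcz
  have h2 : (orderOf (dcy_chi hζ g) : ℤ) ∣ k := orderOf_dvd_iff_zpow_eq_one.mpr h1
  have h3 : AlgEquiv.restrictNormalHom L g ^ k = 1 :=
    orderOf_dvd_iff_zpow_eq_one.mp ((Int.natCast_dvd_natCast.mpr hord).trans h2)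
  refine dcy_ext_of L hζ (g ^ k) 1 ?_ ?_
  · rw [map_zpow, h3, map_one]
  · rw [hcz]; rfl

/-- The order of `g` is the order of `χ(g)` when `ord(g|_L) ∣ ord χ(g)`. -/
theorem dcy_orderOf_eq (hζ : IsPrimitiveRoot ζ m) (g : L' ≃ₐ[ℚ] L')
    (hord : orderOf (AlgEquiv.restrictNormalHom L g) ∣ orderOf (dcy_chi hζ g)) :
    orderOf g = orderOf (dcy_chi hζ g) := by
  apply Nat.dvd_antisymm
  · rw [orderOf_dvd_iff_pow_eq_one]
    apply dcy_faithful L hζ g hord _ (Subgroup.npow_mem_zpowers g _)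
    rw [← dcy_chi_eq_one_iff hζ, map_pow, pow_orderOf_eq_one]
  · exact orderOf_dvd_of_pow_eq_one (by rw [← map_pow, pow_orderOf_eq_one, map_one])

end Crossing

section CycField

/-! ### Specialisation to `L' = CyclotomicField m L` -/

variable (L : Type*) [Field L] [NumberField L] [IsGalois ℚ L] (m : ℕ) [NeZero m]

instance dcy_cf_isGalois : IsGalois ℚ (CyclotomicField m L) :=
  dcy_isGalois L (CyclotomicField m L) m

/-- The chosen primitive `m`-th root of unity of `CyclotomicField m L`. -/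
noncomputable def dcy_zeta : CyclotomicField m L :=
  IsCyclotomicExtension.zeta m L (CyclotomicField m L)

theorem dcy_zeta_spec : IsPrimitiveRoot (dcy_zeta L m) m :=
  IsCyclotomicExtension.zeta_spec m L (CyclotomicField m L)

theorem dcy_ext (g g' : CyclotomicField m L ≃ₐ[ℚ] CyclotomicField m L)
    (hL : AlgEquiv.restrictNormalHom L g = AlgEquiv.restrictNormalHom L g')
    (hz : g (dcy_zeta L m) = g' (dcy_zeta L m)) : g = g' :=
  dcy_ext_of L (dcy_zeta_spec L m) g g' hL hz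

theorem dcy_cf_finrank :
    Nat.totient m ≤ Module.finrank L (CyclotomicField m L) * Module.finrank ℚ L :=
  dcy_finrank L (CyclotomicField m L) m

theorem dcy_cf_card_fiber (σ : L ≃ₐ[ℚ] L) :
    Nat.card {g : CyclotomicField m L ≃ₐ[ℚ] CyclotomicField m L //
      AlgEquiv.restrictNormalHom L g = σ} = Module.finrank L (CyclotomicField m L) :=
  dcy_card_fiber L (CyclotomicField m L) m σ

theorem dcy_exists_pow (g : CyclotomicField m L ≃ₐ[ℚ] CyclotomicField m L) :
    ∃ t : (ZMod m)ˣ, g (dcy_zeta L m) = dcy_zeta L m ^ (t : ZMod m).val :=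
  dcy_exists_pow_of (dcy_zeta_spec L m) g

end CycField

end Fermat.Agent.DS
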