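/-
DS-C (Chebotarev density), leaf [C-DEU], part 4: bridge between sums over the primes of a number
field `E` (`Set.primeIdealZetaSum`, S14/Density) and prime Dirichlet series over `ℕ` (`wc_P`, WC).
* `dcd_degOneSet E T`     : the primes of `E` of prime norm `p` with `T p`;
* `dcd_zetaSum_degOne`    : `∑_{v ∈ dcd_degOneSet E T} N v ^ (-s) = wc_P (p ↦ [T p] · wc_a E p) s`;
* `dcd_abs_zetaSum_sub_le`: a set of primes and its degree-one part differ by `≤ dn_degConst E`.
Owner: helper13.  Prefix `dcd_`.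
-/
import Mathlib
import Fermat.Agent.S14.Density.Infinite
import Fermat.Agent.WC.Mass

set_option autoImplicit false
set_option linter.style.haveILetI false
set_option linter.unusedSectionVars false

open NumberField Ideal IsDedekindDomain

namespace Fermat.Agent.DS

open Fermat.Agent.S14 Fermat.Agent.WC

variable (E : Type*) [Field E] [NumberField E]

/-- The primes of `E` whose norm is a prime number `p` with `T p`. -/
def dcd_degOneSet (T : ℕ → Prop) : Set (HeightOneSpectrum (𝓞 E)) :=
  {v | (absNorm v.asIdeal).Prime ∧ T (absNorm v.asIdeal)}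

/-- the fibre of the norm over a prime number `p` with `T p` -/
noncomputable def dcd_fiberEquiv (T : ℕ → Prop) (p : Nat.Primes) (hp : T p) :
    {v : dcd_degOneSet E T // (⟨absNorm v.1.asIdeal, v.2.1⟩ : Nat.Primes) = p} ≃
      {I : Ideal (𝓞 E) // absNorm I = p} where
  toFun v := ⟨v.1.1.asIdeal, congrArg Subtype.val v.2⟩
  invFun I :=
    have hprime : (I.1).IsPrime := Ideal.isPrime_of_irreducible_absNorm (by
      rw [I.2]; exact p.2.prime.irreducible)
    have hne : I.1 ≠ ⊥ := by
      intro h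
      have h2 := I.2
      rw [h, Ideal.absNorm_bot] at h2
      exact p.2.ne_zero h2.symm
    ⟨⟨⟨I.1, hprime, hne⟩, by
      show (absNorm I.1).Prime ∧ T (absNorm I.1)
      rw [I.2]; exact ⟨p.2, hp⟩⟩, Subtype.ext I.2⟩
  left_inv v := by
    apply Subtype.ext
    apply Subtype.ext
    rfl
  right_inv I := rfl

theorem dcd_card_fiber (T : ℕ → Prop) [DecidablePred T] (p : Nat.Primes) :
    Nat.card {v : dcd_degOneSet E T // (⟨absNorm v.1.asIdeal, v.2.1⟩ : Nat.Primes) = p} =
      if T p then wc_a E p else 0 := by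
  split_ifs with hp
  · exact Nat.card_congr (dcd_fiberEquiv E T p hp)
  · haveI : IsEmpty {v : dcd_degOneSet E T //
        (⟨absNorm v.1.asIdeal, v.2.1⟩ : Nat.Primes) = p} := by
      refine ⟨fun v => hp ?_⟩
      have h1 := v.1.2.2
      have h2 : absNorm v.1.1.asIdeal = (p : ℕ) := congrArg Subtype.val v.2
      rwa [h2] at h1
    exact Nat.card_of_isEmpty

/-- **The degree-one primes with norm in `T`** contribute `∑_p [T p] · wc_a E p · p ^ (-s)`. -/
theorem dcd_zetaSum_degOne (T : ℕ → Prop) [DecidablePred T] {s : ℝ} (hs : 1 < s) :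
    (dcd_degOneSet E T).primeIdealZetaSum s =
      wc_P (fun p => if T p then (wc_a E p : ℝ) else 0) s := by
  rw [NumberField.Set.primeIdealZetaSum_def]
  set π : dcd_degOneSet E T → Nat.Primes := fun v => ⟨absNorm v.1.asIdeal, v.2.1⟩ with hπ
  have hsum : Summable fun v : dcd_degOneSet E T => (absNorm v.1.asIdeal : ℝ) ^ (-s) :=
    dn_summable_subtype_rpow _ hs
  have h1 := (hsum.hasSum.tsum_fiberwise π).tsum_eq
  rw [← h1]
  unfold wc_P
  refine tsum_congr fun p => ?_
  have h2 : ∀ v : π ⁻¹' {p}, (absNorm v.1.1.asIdeal : ℝ) ^ (-s) = ((p : ℕ) : ℝ) ^ (-s) := by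
    intro v
    have h3 : π v.1 = p := v.2
    have h4 : absNorm v.1.1.asIdeal = (p : ℕ) := congrArg Subtype.val h3
    rw [h4]
  rw [tsum_congr h2, tsum_const, nsmul_eq_mul]
  congr 1
  have h5 : Nat.card (π ⁻¹' {p}) = if T p then wc_a E p else 0 := dcd_card_fiber E T p
  rw [h5]
  show ((if T p then wc_a E p else 0 : ℕ) : ℝ) = if T p then (wc_a E p : ℝ) else 0
  by_cases hT : T p
  · rw [if_pos hT, if_pos hT]
  · rw [if_neg hT, if_neg hT, Nat.cast_zero]

/-- A set of primes and its part of prime norm differ by a bounded amount. -/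
theorem dcd_abs_zetaSum_sub_le (S : Set (HeightOneSpectrum (𝓞 E))) {s : ℝ} (hs : 1 < s) :
    |S.primeIdealZetaSum s -
      (S ∩ {v | (absNorm v.asIdeal).Prime}).primeIdealZetaSum s| ≤ dn_degConst E := by
  have h1 : S ⊆ (S ∩ {v | (absNorm v.asIdeal).Prime}) ∪ {v | ¬ (absNorm v.asIdeal).Prime} := by
    intro v hv
    by_cases h : (absNorm v.asIdeal).Prime
    · exact Or.inl ⟨hv, h⟩
    · exact Or.inr h
  have h2 := dn_primeIdealZetaSum_le_add h1 hs
  have h3 := dn_nonDegOne_le E hs
  have h4 : (S ∩ {v | (absNorm v.asIdeal).Prime}).primeIdealZetaSum s ≤ S.primeIdealZetaSum s := by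
    have h5 : S ∩ {v | (absNorm v.asIdeal).Prime} ⊆ S ∪ ∅ := fun v hv => Or.inl hv.1
    have h6 := dn_primeIdealZetaSum_le_add h5 hs
    have h7 : (∅ : Set (HeightOneSpectrum (𝓞 E))).primeIdealZetaSum s = 0 := by
      rw [NumberField.Set.primeIdealZetaSum_def]
      simp
    linarith
  have h0 : 0 ≤ ({v : HeightOneSpectrum (𝓞 E) |
      ¬ (absNorm v.asIdeal).Prime}).primeIdealZetaSum s :=
    NumberField.Set.primeIdealZetaSum_nonneg _ s
  rw [abs_le]
  constructor <;> linarith

end Fermat.Agent.DS
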