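/-
DS-C (Chebotarev density), leaf [C-DEU], part 2: the fixed field of a subgroup `H ≤ Gal(L/ℚ)`
containing no "complex conjugation" (no element acting as `ζ ↦ ζ⁻¹` on a root of unity `ζ`) is
totally complex.
Owner: helper13.  Prefix `dcd_`.
-/
import Mathlib

set_option autoImplicit false
set_option linter.style.haveILetI false
set_option linter.unusedSectionVars false

open NumberField

namespace Fermat.Agent.DS

variable {L : Type*} [Field L] [NumberField L] [IsGalois ℚ L]

/-- **A fixed field without complex conjugations is totally complex.** -/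
theorem dcd_isTotallyComplex (H : Subgroup (L ≃ₐ[ℚ] L)) {m : ℕ} (hm : m ≠ 0) {ζ : L}
    (hζ : ζ ^ m = 1) (hnc : ∀ c ∈ H, c ζ ≠ ζ⁻¹) :
    IsTotallyComplex ↥(IntermediateField.fixedField H) := by
  set E := IntermediateField.fixedField H with hE
  refine ⟨fun w => ?_⟩
  rw [← InfinitePlace.not_isReal_iff_isComplex]
  intro hw
  rw [InfinitePlace.isReal_iff] at hw
  set φ : ↥E →+* ℂ := w.embedding with hφ
  have hφreal : ComplexEmbedding.conjugate φ = φ := ComplexEmbedding.isReal_iff.1 hw
  -- extend `φ` to `L`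
  letI : Algebra ↥E ℂ := φ.toAlgebra
  let ψa : L →ₐ[↥E] ℂ := IsAlgClosed.lift
  let ψ : L →+* ℂ := ψa.toRingHom
  have hψ : ∀ x : ↥E, ψ (algebraMap ↥E L x) = φ x := fun x => ψa.commutes x
  -- the conjugate embedding agrees with `ψ` on `E`
  have hcomp : ψ.comp (algebraMap ↥E L) =
      (ComplexEmbedding.conjugate ψ).comp (algebraMap ↥E L) := by
    ext x
    rw [RingHom.comp_apply, RingHom.comp_apply, ComplexEmbedding.conjugate_coe_eq, hψ]
    have := RingHom.congr_fun hφreal x
    rw [ComplexEmbedding.conjugate_coe_eq] at this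
    exact this.symm
  obtain ⟨σ, hσ⟩ := ComplexEmbedding.exists_comp_symm_eq_of_comp_eq (k := ↥E) ψ
    (ComplexEmbedding.conjugate ψ) hcomp
  -- `σ.symm` lies in `H`
  set c : L ≃ₐ[ℚ] L := σ.symm.restrictScalars ℚ with hc
  have hcH : c ∈ H := by
    have h1 : c ∈ E.fixingSubgroup := by
      rw [IntermediateField.mem_fixingSubgroup_iff]
      intro x hx
      exact σ.symm.commutes ⟨x, hx⟩
    rwa [hE, IntermediateField.fixingSubgroup_fixedField] at h1
  -- `c ζ = ζ⁻¹`
  apply hnc c hcH
  have h2 : ψ (c ζ) = ComplexEmbedding.conjugate ψ ζ := by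
    have := RingHom.congr_fun hσ ζ
    rw [RingHom.comp_apply] at this
    exact this
  have hψζ : (ψ ζ) ^ m = 1 := by rw [← map_pow, hζ, map_one]
  have hnorm : ‖ψ ζ‖ = 1 := Complex.norm_eq_one_of_pow_eq_one hψζ hm
  rw [ComplexEmbedding.conjugate_coe_eq, ← Complex.inv_eq_conj hnorm, ← map_inv₀] at h2
  exact ψ.injective h2

end Fermat.Agent.DS
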