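/-
DS-C (Chebotarev density), leaf [C-DEU], part 1: Frobenius elements and roots of unity, and the
Deuring-type counting identity in a cyclotomic situation.

`L / ℚ` a Galois number field, `g ∈ Gal(L/ℚ)`, `H = ⟨g⟩`, `E = L^H`, `ζ ∈ L` a primitive `m`-th root
of unity on which `H` acts faithfully.  For a rational prime `ℓ ∤ m` with trivial inertia in `L`:
* `dcd_frob_apply_root`  : a Frobenius element `c` at a prime over `ℓ` satisfies `c ζ = ζ ^ ℓ`;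
* `dcd_N_eq_zero`        : `wc_N L ℓ c = 0` unless `c ζ = ζ ^ ℓ`;
* `dcd_count_single`     : for `c ∈ H` with `c ζ = ζ ^ ℓ`:
                           `ord(c) · wc_N L ℓ c = |H| · wc_a E ℓ`;
* `dcd_N_eq`             : `wc_N L ℓ g = if g ζ = ζ ^ ℓ then wc_a E ℓ else 0`.
Owner: helper13.  Prefix `dcd_`.
-/
import Mathlib
import Fermat.Agent.WC.FrobCount
import Fermat.Agent.WC.FrobDecomp

set_option autoImplicit false
set_option linter.style.haveILetI false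
set_option linter.unusedSectionVars false

open NumberField
open scoped Pointwise

namespace Fermat.Agent.DS

open Fermat.Agent.WC

section root

variable {L : Type*} [Field L] [NumberField L]

/-- a rational integer prime to `ℓ` is not in a prime over `ℓ` -/
theorem dcd_natCast_notMem {ℓ m : ℕ} (hℓm : Nat.Coprime ℓ m) {P : Ideal (𝓞 L)} (hP : P.IsPrime)
    (hℓP : (ℓ : 𝓞 L) ∈ P) : (m : 𝓞 L) ∉ P := by
  intro hm
  apply hP.ne_top
  rw [Ideal.eq_top_iff_one]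
  have h1 : ((Nat.gcdA ℓ m : ℤ) : 𝓞 L) * (ℓ : 𝓞 L) + ((Nat.gcdB ℓ m : ℤ) : 𝓞 L) * (m : 𝓞 L) = 1 := by
    have h := Nat.gcd_eq_gcd_ab ℓ m
    rw [hℓm.gcd_eq_one] at h
    have h3 := congrArg (Int.cast : ℤ → 𝓞 L) h
    push_cast at h3
    rw [h3]
    ring
  rw [← h1]
  exact P.add_mem (P.mul_mem_left _ hℓP) (P.mul_mem_left _ hm)

variable [IsGalois ℚ L]

/-- **A Frobenius element at a prime over `ℓ` raises the roots of unity of order prime to `ℓ` to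
the `ℓ`-th power** (integral version). -/
theorem dcd_frob_smul_root {ℓ m : ℕ} (hℓ : ℓ.Prime) (hℓm : Nat.Coprime ℓ m) {P : Ideal (𝓞 L)}
    (hP : P.IsPrime) (hℓP : (ℓ : 𝓞 L) ∈ P) {c : L ≃ₐ[ℚ] L} (hc : wc_IsFrob c P ℓ) {z : 𝓞 L}
    (hz : z ^ m = 1) : c • z = z ^ ℓ := by
  haveI := hP
  have h1 : IsArithFrobAt ℤ c P := (wcb_isFrob_iff_arith hℓ P hP hℓP c).1 hc
  have h2 := AlgHom.IsArithFrobAt.apply_of_pow_eq_one h1 hz (dcd_natCast_notMem hℓm hP hℓP)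
  rw [wcd_card_under L hℓ hP hℓP] at h2
  exact h2

/-- field version of `dcd_frob_smul_root` -/
theorem dcd_frob_apply_root {ℓ m : ℕ} (hℓ : ℓ.Prime) (hℓm : Nat.Coprime ℓ m) (hm : m ≠ 0)
    {P : Ideal (𝓞 L)} (hP : P.IsPrime) (hℓP : (ℓ : 𝓞 L) ∈ P) {c : L ≃ₐ[ℚ] L}
    (hc : wc_IsFrob c P ℓ) {ζ : L} (hζ : ζ ^ m = 1) : c ζ = ζ ^ ℓ := by
  have hint : IsIntegral ℤ ζ := by
    refine ⟨Polynomial.X ^ m - 1, Polynomial.monic_X_pow_sub_C 1 hm, ?_⟩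
    simp [hζ]
  set z : 𝓞 L := ⟨ζ, hint⟩ with hzdef
  have hzζ : (algebraMap (𝓞 L) L) z = ζ := rfl
  have hz : z ^ m = 1 := by
    apply RingOfIntegers.ext
    show (algebraMap (𝓞 L) L) (z ^ m) = (algebraMap (𝓞 L) L) 1
    rw [map_pow, hzζ, hζ, map_one]
  have h := dcd_frob_smul_root hℓ hℓm hP hℓP hc hz
  have h2 := congrArg (algebraMap (𝓞 L) L) h
  rw [map_pow, hzζ] at h2
  rw [← h2]
  rfl

/-- `wc_N L ℓ c = 0` unless `c ζ = ζ ^ ℓ` -/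
theorem dcd_N_eq_zero {ℓ m : ℕ} (hℓ : ℓ.Prime) (hℓm : Nat.Coprime ℓ m) (hm : m ≠ 0)
    {c : L ≃ₐ[ℚ] L} {ζ : L} (hζ : ζ ^ m = 1) (hne : c ζ ≠ ζ ^ ℓ) : wc_N L ℓ c = 0 := by
  unfold wc_N
  haveI : IsEmpty {P : Ideal (𝓞 L) // P.IsPrime ∧ (ℓ : 𝓞 L) ∈ P ∧ wc_IsFrob c P ℓ} := by
    refine ⟨fun P => hne ?_⟩
    exact dcd_frob_apply_root hℓ hℓm hm P.2.1 P.2.2.1 P.2.2.2 hζ
  exact Nat.card_of_isEmpty

end root

section count

variable {L : Type*} [Field L] [NumberField L] [IsGalois ℚ L]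

/-- **Deuring's counting identity, cyclotomic form**: if `H` acts faithfully on the `m`-th root of
unity `ζ` and `c ∈ H` acts on `ζ` as `ζ ↦ ζ ^ ℓ`, then `c` is the only element of `H` which is a
Frobenius element over `ℓ`, hence `ord(c) · wc_N L ℓ c = |H| · wc_a (L^H) ℓ`. -/
theorem dcd_count_single (H : Subgroup (L ≃ₐ[ℚ] L)) {ℓ m : ℕ} (hℓ : ℓ.Prime)
    (hℓm : Nat.Coprime ℓ m) (hm : m ≠ 0) (hu : wc_Unram L ℓ) {ζ : L} (hζ : ζ ^ m = 1)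
    (hfaith : ∀ c ∈ H, c ζ = ζ → c = 1) {c : L ≃ₐ[ℚ] L} (hcH : c ∈ H) (hc : c ζ = ζ ^ ℓ) :
    orderOf c * wc_N L ℓ c = Nat.card ↥H * wc_a ↥(IntermediateField.fixedField H) ℓ := by
  rw [← wcb_count L hℓ hu H]
  rw [finsum_eq_single (fun c' : ↥H => orderOf (c' : L ≃ₐ[ℚ] L) * wc_N L ℓ (c' : L ≃ₐ[ℚ] L))
    ⟨c, hcH⟩]
  intro c' hc'
  have hne : (c' : L ≃ₐ[ℚ] L) ζ ≠ ζ ^ ℓ := by
    intro h
    apply hc'
    have h1 : (c⁻¹ * (c' : L ≃ₐ[ℚ] L)) ζ = ζ := by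
      rw [AlgEquiv.mul_apply, h, ← hc]
      exact c.symm_apply_apply ζ
    have h2 := hfaith _ (H.mul_mem (H.inv_mem hcH) c'.2) h1
    apply Subtype.ext
    show (c' : L ≃ₐ[ℚ] L) = c
    calc (c' : L ≃ₐ[ℚ] L) = c * (c⁻¹ * (c' : L ≃ₐ[ℚ] L)) := by group
      _ = c := by rw [h2, mul_one]
  rw [dcd_N_eq_zero hℓ hℓm hm hζ hne, mul_zero]

/-- **Deuring's identity for a generator**: `wc_N L ℓ g` is the number of ideals of norm `ℓ` of
the fixed field of `g` if `g ζ = ζ ^ ℓ`, and `0` otherwise. -/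
theorem dcd_N_eq (g : L ≃ₐ[ℚ] L) {ℓ m : ℕ} (hℓ : ℓ.Prime) (hℓm : Nat.Coprime ℓ m) (hm : m ≠ 0)
    (hu : wc_Unram L ℓ) {ζ : L} (hζ : ζ ^ m = 1)
    (hfaith : ∀ c ∈ Subgroup.zpowers g, c ζ = ζ → c = 1) [Decidable (g ζ = ζ ^ ℓ)] :
    wc_N L ℓ g =
      if g ζ = ζ ^ ℓ then wc_a ↥(IntermediateField.fixedField (Subgroup.zpowers g)) ℓ else 0 := by
  split_ifs with h
  · have h1 := dcd_count_single (Subgroup.zpowers g) hℓ hℓm hm hu hζ hfaith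
      (Subgroup.mem_zpowers g) h
    rw [Nat.card_zpowers] at h1
    exact Nat.eq_of_mul_eq_mul_left (orderOf_pos g) h1
  · exact dcd_N_eq_zero hℓ hℓm hm hζ h

end count

end Fermat.Agent.DS
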