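import Mathlib
import Fermat.Agent.S14.Density.EulerLog
import Fermat.Agent.S14.Density.DirichletBound

/-!
# DS-C, leaf [C-AN]: boundedness of prime sums of non-principal characters

If the partial sums of a bounded multiplicative function `X` on ideals are `O(N ^ r)`, `r < 1`, and
the Dirichlet series `dn_L E X s` stays away from `0` near `1⁺`, then the prime sum
`∑_v X(v) N(v)^(-s)` is bounded near `1⁺`.

* `dca_tendsto_LSeries`: a Dirichlet series with power saving partial sums has a limit at `1⁺`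
  (Abel summation + dominated convergence);
* `dca_bounded_of_exp_tendsto`: a continuous logarithm of a function with a nonzero limit is
  bounded;
* `dca_primeSum_bounded`: the main statement.
-/

set_option autoImplicit false

namespace Fermat.Agent.DS

open NumberField Ideal Filter Topology IsDedekindDomain MeasureTheory Fermat.Agent.S14

/-- A Dirichlet series whose coefficients have power saving partial sums `O(N ^ r)`, `r < 1`,
has a (finite) limit as `s → 1⁺`. -/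
theorem dca_tendsto_LSeries (f : ℕ → ℂ) {r B : ℝ} (hr : 0 ≤ r) (hr1 : r < 1)
    (hsum : ∀ N : ℕ, 1 ≤ N → ‖∑ k ∈ Finset.Icc 1 N, f k‖ ≤ B * (N : ℝ) ^ r)
    (hS : ∀ s : ℝ, 1 < s → LSeriesSummable f s) :
    ∃ ℓ : ℂ, Tendsto (fun s : ℝ ↦ LSeries f s) (𝓝[>] 1) (𝓝 ℓ) := by
  have hB : 0 ≤ B := by simpa using (norm_nonneg _).trans (hsum 1 le_rfl)
  have hO : (fun n : ℕ ↦ ∑ k ∈ Finset.Icc 1 n, f k) =O[atTop] fun n ↦ (n : ℝ) ^ r := by
    refine Asymptotics.IsBigO.of_bound B ?_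
    filter_upwards [eventually_ge_atTop 1] with n hn
    rw [Real.norm_of_nonneg (by positivity)]
    exact hsum n hn
  set A : ℝ → ℂ := fun t ↦ ∑ k ∈ Finset.Icc 1 ⌊t⌋₊, f k with hA
  have hAmeas : Measurable A :=
    (measurable_from_nat (f := fun n : ℕ ↦ ∑ k ∈ Finset.Icc 1 n, f k)).comp Nat.measurable_floor
  have hint : Tendsto (fun s : ℝ ↦ ∫ t in Set.Ioi (1 : ℝ), A t * (t : ℂ) ^ (-((s : ℂ) + 1)))
      (𝓝[>] 1) (𝓝 (∫ t in Set.Ioi (1 : ℝ), A t * (t : ℂ) ^ (-(((1 : ℝ) : ℂ) + 1)))) := by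
    refine tendsto_integral_filter_of_dominated_convergence (fun t ↦ B * t ^ (r - 2)) ?_ ?_ ?_ ?_
    · refine Eventually.of_forall fun s ↦ ?_
      refine (hAmeas.mul ?_).aestronglyMeasurable
      exact (Complex.measurable_ofReal.pow_const _)
    · filter_upwards [self_mem_nhdsWithin] with s hs
      have hs1 : (1 : ℝ) < s := hs
      filter_upwards [ae_restrict_mem measurableSet_Ioi] with t ht
      have ht1 : (1 : ℝ) < t := ht
      have ht0 : (0 : ℝ) < t := by linarith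
      have hfl : 1 ≤ ⌊t⌋₊ := Nat.le_floor (by simpa using ht1.le)
      rw [norm_mul, Complex.norm_cpow_eq_rpow_re_of_pos ht0]
      have h2 : (-((s : ℂ) + 1)).re = -(s + 1) := by simp
      rw [h2]
      have h3 : ((⌊t⌋₊ : ℕ) : ℝ) ^ r ≤ t ^ r :=
        Real.rpow_le_rpow (Nat.cast_nonneg _) (Nat.floor_le ht0.le) hr
      have h4 : t ^ (r - 2) = t ^ r * t ^ (-(2 : ℝ)) := by
        rw [← Real.rpow_add ht0]; congr 1
      have h5 : t ^ (-(s + 1)) ≤ t ^ (-(2 : ℝ)) :=
        Real.rpow_le_rpow_of_exponent_le ht1.le (by linarith)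
      rw [h4, ← mul_assoc]
      refine mul_le_mul ((hsum _ hfl).trans (mul_le_mul_of_nonneg_left h3 hB)) h5
        (Real.rpow_nonneg ht0.le _) (mul_nonneg hB (Real.rpow_nonneg ht0.le _))
    · exact (integrableOn_Ioi_rpow_of_lt (by linarith) zero_lt_one).const_mul B
    · filter_upwards [ae_restrict_mem measurableSet_Ioi] with t ht
      have ht1 : (1 : ℝ) < t := ht
      have ht0 : (t : ℂ) ≠ 0 := by
        rw [Ne, Complex.ofReal_eq_zero]; linarith
      have hcont : Continuous fun s : ℝ ↦ A t * (t : ℂ) ^ (-((s : ℂ) + 1)) := by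
        refine continuous_const.mul (Continuous.const_cpow ?_ (Or.inl ht0))
        fun_prop
      exact (hcont.tendsto 1).mono_left nhdsWithin_le_nhds
  refine ⟨((1 : ℝ) : ℂ) * ∫ t in Set.Ioi (1 : ℝ), A t * (t : ℂ) ^ (-(((1 : ℝ) : ℂ) + 1)), ?_⟩
  have hmul := ((Complex.continuous_ofReal.tendsto 1).mono_left
    (nhdsWithin_le_nhds (s := Set.Ioi (1 : ℝ)))).mul hint
  refine hmul.congr' ?_
  filter_upwards [self_mem_nhdsWithin] with s hs
  have hs1 : (1 : ℝ) < s := hs
  have hsr : r < (s : ℂ).re := by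
    rw [Complex.ofReal_re]; linarith
  rw [LSeries_eq_mul_integral f hr hsr (hS s hs1) hO]

/-- A continuous logarithm of a function with a nonzero limit at `1⁺` is bounded near `1⁺`. -/
theorem dca_bounded_of_exp_tendsto {F : ℝ → ℂ} {s₀ : ℝ} (hs₀ : 1 < s₀)
    (hF : ContinuousOn F (Set.Ioo 1 s₀)) {ℓ : ℂ} (hℓ : ℓ ≠ 0)
    (h : Tendsto (fun s ↦ Complex.exp (F s)) (𝓝[>] 1) (𝓝 ℓ)) :
    ∃ C : ℝ, ∀ᶠ s in 𝓝[>] (1 : ℝ), ‖F s‖ ≤ C := by
  -- `u s = exp (F s) / ℓ → 1`
  have hu : Tendsto (fun s ↦ Complex.exp (F s) / ℓ) (𝓝[>] 1) (𝓝 1) := by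
    have := h.div_const ℓ
    rwa [div_self hℓ] at this
  have hev : ∀ᶠ s in 𝓝[>] (1 : ℝ), ‖Complex.exp (F s) / ℓ - 1‖ ≤ 1 / 2 := by
    have := hu.eventually (Metric.closedBall_mem_nhds (1 : ℂ) (by norm_num : (0 : ℝ) < 1 / 2))
    filter_upwards [this] with s hs
    simpa [dist_eq_norm] using hs
  obtain ⟨b', hb', hsub⟩ := mem_nhdsGT_iff_exists_Ioo_subset.mp hev
  have hb'1 : (1 : ℝ) < b' := hb'
  set b : ℝ := min s₀ b' with hb
  have hb1 : 1 < b := lt_min hs₀ hb'1
  have hJF : Set.Ioo 1 b ⊆ Set.Ioo 1 s₀ := Set.Ioo_subset_Ioo le_rfl (min_le_left _ _)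
  have hJu : ∀ s ∈ Set.Ioo 1 b, ‖Complex.exp (F s) / ℓ - 1‖ ≤ 1 / 2 := fun s hs ↦
    hsub (Set.Ioo_subset_Ioo le_rfl (min_le_right _ _) hs)
  set G : ℝ → ℂ := fun s ↦ Complex.log (1 + (Complex.exp (F s) / ℓ - 1)) with hG
  have hGnorm : ∀ s ∈ Set.Ioo 1 b, ‖G s‖ ≤ 3 / 4 := by
    intro s hs
    have := Complex.norm_log_one_add_half_le_self (hJu s hs)
    have h2 := hJu s hs
    simp only [hG]
    linarith
  have hGexp : ∀ s, Complex.exp (G s) = Complex.exp (F s) / ℓ := by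
    intro s
    simp only [hG]
    rw [Complex.exp_log]
    · ring
    · rw [add_sub_cancel]
      exact div_ne_zero (Complex.exp_ne_zero _) hℓ
  have hGcont : ContinuousOn G (Set.Ioo 1 b) := by
    refine ContinuousOn.clog ?_ ?_
    · refine continuousOn_const.add ((ContinuousOn.div_const ?_ ℓ).sub continuousOn_const)
      exact (Complex.continuous_exp.comp_continuousOn (hF.mono hJF))
    · intro s hs
      exact Complex.mem_slitPlane_of_norm_lt_one ((hJu s hs).trans_lt (by norm_num))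
  set H : ℝ → ℂ := fun s ↦ F s - G s - Complex.log ℓ with hH
  have hHexp : ∀ s, Complex.exp (H s) = 1 := by
    intro s
    simp only [hH]
    rw [Complex.exp_sub, Complex.exp_sub, hGexp, Complex.exp_log hℓ]
    have : Complex.exp (F s) ≠ 0 := Complex.exp_ne_zero _
    field_simp
  have hHcont : ContinuousOn H (Set.Ioo 1 b) :=
    ((hF.mono hJF).sub hGcont).sub continuousOn_const
  -- the integer valued function `Im H / 2π`
  have hdisc : IsDiscrete (Set.range (Int.cast : ℤ → ℝ)) := by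
    have := (IsDiscrete.univ (X := ℤ)).image Int.isClosedEmbedding_coe_real.isInducing
    rwa [Set.image_univ] at this
  have hpi : (2 * Real.pi) ≠ 0 := by positivity
  have hHn : ∀ s, ∃ n : ℤ, H s = n * (2 * Real.pi * Complex.I) := fun s ↦
    Complex.exp_eq_one_iff.mp (hHexp s)
  have hφ : ∀ s, ∃ n : ℤ, (H s).im / (2 * Real.pi) = n ∧
      H s = (((H s).im / (2 * Real.pi) : ℝ) : ℂ) * (2 * Real.pi * Complex.I) := by
    intro s
    obtain ⟨n, hn⟩ := hHn s
    have him : (H s).im = n * (2 * Real.pi) := by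
      rw [hn]
      simp
    have h1 : (H s).im / (2 * Real.pi) = n := by
      rw [him]; field_simp
    refine ⟨n, h1, ?_⟩
    rw [h1, hn]
    simp
  have hconst : ∀ s ∈ Set.Ioo 1 b, ∀ s' ∈ Set.Ioo 1 b,
      (H s).im / (2 * Real.pi) = (H s').im / (2 * Real.pi) := by
    intro s hs s' hs'
    refine isPreconnected_Ioo.constant_of_mapsTo hdisc
      (f := fun s ↦ (H s).im / (2 * Real.pi)) ?_ ?_ hs hs'
    · exact (Complex.continuous_im.comp_continuousOn hHcont).div_const _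
    · intro t _
      obtain ⟨n, hn, _⟩ := hφ t
      exact ⟨n, hn.symm⟩
  set s₁ : ℝ := (1 + b) / 2 with hs₁
  have hs₁J : s₁ ∈ Set.Ioo 1 b := ⟨by rw [hs₁]; linarith, by rw [hs₁]; linarith⟩
  refine ⟨‖H s₁‖ + 3 / 4 + ‖Complex.log ℓ‖, ?_⟩
  filter_upwards [Ioo_mem_nhdsGT hb1] with s hs
  have hHs : H s = H s₁ := by
    obtain ⟨_, _, h1⟩ := hφ s
    obtain ⟨_, _, h2⟩ := hφ s₁
    rw [h1, h2, hconst s hs s₁ hs₁J]
  have hFs : F s = H s₁ + G s + Complex.log ℓ := by
    rw [← hHs]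
    simp only [hH]
    ring
  rw [hFs]
  refine (norm_add_le _ _).trans ?_
  refine add_le_add ((norm_add_le _ _).trans ?_) le_rfl
  exact add_le_add le_rfl (hGnorm s hs)


variable {E : Type*} [Field E] [NumberField E]

/-- The logarithm of the Euler product of `dn_L E X s`. -/
noncomputable def dca_logEuler (X : Ideal (𝓞 E) →* ℂ) (s : ℝ) : ℂ :=
  ∑' v : HeightOneSpectrum (𝓞 E), -Complex.log (1 + -dn_term E X s v.asIdeal)

lemma dca_norm_term_le (X : Ideal (𝓞 E) →* ℂ) (hX : ∀ I, ‖X I‖ ≤ 1) {s : ℝ} (hs : 1 < s)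
    (v : HeightOneSpectrum (𝓞 E)) :
    ‖-dn_term E X s v.asIdeal‖ ≤ (absNorm v.asIdeal : ℝ) ^ (-s) ∧
      ‖-dn_term E X s v.asIdeal‖ ≤ 1 / 2 := by
  rw [norm_neg]
  exact ⟨dn_norm_term_le X hX s _, (dn_norm_term_le X hX s _).trans (dn_rpow_le_half v hs)⟩

lemma dca_norm_log_le (X : Ideal (𝓞 E) →* ℂ) (hX : ∀ I, ‖X I‖ ≤ 1) {s : ℝ} (hs : 1 < s)
    (v : HeightOneSpectrum (𝓞 E)) :
    ‖Complex.log (1 + -dn_term E X s v.asIdeal)‖ ≤ 3 / 2 * (absNorm v.asIdeal : ℝ) ^ (-s) := by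
  have h := dca_norm_term_le X hX hs v
  refine (Complex.norm_log_one_add_half_le_self h.2).trans ?_
  exact mul_le_mul_of_nonneg_left h.1 (by norm_num)

lemma dca_summable_log (X : Ideal (𝓞 E) →* ℂ) (hX : ∀ I, ‖X I‖ ≤ 1) {s : ℝ} (hs : 1 < s) :
    Summable fun v : HeightOneSpectrum (𝓞 E) ↦ Complex.log (1 + -dn_term E X s v.asIdeal) :=
  Summable.of_norm_bounded ((dn_summable_prime_rpow hs).mul_left (3 / 2))
    (dca_norm_log_le X hX hs)

/-- `exp` of the logarithm of the Euler product is the Dirichlet series. -/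
theorem dca_exp_logEuler (X : Ideal (𝓞 E) →* ℂ) (hX : ∀ I, ‖X I‖ ≤ 1) {s : ℝ} (hs : 1 < s) :
    Complex.exp (dca_logEuler X s) = dn_L E X s := by
  have hsum := (dca_summable_log X hX hs).hasSum
  have hprod := hsum.cexp
  have hne : ∀ v : HeightOneSpectrum (𝓞 E), 1 + -dn_term E X s v.asIdeal ≠ 0 := by
    intro v h
    have h1 : -dn_term E X s v.asIdeal = -1 := by
      linear_combination h
    have h2 := (dca_norm_term_le X hX hs v).2
    rw [h1, norm_neg, norm_one] at h2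
    linarith
  have hfun : (Complex.exp ∘ fun v : HeightOneSpectrum (𝓞 E) ↦
      Complex.log (1 + -dn_term E X s v.asIdeal)) = fun v ↦ 1 - dn_term E X s v.asIdeal := by
    funext v
    simp only [Function.comp_apply]
    rw [Complex.exp_log (hne v), sub_eq_add_neg]
  rw [hfun] at hprod
  -- `HasProd` is convergence of the finite products
  have h1 : Tendsto (fun S : Finset (HeightOneSpectrum (𝓞 E)) ↦
      dn_L E X s * ∏ v ∈ S, (1 - dn_term E X s v.asIdeal)) atTop
      (𝓝 (dn_L E X s * Complex.exp (∑' v : HeightOneSpectrum (𝓞 E),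
        Complex.log (1 + -dn_term E X s v.asIdeal)))) := by
    have : Tendsto (fun S : Finset (HeightOneSpectrum (𝓞 E)) ↦
        ∏ v ∈ S, (1 - dn_term E X s v.asIdeal)) atTop
        (𝓝 (Complex.exp (∑' v : HeightOneSpectrum (𝓞 E),
          Complex.log (1 + -dn_term E X s v.asIdeal)))) := by
      simpa [HasProd, SummationFilter.unconditional_filter] using hprod
    exact this.const_mul _
  have h2 := tendsto_nhds_unique h1 (dn_tendsto_L_mul_prod X hX hs)
  unfold dca_logEuler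
  rw [tsum_neg, Complex.exp_neg]
  exact (eq_inv_of_mul_eq_one_left h2).symm


/-- The logarithm of the Euler product differs from the prime sum by a bounded amount. -/
theorem dca_norm_logEuler_sub_le (X : Ideal (𝓞 E) →* ℂ) (hX : ∀ I, ‖X I‖ ≤ 1) {s : ℝ}
    (hs : 1 < s) :
    ‖dca_logEuler X s - ∑' v : HeightOneSpectrum (𝓞 E), dn_term E X s v.asIdeal‖ ≤ dn_C E := by
  have hz : Summable fun v : HeightOneSpectrum (𝓞 E) ↦ dn_term E X s v.asIdeal :=
    Summable.of_norm_bounded (dn_summable_prime_rpow hs) fun v ↦ dn_norm_term_le X hX s _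
  have hl := (dca_summable_log X hX hs).neg
  have hdiff : HasSum (fun v : HeightOneSpectrum (𝓞 E) ↦
      -Complex.log (1 + -dn_term E X s v.asIdeal) - dn_term E X s v.asIdeal)
      (dca_logEuler X s - ∑' v : HeightOneSpectrum (𝓞 E), dn_term E X s v.asIdeal) :=
    hl.hasSum.sub hz.hasSum
  have hsq : Summable fun v : HeightOneSpectrum (𝓞 E) ↦ (absNorm v.asIdeal : ℝ) ^ (-2 : ℝ) :=
    dn_summable_prime_rpow (by norm_num)
  have hbound : ∀ v : HeightOneSpectrum (𝓞 E),
      ‖-Complex.log (1 + -dn_term E X s v.asIdeal) - dn_term E X s v.asIdeal‖ ≤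
        (absNorm v.asIdeal : ℝ) ^ (-2 : ℝ) := by
    intro v
    obtain ⟨h1, h2⟩ := dca_norm_term_le X hX hs v
    set z : ℂ := -dn_term E X s v.asIdeal with hzdef
    have h3 : -Complex.log (1 + z) - dn_term E X s v.asIdeal = -(Complex.log (1 + z) - z) := by
      rw [hzdef]; ring
    rw [h3, norm_neg]
    have h4 := Complex.norm_log_one_add_sub_self_le (z := z) (by linarith)
    have h5 : ‖z‖ ^ 2 * (1 - ‖z‖)⁻¹ / 2 ≤ ‖z‖ ^ 2 := by
      have h6 : (1 - ‖z‖)⁻¹ ≤ 2 := by
        rw [inv_le_comm₀ (by linarith) (by norm_num)]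
        linarith
      have h7 : 0 ≤ ‖z‖ ^ 2 := by positivity
      nlinarith
    refine h4.trans (h5.trans ?_)
    have h8 : ‖z‖ ^ 2 ≤ ((absNorm v.asIdeal : ℝ) ^ (-s)) ^ 2 :=
      pow_le_pow_left₀ (norm_nonneg _) h1 2
    refine h8.trans ?_
    rw [← Real.rpow_natCast, ← Real.rpow_mul (Nat.cast_nonneg _)]
    exact Real.rpow_le_rpow_of_exponent_le (dn_one_le_absNorm v) (by push_cast; linarith)
  rw [← hdiff.tsum_eq]
  have hs1 : Summable fun v : HeightOneSpectrum (𝓞 E) ↦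
      ‖-Complex.log (1 + -dn_term E X s v.asIdeal) - dn_term E X s v.asIdeal‖ :=
    Summable.of_nonneg_of_le (fun _ ↦ norm_nonneg _) hbound hsq
  exact (norm_tsum_le_tsum_norm hs1).trans (hs1.tsum_le_tsum hbound hsq)

/-- The logarithm of the Euler product is continuous on `(1, ∞)`. -/
theorem dca_continuousOn_logEuler (X : Ideal (𝓞 E) →* ℂ) (hX : ∀ I, ‖X I‖ ≤ 1) :
    ContinuousOn (dca_logEuler X) (Set.Ioi 1) := by
  refine continuousOn_of_forall_continuousAt fun s hs ↦ ?_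
  have hs1 : (1 : ℝ) < s := hs
  set s₁ : ℝ := (1 + s) / 2 with hs₁
  have h1s₁ : 1 < s₁ := by rw [hs₁]; linarith
  have hs₁s : s₁ < s := by rw [hs₁]; linarith
  have hcont : ContinuousOn (dca_logEuler X) (Set.Ici s₁) := by
    unfold dca_logEuler
    refine continuousOn_tsum (u := fun v : HeightOneSpectrum (𝓞 E) ↦
      3 / 2 * (absNorm v.asIdeal : ℝ) ^ (-s₁)) ?_ ((dn_summable_prime_rpow h1s₁).mul_left _) ?_
    · intro v
      refine ContinuousOn.neg (ContinuousOn.clog ?_ ?_)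
      · refine continuousOn_const.add (ContinuousOn.neg ?_)
        unfold dn_term
        refine continuousOn_const.mul (Complex.continuous_ofReal.comp_continuousOn ?_)
        have hne : (absNorm v.asIdeal : ℝ) ≠ 0 := by
          have := dn_one_le_absNorm v
          linarith
        exact ((Real.continuous_const_rpow hne).comp continuous_neg).continuousOn
      · intro t ht
        have ht1 : 1 < t := lt_of_lt_of_le h1s₁ ht
        exact Complex.mem_slitPlane_of_norm_lt_one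
          ((dca_norm_term_le X hX ht1 v).2.trans_lt (by norm_num))
    · intro v t ht
      have ht1 : 1 < t := lt_of_lt_of_le h1s₁ ht
      rw [norm_neg]
      refine (dca_norm_log_le X hX ht1 v).trans ?_
      refine mul_le_mul_of_nonneg_left ?_ (by norm_num)
      exact Real.rpow_le_rpow_of_exponent_le (dn_one_le_absNorm v) (by
        have : s₁ ≤ t := ht
        linarith)
  exact hcont.continuousAt (Ici_mem_nhds hs₁s)

/-- **[C-AN]** If the partial sums of `X` are `O(N ^ r)`, `r < 1`, and `dn_L E X s` stays away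
from `0` near `1⁺`, then the prime sum `∑_v X(v) N(v)^(-s)` is bounded near `1⁺`. -/
theorem dca_primeSum_bounded (X : Ideal (𝓞 E) →* ℂ) (hX : ∀ I, ‖X I‖ ≤ 1) {r C : ℝ}
    (hr : 0 ≤ r) (hr1 : r < 1)
    (hsum : ∀ N : ℕ, 1 ≤ N → ‖∑ I ∈ dn_normLe E N, X I‖ ≤ C * (N : ℝ) ^ r) {c : ℝ} (hc : 0 < c)
    (hlow : ∀ᶠ s in 𝓝[>] (1 : ℝ), c ≤ ‖dn_L E X s‖) :
    ∃ B : ℝ, ∀ᶠ s in 𝓝[>] (1 : ℝ),
      ‖∑' v : HeightOneSpectrum (𝓞 E), dn_term E X s v.asIdeal‖ ≤ B := by
  -- the limit of the Dirichlet series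
  obtain ⟨ℓ, hℓ⟩ := dca_tendsto_LSeries (dn_coeff E X) hr hr1
    (fun N hN ↦ by rw [dn_sum_coeff]; exact hsum N hN)
    (fun s hs ↦ dn_LSeriesSummable E X hX hs)
  have hL : Tendsto (fun s : ℝ ↦ dn_L E X s) (𝓝[>] 1) (𝓝 ℓ) := by
    refine hℓ.congr' ?_
    filter_upwards [self_mem_nhdsWithin] with s hs
    exact dn_LSeries_eq E X hX hs
  have hℓ0 : ℓ ≠ 0 := by
    have h1 : c ≤ ‖ℓ‖ := ge_of_tendsto hL.norm hlow
    intro h
    rw [h, norm_zero] at h1
    linarith
  have hexp : Tendsto (fun s : ℝ ↦ Complex.exp (dca_logEuler X s)) (𝓝[>] 1) (𝓝 ℓ) := by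
    refine hL.congr' ?_
    filter_upwards [self_mem_nhdsWithin] with s hs
    exact (dca_exp_logEuler X hX hs).symm
  obtain ⟨C₁, hC₁⟩ := dca_bounded_of_exp_tendsto (s₀ := 2) (by norm_num)
    ((dca_continuousOn_logEuler X hX).mono Set.Ioo_subset_Ioi_self) hℓ0 hexp
  refine ⟨C₁ + dn_C E, ?_⟩
  filter_upwards [hC₁, self_mem_nhdsWithin] with s hs hs1
  have h1 := dca_norm_logEuler_sub_le X hX (s := s) hs1
  have h2 : ∑' v : HeightOneSpectrum (𝓞 E), dn_term E X s v.asIdeal =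
      dca_logEuler X s - (dca_logEuler X s -
        ∑' v : HeightOneSpectrum (𝓞 E), dn_term E X s v.asIdeal) := by ring
  rw [h2]
  exact (norm_sub_le _ _).trans (add_le_add hs h1)

end Fermat.Agent.DS
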