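import Mathlib
import Fermat.Agent.S14.Count.RayCountDn
import Fermat.Agent.DS.Cheb.LogBound

/-!
# DS-C, leaf [C-DIR]: Dirichlet's theorem for a finite quotient of a ray class group

Let `c` be a map from the ideals of `𝓞 E` to a finite abelian group `Q` which is multiplicative
and surjective on the ideals prime to `m`, and trivial on the ray modulo `m` (principal ideals
generated by `γ ≡ 1 mod m`; no sign conditions, so in practice `E` is totally complex).  If the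
kernel class has lower mass at least `1 / |Q|`, then every class `x : Q` has mass exactly `1 / |Q|`:
`∑_{c(v) = x} N(v)^(-s) = (1 / |Q|) log (1 / (s - 1)) + O(1)`.
-/

set_option autoImplicit false

namespace Fermat.Agent.DS

open NumberField Ideal Filter Topology IsDedekindDomain Fermat.Agent.S14

section

variable {E : Type*} [Field E] [NumberField E] {Q : Type*} [CommGroup Q] [Finite Q]
  (m : Ideal (𝓞 E)) (c : Ideal (𝓞 E) → Q) (hc1 : c ⊤ = 1)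
  (hc2 : ∀ a b : Ideal (𝓞 E), a ⊔ m = ⊤ → b ⊔ m = ⊤ → c (a * b) = c a * c b)

/-- The primes prime to `m` in the class `x`. -/
def dcb_classSet (x : Q) : Set (HeightOneSpectrum (𝓞 E)) :=
  {v | v.asIdeal ⊔ m = ⊤ ∧ c v.asIdeal = x}

/-- The prime sum `∑_v χ(c(v)) N(v)^(-s)` of a character. -/
noncomputable def dcb_P (χ : Q →* ℂˣ) (s : ℝ) : ℂ :=
  ∑' v : HeightOneSpectrum (𝓞 E), dn_term E (dn_charHom m c hc1 hc2 χ) s v.asIdeal

omit [Finite Q] in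
lemma dcb_summable_term (χ : Q →* ℂˣ) [Finite Q] {s : ℝ} (hs : 1 < s) :
    Summable fun v : HeightOneSpectrum (𝓞 E) ↦
      dn_term E (dn_charHom m c hc1 hc2 χ) s v.asIdeal :=
  Summable.of_norm_bounded (dn_summable_prime_rpow hs) fun v ↦
    dn_norm_term_le _ (dn_norm_charHom_le m c hc1 hc2 χ) s v.asIdeal

open scoped Classical in
/-- Orthogonality: the prime sum of the class `x` in terms of the prime sums of the characters. -/
theorem dcb_orthogonality [Fintype (Q →* ℂˣ)] (x : Q) {s : ℝ} (hs : 1 < s) :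
    ∑ χ : Q →* ℂˣ, (((χ x)⁻¹ : ℂˣ) : ℂ) * dcb_P m c hc1 hc2 χ s =
      (Nat.card Q : ℂ) * (((dcb_classSet m c x).primeIdealZetaSum s : ℝ) : ℂ) := by
  unfold dcb_P
  simp_rw [← tsum_mul_left]
  rw [← Summable.tsum_finsetSum fun χ _ ↦ (dcb_summable_term m c hc1 hc2 χ hs).mul_left _]
  rw [dn_primeIdealZetaSum_eq_tsum_indicator, Complex.ofReal_tsum, ← tsum_mul_left]
  refine tsum_congr fun v ↦ ?_
  have h3 : ∀ χ : Q →* ℂˣ, dn_term E (dn_charHom m c hc1 hc2 χ) s v.asIdeal =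
      (dn_charHom m c hc1 hc2 χ v.asIdeal) * (((absNorm v.asIdeal : ℝ) ^ (-s) : ℝ) : ℂ) :=
    fun χ ↦ rfl
  simp_rw [h3, ← mul_assoc, ← Finset.sum_mul]
  by_cases hv : v.asIdeal ⊔ m = ⊤
  · have h4 : ∀ χ : Q →* ℂˣ, (((χ x)⁻¹ : ℂˣ) : ℂ) * dn_charHom m c hc1 hc2 χ v.asIdeal =
        ((χ (x⁻¹ * c v.asIdeal) : ℂˣ) : ℂ) := by
      intro χ
      rw [dn_charHom_apply, if_pos hv, map_mul, map_inv, Units.val_mul]
    simp_rw [h4, dn_sum_char]
    by_cases hc : c v.asIdeal = x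
    · have hmem : v ∈ dcb_classSet m c x := ⟨hv, hc⟩
      rw [if_pos (by rw [hc, inv_mul_cancel]), Set.indicator_of_mem hmem]
    · have hmem : v ∉ dcb_classSet m c x := fun h ↦ hc h.2
      have hne : ¬ (x⁻¹ * c v.asIdeal = 1) := by
        intro h
        exact hc (by rw [← mul_one x, ← h, mul_inv_cancel_left])
      rw [if_neg hne, Set.indicator_of_notMem hmem]
      simp
  · have h4 : ∀ χ : Q →* ℂˣ, (((χ x)⁻¹ : ℂˣ) : ℂ) * dn_charHom m c hc1 hc2 χ v.asIdeal = 0 := by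
      intro χ
      rw [dn_charHom_apply, if_neg hv, mul_zero]
    have hmem : v ∉ dcb_classSet m c x := fun h ↦ hv h.1
    simp_rw [h4]
    rw [Set.indicator_of_notMem hmem]
    simp


omit [Finite Q] in
/-- The prime sum of the trivial character is `log (1 / (s - 1)) + O(1)`. -/
theorem dcb_P_one_bound (hm : m ≠ ⊥) :
    ∃ C : ℝ, ∀ᶠ s in 𝓝[>] (1 : ℝ),
      ‖dcb_P m c hc1 hc2 1 s - ((Real.log (1 / (s - 1)) : ℝ) : ℂ)‖ ≤ C := by
  classical
  set A : Set (HeightOneSpectrum (𝓞 E)) := {v | v.asIdeal ⊔ m = ⊤} with hA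
  set T : Set (HeightOneSpectrum (𝓞 E)) := {v | v.asIdeal ∣ m} with hT
  have hTfin : T.Finite := Ideal.finite_factors hm
  have hcover : (Set.univ : Set (HeightOneSpectrum (𝓞 E))) ⊆ A ∪ T := by
    intro v _
    by_cases h : v.asIdeal ⊔ m = ⊤
    · exact Or.inl h
    · refine Or.inr ?_
      have h1 : v.asIdeal ⊔ m = v.asIdeal := (v.isMaximal.eq_of_le h le_sup_left).symm
      exact Ideal.dvd_iff_le.mpr (h1 ▸ le_sup_right)
  obtain ⟨C, hC⟩ := dn_primeSum_bound E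
  refine ⟨C + T.ncard, ?_⟩
  filter_upwards [hC, self_mem_nhdsWithin] with s hs1 hs
  have hs' : (1 : ℝ) < s := hs
  have hP : dcb_P m c hc1 hc2 1 s = ((A.primeIdealZetaSum s : ℝ) : ℂ) := by
    unfold dcb_P
    rw [dn_primeIdealZetaSum_eq_tsum_indicator, Complex.ofReal_tsum]
    refine tsum_congr fun v ↦ ?_
    unfold dn_term
    rw [dn_charHom_apply]
    by_cases hv : v.asIdeal ⊔ m = ⊤
    · have hmem : v ∈ A := hv
      rw [if_pos hv, Set.indicator_of_mem hmem]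
      simp
    · have hmem : v ∉ A := hv
      rw [if_neg hv, Set.indicator_of_notMem hmem]
      simp
  rw [hP, ← Complex.ofReal_sub, Complex.norm_real, Real.norm_eq_abs]
  have h1 := dn_primeIdealZetaSum_le_add hcover hs'
  have h2 := NumberField.Set.primeIdealZetaSum_le_card_of_finite hTfin (by linarith : (0 : ℝ) ≤ s)
  have h3 : A.primeIdealZetaSum s ≤
      (Set.univ : Set (HeightOneSpectrum (𝓞 E))).primeIdealZetaSum s +
        (∅ : Set (HeightOneSpectrum (𝓞 E))).primeIdealZetaSum s :=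
    dn_primeIdealZetaSum_le_add (by intro v _; exact Or.inl (Set.mem_univ v)) hs'
  have h4 : (∅ : Set (HeightOneSpectrum (𝓞 E))).primeIdealZetaSum s = 0 := by
    rw [NumberField.Set.primeIdealZetaSum_def]
    simp
  rw [dn_primeIdealZetaSum_univ] at h1 h3
  have h5 := abs_le.mp hs1
  rw [abs_le]
  constructor <;> linarith [h5.1, h5.2]

variable (hc3 : ∀ x : Q, ∃ a : Ideal (𝓞 E), a ⊔ m = ⊤ ∧ c a = x)
  (hc4 : ∀ γ : 𝓞 E, γ - 1 ∈ m → γ ≠ 0 → c (Ideal.span {γ}) = 1)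

omit [NumberField E] [Finite Q] in
include hc3 hc4 in
/-- The multiplicative functions `χ ∘ c`, `χ ≠ 1`, are nontrivial ray class characters. -/
lemma dcb_charHom_hyps (χ : Q →* ℂˣ) (hχ : χ ≠ 1) :
    (∀ I, dn_charHom m c hc1 hc2 χ I ≠ 0 ↔ I ⊔ m = ⊤) ∧
    (∀ α : 𝓞 E, α - 1 ∈ m → α ≠ 0 → dn_charHom m c hc1 hc2 χ (Ideal.span {α}) = 1) ∧
    (∃ a, dn_charHom m c hc1 hc2 χ a ≠ 0 ∧ dn_charHom m c hc1 hc2 χ a ≠ 1) := by
  classical
  refine ⟨?_, ?_, ?_⟩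
  · intro I
    rw [dn_charHom_apply]
    split_ifs with h
    · simp [h]
    · simp [h]
  · intro α hα hα0
    rw [dn_charHom_apply, if_pos (dn_span_sup_eq_top_of_sub_one_mem hα), hc4 α hα hα0, map_one,
      Units.val_one]
  · have hex : ∃ x : Q, χ x ≠ 1 := by
      by_contra hcon
      push Not at hcon
      exact hχ (MonoidHom.ext fun x ↦ by simpa using hcon x)
    obtain ⟨x, hx⟩ := hex
    obtain ⟨a, ha, rfl⟩ := hc3 x
    refine ⟨a, ?_, ?_⟩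
    · rw [dn_charHom_apply, if_pos ha]
      exact Units.ne_zero _
    · rw [dn_charHom_apply, if_pos ha]
      intro h
      exact hx (Units.ext h)

include hc3 hc4 in
/-- Non-vanishing at `1`: the Dirichlet series of a nontrivial character stays away from `0`
near `1⁺`, provided the kernel class has lower mass `1 / |Q|`. -/
theorem dcb_L_lower_bound (hm : m ≠ ⊥)
    (hker : ∃ C : ℝ, ∀ᶠ s in 𝓝[>] (1 : ℝ),
      (1 / (Nat.card Q : ℝ)) * Real.log (1 / (s - 1)) - C ≤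
        (dcb_classSet m c (1 : Q)).primeIdealZetaSum s)
    (χ₀ : Q →* ℂˣ) (hχ₀ : χ₀ ≠ 1) :
    ∃ κ : ℝ, 0 < κ ∧ ∀ᶠ s in 𝓝[>] (1 : ℝ), κ ≤ ‖dn_L E (dn_charHom m c hc1 hc2 χ₀) s‖ := by
  classical
  have := Fintype.ofFinite (Q →* ℂˣ)
  set X := dn_charHom m c hc1 hc2 with hX
  have hXle : ∀ χ I, ‖X χ I‖ ≤ 1 := dn_norm_charHom_le m c hc1 hc2
  obtain ⟨C1, hC1⟩ := hker
  obtain ⟨C2, hC2⟩ := dn_log_zeta_bound E
  have hbdd : ∀ χ : Q →* ℂˣ, χ ≠ 1 → ∃ B : ℝ, ∀ s : ℝ, 1 < s → s ≤ 2 →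
      ‖dn_L E (X χ) s‖ ≤ B := by
    intro χ hχ
    obtain ⟨h1, h2, h3⟩ := dcb_charHom_hyps m c hc1 hc2 hc3 hc4 χ hχ
    exact ry_boundedHyp m hm (X χ) (hXle χ) h1 h2 h3
  choose! B hB using hbdd
  set h : ℝ := (Nat.card Q : ℝ) with hh
  have hh0 : 0 < h := by
    rw [hh]; exact_mod_cast Nat.card_pos
  set nχ : ℝ := (Fintype.card (Q →* ℂˣ) : ℝ) with hnχ
  set U : ℝ := ∑ χ : Q →* ℂˣ, |Real.log (B χ)| with hU
  set K : ℝ := h * C1 + nχ * dn_C E + C2 + U with hK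
  refine ⟨Real.exp (-K), Real.exp_pos _, ?_⟩
  filter_upwards [hC1, hC2, Ioc_mem_nhdsGT (show (1 : ℝ) < 2 by norm_num)] with s h1 h2 hs
  have hs1 : 1 < s := hs.1
  have hs2 : s ≤ 2 := hs.2
  set Lg := Real.log (1 / (s - 1)) with hLg
  have hsumv : ∀ χ : Q →* ℂˣ, Summable fun v : HeightOneSpectrum (𝓞 E) ↦
      (dn_term E (X χ) s v.asIdeal).re := by
    intro χ
    refine Summable.of_norm_bounded (dn_summable_prime_rpow hs1) fun v ↦ ?_
    exact (Complex.abs_re_le_norm _).trans (dn_norm_term_le (X χ) (hXle χ) s v.asIdeal)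
  have hlow : ∀ χ : Q →* ℂˣ, ∑' v : HeightOneSpectrum (𝓞 E), (dn_term E (X χ) s v.asIdeal).re -
      dn_C E ≤ Real.log ‖dn_L E (X χ) s‖ := by
    intro χ
    have := (abs_le.mp (dn_abs_log_norm_L_sub_le (X χ) (hXle χ) hs1)).1
    linarith
  have hortho : ∑ χ : Q →* ℂˣ, ∑' v : HeightOneSpectrum (𝓞 E),
      (dn_term E (X χ) s v.asIdeal).re =
      ∑' v : HeightOneSpectrum (𝓞 E), ∑ χ : Q →* ℂˣ, (dn_term E (X χ) s v.asIdeal).re :=
    (Summable.tsum_finsetSum fun χ _ ↦ hsumv χ).symm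
  have hinner : ∀ v : HeightOneSpectrum (𝓞 E),
      ∑ χ : Q →* ℂˣ, (dn_term E (X χ) s v.asIdeal).re =
      (if v.asIdeal ⊔ m = ⊤ ∧ c v.asIdeal = 1 then h else 0) *
        (absNorm v.asIdeal : ℝ) ^ (-s) := by
    intro v
    have h3 : ∀ χ : Q →* ℂˣ, (dn_term E (X χ) s v.asIdeal).re =
        ((X χ v.asIdeal) * (((absNorm v.asIdeal : ℝ) ^ (-s) : ℝ) : ℂ)).re := fun χ ↦ rfl
    simp_rw [h3, Complex.re_mul_ofReal, ← Finset.sum_mul, ← Complex.re_sum]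
    congr 1
    by_cases hv : v.asIdeal ⊔ m = ⊤
    · have h4 : ∀ χ : Q →* ℂˣ, X χ v.asIdeal = ((χ (c v.asIdeal) : ℂˣ) : ℂ) := by
        intro χ
        rw [hX, dn_charHom_apply, if_pos hv]
      simp_rw [h4, dn_sum_char]
      by_cases hc : c v.asIdeal = 1
      · rw [if_pos hc, if_pos ⟨hv, hc⟩]
        simp [hh]
      · rw [if_neg hc, if_neg (fun h ↦ hc h.2)]
        simp
    · have h4 : ∀ χ : Q →* ℂˣ, X χ v.asIdeal = 0 := by
        intro χ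
        rw [hX, dn_charHom_apply, if_neg hv]
      simp_rw [h4]
      rw [if_neg (fun h ↦ hv h.1)]
      simp
  have hmass : h * (dcb_classSet m c (1 : Q)).primeIdealZetaSum s =
      ∑' v : HeightOneSpectrum (𝓞 E), ∑ χ : Q →* ℂˣ, (dn_term E (X χ) s v.asIdeal).re := by
    simp_rw [hinner]
    rw [dn_primeIdealZetaSum_eq_tsum_indicator, ← tsum_mul_left]
    refine tsum_congr fun v ↦ ?_
    by_cases hv : v ∈ dcb_classSet m c (1 : Q)
    · have hv' : v.asIdeal ⊔ m = ⊤ ∧ c v.asIdeal = 1 := hv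
      rw [Set.indicator_of_mem hv, if_pos hv']
    · have hv' : ¬ (v.asIdeal ⊔ m = ⊤ ∧ c v.asIdeal = 1) := hv
      rw [Set.indicator_of_notMem hv, if_neg hv']
      simp
  have hup1 : Real.log ‖dn_L E (X 1) s‖ ≤ Lg + C2 := by
    have hne := dn_L_ne_zero (X 1) (hXle 1) hs1
    have hle : ‖dn_L E (X 1) s‖ ≤ dn_zeta E s := by
      unfold dn_L dn_zeta
      refine (norm_tsum_le_tsum_norm (dn_summable_term (X 1) (hXle 1) hs1).norm).trans ?_
      exact (dn_summable_term (X 1) (hXle 1) hs1).norm.tsum_le_tsum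
        (dn_norm_term_le (X 1) (hXle 1) s) (dn_summable_norm_rpow E hs1)
    have := Real.log_le_log (norm_pos_iff.mpr hne) hle
    have h5 := (abs_le.mp h2).2
    linarith
  have hupχ : ∀ χ : Q →* ℂˣ, χ ≠ 1 → Real.log ‖dn_L E (X χ) s‖ ≤ |Real.log (B χ)| := by
    intro χ hχ
    have hne := dn_L_ne_zero (X χ) (hXle χ) hs1
    have := Real.log_le_log (norm_pos_iff.mpr hne) (hB χ hχ s hs1 hs2)
    exact this.trans (le_abs_self _)
  -- the sum over the characters other than `χ₀`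
  have hothers : ∑ χ ∈ Finset.univ.erase χ₀, Real.log ‖dn_L E (X χ) s‖ ≤ Lg + C2 + U := by
    have h1mem : (1 : Q →* ℂˣ) ∈ Finset.univ.erase χ₀ :=
      Finset.mem_erase.mpr ⟨fun h ↦ hχ₀ h.symm, Finset.mem_univ _⟩
    rw [← Finset.add_sum_erase _ _ h1mem]
    have h6 : ∑ χ ∈ (Finset.univ.erase χ₀).erase (1 : Q →* ℂˣ), Real.log ‖dn_L E (X χ) s‖ ≤
        ∑ χ ∈ (Finset.univ.erase χ₀).erase (1 : Q →* ℂˣ), |Real.log (B χ)| :=
      Finset.sum_le_sum fun χ hχ ↦ hupχ χ (Finset.ne_of_mem_erase hχ)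
    have h7 : ∑ χ ∈ (Finset.univ.erase χ₀).erase (1 : Q →* ℂˣ), |Real.log (B χ)| ≤
        ∑ χ : Q →* ℂˣ, |Real.log (B χ)| :=
      Finset.sum_le_sum_of_subset_of_nonneg (Finset.subset_univ _) fun _ _ _ ↦ abs_nonneg _
    rw [hU]
    linarith
  have hlowsum : ∑ χ : Q →* ℂˣ, (∑' v : HeightOneSpectrum (𝓞 E),
      (dn_term E (X χ) s v.asIdeal).re - dn_C E) ≤
      ∑ χ : Q →* ℂˣ, Real.log ‖dn_L E (X χ) s‖ := Finset.sum_le_sum fun χ _ ↦ hlow χ
  rw [Finset.sum_sub_distrib, Finset.sum_const, Finset.card_univ, nsmul_eq_mul, hortho, ← hmass,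
    ← Finset.add_sum_erase Finset.univ _ (Finset.mem_univ χ₀)] at hlowsum
  have h8 : h * ((1 / h) * Lg - C1) ≤ h * (dcb_classSet m c (1 : Q)).primeIdealZetaSum s :=
    mul_le_mul_of_nonneg_left h1 hh0.le
  have h9 : h * ((1 / h) * Lg - C1) = Lg - h * C1 := by
    field_simp
  have hfinal : -K ≤ Real.log ‖dn_L E (X χ₀) s‖ := by
    rw [hK]
    linarith
  have hpos : 0 < ‖dn_L E (X χ₀) s‖ := norm_pos_iff.mpr (dn_L_ne_zero (X χ₀) (hXle χ₀) hs1)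
  exact (Real.le_log_iff_exp_le hpos).mp hfinal

include hc3 hc4 in
/-- The prime sums of the nontrivial characters are bounded near `1⁺`. -/
theorem dcb_P_bounded (hm : m ≠ ⊥)
    (hker : ∃ C : ℝ, ∀ᶠ s in 𝓝[>] (1 : ℝ),
      (1 / (Nat.card Q : ℝ)) * Real.log (1 / (s - 1)) - C ≤
        (dcb_classSet m c (1 : Q)).primeIdealZetaSum s)
    (χ : Q →* ℂˣ) (hχ : χ ≠ 1) :
    ∃ B : ℝ, ∀ᶠ s in 𝓝[>] (1 : ℝ), ‖dcb_P m c hc1 hc2 χ s‖ ≤ B := by
  obtain ⟨h1, h2, h3⟩ := dcb_charHom_hyps m c hc1 hc2 hc3 hc4 χ hχ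
  obtain ⟨C, r, hr, hr1, hsum⟩ := ry_partialSumHyp m hm (dn_charHom m c hc1 hc2 χ)
    (dn_norm_charHom_le m c hc1 hc2 χ) h1 h2 h3
  obtain ⟨κ, hκ, hlow⟩ := dcb_L_lower_bound m c hc1 hc2 hc3 hc4 hm hker χ hχ
  exact dca_primeSum_bounded (dn_charHom m c hc1 hc2 χ) (dn_norm_charHom_le m c hc1 hc2 χ)
    hr hr1 hsum hκ hlow

end

/-- **[C-DIR] Dirichlet's theorem for a finite quotient of the ray class group modulo `m`.** -/
theorem dcb_dirichlet {E : Type*} [Field E] [NumberField E] {Q : Type*} [CommGroup Q] [Finite Q]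
    (m : Ideal (𝓞 E)) (hm : m ≠ ⊥) (c : Ideal (𝓞 E) → Q) (hc1 : c ⊤ = 1)
    (hc2 : ∀ a b : Ideal (𝓞 E), a ⊔ m = ⊤ → b ⊔ m = ⊤ → c (a * b) = c a * c b)
    (hc3 : ∀ x : Q, ∃ a : Ideal (𝓞 E), a ⊔ m = ⊤ ∧ c a = x)
    (hc4 : ∀ γ : 𝓞 E, γ - 1 ∈ m → γ ≠ 0 → c (Ideal.span {γ}) = 1)
    (hker : ∃ C : ℝ, ∀ᶠ s in 𝓝[>] (1 : ℝ),
      (1 / (Nat.card Q : ℝ)) * Real.log (1 / (s - 1)) - C ≤
        ({v : HeightOneSpectrum (𝓞 E) | v.asIdeal ⊔ m = ⊤ ∧
          c v.asIdeal = 1}).primeIdealZetaSum s)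
    (x : Q) :
    ∃ C : ℝ, ∀ᶠ s in 𝓝[>] (1 : ℝ),
      |({v : HeightOneSpectrum (𝓞 E) | v.asIdeal ⊔ m = ⊤ ∧
          c v.asIdeal = x}).primeIdealZetaSum s -
        (1 / (Nat.card Q : ℝ)) * Real.log (1 / (s - 1))| ≤ C := by
  classical
  have := Fintype.ofFinite (Q →* ℂˣ)
  have hbd : ∀ χ : Q →* ℂˣ, χ ≠ 1 → ∃ B : ℝ, ∀ᶠ s in 𝓝[>] (1 : ℝ),
      ‖dcb_P m c hc1 hc2 χ s‖ ≤ B := fun χ hχ ↦
    dcb_P_bounded m c hc1 hc2 hc3 hc4 hm hker χ hχ
  choose! B hB using hbd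
  obtain ⟨C1, hC1⟩ := dcb_P_one_bound m c hc1 hc2 hm
  set h : ℝ := (Nat.card Q : ℝ) with hh
  have hh0 : 0 < h := by
    rw [hh]; exact_mod_cast Nat.card_pos
  refine ⟨(C1 + ∑ χ ∈ Finset.univ.erase (1 : Q →* ℂˣ), B χ) / h, ?_⟩
  have hall : ∀ᶠ s in 𝓝[>] (1 : ℝ), ∀ χ ∈ Finset.univ.erase (1 : Q →* ℂˣ),
      ‖dcb_P m c hc1 hc2 χ s‖ ≤ B χ := by
    rw [Filter.eventually_all_finset]
    intro χ hχ
    exact hB χ (Finset.ne_of_mem_erase hχ)
  filter_upwards [hC1, hall, self_mem_nhdsWithin] with s h1 h2 hs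
  have hs1 : (1 : ℝ) < s := hs
  set Lg := Real.log (1 / (s - 1)) with hLg
  set Z := (dcb_classSet m c x).primeIdealZetaSum s with hZ
  have horth := dcb_orthogonality m c hc1 hc2 x hs1
  rw [← Finset.add_sum_erase Finset.univ _ (Finset.mem_univ (1 : Q →* ℂˣ))] at horth
  have h3 : (((h * Z - Lg : ℝ)) : ℂ) = (dcb_P m c hc1 hc2 1 s - (Lg : ℂ)) +
      ∑ χ ∈ Finset.univ.erase (1 : Q →* ℂˣ),
        (((χ x)⁻¹ : ℂˣ) : ℂ) * dcb_P m c hc1 hc2 χ s := by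
    have hcast : ((h : ℝ) : ℂ) = (Nat.card Q : ℂ) := by
      rw [hh, Complex.ofReal_natCast]
    rw [Complex.ofReal_sub, Complex.ofReal_mul, hcast, ← horth]
    simp only [MonoidHom.one_apply, inv_one, Units.val_one, one_mul]
    ring
  have h4 : |h * Z - Lg| ≤ C1 + ∑ χ ∈ Finset.univ.erase (1 : Q →* ℂˣ), B χ := by
    rw [← Real.norm_eq_abs, ← Complex.norm_real, h3]
    refine (norm_add_le _ _).trans (add_le_add h1 ?_)
    refine (norm_sum_le _ _).trans (Finset.sum_le_sum fun χ hχ ↦ ?_)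
    rw [norm_mul, ← map_inv, dn_norm_char, one_mul]
    exact h2 χ hχ
  have h5 : Z - 1 / h * Lg = (h * Z - Lg) / h := by
    field_simp
  show |Z - 1 / h * Lg| ≤ _
  rw [h5, abs_div, abs_of_pos hh0]
  exact div_le_div_of_nonneg_right h4 hh0.le

end Fermat.Agent.DS
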