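/-
DS-C (Chebotarev density), leaf [C-DEU], main file: **Chebotarev for an element `g ∈ Gal(L/ℚ)` in a
cyclotomic situation.**

`L / ℚ` a Galois number field, `g ∈ Gal(L/ℚ)`, `ζ ∈ L` a primitive `m`-th root of unity such that
`⟨g⟩` acts faithfully on `ζ` (i.e. `L = L^⟨g⟩(ζ)`) and no element of `⟨g⟩` acts on `ζ` as `ζ ↦ ζ⁻¹`
(so that `L^⟨g⟩` is totally complex).  Then
`∑_p #{P ∣ p : Frob_P = g} p^{-s} = (1 / ord g) · log (1/(s-1)) + O(1)`  (`dcd_mass_cyclo`).

Proof: Deuring's counting identity (`DeuCount.lean`) turns the left-hand side into the sum over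
the degree-one primes of `E = L^⟨g⟩` with norm `≡ a_g mod m`; the norm residue map
(`DeuNormMap.lean`) is a surjective ray class character modulo `m` of the totally complex field
`E` (`DeuComplex.lean`), so Dirichlet's theorem `dcb_dirichlet` applies; the kernel mass is
computed by the same counting identity for the element `1`.
Owner: helper13.  Prefix `dcd_`.
-/
import Mathlib
import Fermat.Agent.DS.Cheb.DeuCount
import Fermat.Agent.DS.Cheb.DeuComplex
import Fermat.Agent.DS.Cheb.DeuNormMap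
import Fermat.Agent.DS.Cheb.DeuBridge
import Fermat.Agent.DS.Cheb.Dirichlet
import Fermat.Agent.WC.PoleLog
import Fermat.Agent.WC.IdealCount
import Fermat.Agent.WC.FrobBasic

set_option autoImplicit false
set_option linter.style.haveILetI false
set_option linter.unusedSectionVars false

open NumberField Ideal Filter Topology IsDedekindDomain
open scoped Pointwise

namespace Fermat.Agent.DS

open Fermat.Agent.WC Fermat.Agent.S14

/-! ### Mass calculus: changing finitely many coefficients -/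

/-- Two bounded coefficient functions which agree at all but finitely many primes have the same
mass. -/
theorem dcd_mass_congr_finite {f f' : ℕ → ℝ} {B B' : ℝ} (hf : ∀ p : ℕ, p.Prime → |f p| ≤ B)
    (hf' : ∀ p : ℕ, p.Prime → |f' p| ≤ B') (hfin : {p : ℕ | p.Prime ∧ f p ≠ f' p}.Finite)
    {c : ℝ} (h : wc_Mass (wc_P f) c) : wc_Mass (wc_P f') c := by
  classical
  set d : ℕ → ℝ := fun p => if p.Prime then f' p - f p else 0 with hd
  have hdfin : {p : ℕ | d p ≠ 0}.Finite := by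
    refine hfin.subset ?_
    intro p hp
    have hp' : d p ≠ 0 := hp
    by_cases hpp : p.Prime
    · refine ⟨hpp, fun heq => hp' ?_⟩
      simp only [hd]
      rw [if_pos hpp, heq, sub_self]
    · exfalso
      apply hp'
      simp only [hd]
      rw [if_neg hpp]
  have hdB : ∀ p : ℕ, p.Prime → |d p| ≤ B' + B := by
    intro p hp
    simp only [hd]
    rw [if_pos hp]
    exact (abs_sub _ _).trans (add_le_add (hf' p hp) (hf p hp))
  have h1 := h.add (wc_Mass_P_of_finite hdfin)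
  refine (h1.congr' fun s hs => ?_).congr_coeff (add_zero c)
  rw [← wc_P_add hf hdB hs]
  refine wc_P_congr (fun p hp => ?_) s
  simp only [hd]
  rw [if_pos hp]
  ring

section main

variable (L : Type*) [Field L] [NumberField L] [IsGalois ℚ L]

/-- `wc_a` of a number field is bounded at the primes. -/
theorem dcd_a_le (M : Type*) [Field M] [NumberField M] {p : ℕ} (hp : p.Prime) :
    (wc_a M p : ℝ) ≤ ((2 ^ Module.finrank ℚ M : ℕ) : ℝ) := by
  have := wci_a_prime_pow_le M hp 1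
  rw [pow_one] at this
  exact_mod_cast this

/-- **The identity element**: `∑_p #{P ∣ p : Frob_P = 1} p^{-s}` has mass `1`. -/
theorem dcd_mass_one : wc_Mass (wc_P (fun p => (wc_N L p (1 : L ≃ₐ[ℚ] L) : ℝ))) 1 := by
  set M := ↥(IntermediateField.fixedField (⊥ : Subgroup (L ≃ₐ[ℚ] L))) with hM
  have h1 : wc_Mass (wc_P (fun p => (wc_a M p : ℝ))) 1 := wc_mass_a M
  refine dcd_mass_congr_finite (B := ((2 ^ Module.finrank ℚ M : ℕ) : ℝ))
    (B' := (Module.finrank ℚ L : ℝ)) ?_ ?_ ?_ h1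
  · intro p hp
    rw [abs_of_nonneg (Nat.cast_nonneg _)]
    exact dcd_a_le M hp
  · intro p hp
    rw [abs_of_nonneg (Nat.cast_nonneg _)]
    exact_mod_cast wcb_N_le L hp 1
  · refine (wcb_finite_ram L).subset ?_
    rintro p ⟨hp, hne⟩
    refine ⟨hp, fun hu => hne ?_⟩
    have h2 := wcb_count L hp hu (⊥ : Subgroup (L ≃ₐ[ℚ] L))
    rw [finsum_eq_single (fun c : ↥(⊥ : Subgroup (L ≃ₐ[ℚ] L)) =>
      orderOf (c : L ≃ₐ[ℚ] L) * wc_N L p (c : L ≃ₐ[ℚ] L)) 1 (fun c hc => absurd (Subsingleton.elim c 1) hc)] at h2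
    simp only [Subgroup.coe_one, orderOf_one, one_mul, Subgroup.card_bot] at h2
    rw [h2]

variable {L}

/-- Deuring's identity for `c ∈ H`, uniform version: for a prime `ℓ ∤ m` with trivial inertia,
`ord(c) · wc_N L ℓ c = |H| · [c ζ = ζ ^ ℓ] · wc_a (L^H) ℓ`. -/
theorem dcd_count_ite (H : Subgroup (L ≃ₐ[ℚ] L)) {ℓ m : ℕ} (hℓ : ℓ.Prime)
    (hℓm : Nat.Coprime ℓ m) (hm : m ≠ 0) (hu : wc_Unram L ℓ) {ζ : L} (hζ : ζ ^ m = 1)
    (hfaith : ∀ c ∈ H, c ζ = ζ → c = 1) {c : L ≃ₐ[ℚ] L} (hcH : c ∈ H)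
    [Decidable (Nat.Coprime ℓ m ∧ c ζ = ζ ^ ℓ)] :
    (orderOf c : ℝ) * (wc_N L ℓ c : ℝ) =
      (Nat.card ↥H : ℝ) * (if Nat.Coprime ℓ m ∧ c ζ = ζ ^ ℓ then
        (wc_a ↥(IntermediateField.fixedField H) ℓ : ℝ) else 0) := by
  split_ifs with h
  · exact_mod_cast dcd_count_single H hℓ hℓm hm hu hζ hfaith hcH h.2
  · have h2 : c ζ ≠ ζ ^ ℓ := fun h3 => h ⟨hℓm, h3⟩
    rw [dcd_N_eq_zero hℓ hℓm hm hζ h2]
    simp

/-- the exceptional primes: dividing `m` or with non-trivial inertia -/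
theorem dcd_finite_bad (L : Type*) [Field L] [NumberField L] {m : ℕ} (hm : m ≠ 0) :
    {ℓ : ℕ | ℓ.Prime ∧ ¬ (Nat.Coprime ℓ m ∧ wc_Unram L ℓ)}.Finite := by
  refine ((Nat.divisors m).finite_toSet.union (wcb_finite_ram L)).subset ?_
  rintro ℓ ⟨hℓ, hne⟩
  by_cases hc : Nat.Coprime ℓ m
  · exact Or.inr ⟨hℓ, fun hu => hne ⟨hc, hu⟩⟩
  · refine Or.inl ?_
    rw [Finset.mem_coe, Nat.mem_divisors]
    refine ⟨?_, hm⟩
    by_contra hdvd
    exact hc ((Nat.Prime.coprime_iff_not_dvd hℓ).2 hdvd)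

end main

section cyclo

variable {L : Type*} [Field L] [NumberField L] [IsGalois ℚ L]

/-- a prime of norm prime to `m` is prime to `(m)` -/
theorem dcd_sup_eq_top_of_coprime (E : Type*) [Field E] [NumberField E] {m : ℕ}
    (v : HeightOneSpectrum (𝓞 E)) (h : Nat.Coprime (absNorm v.asIdeal) m) :
    v.asIdeal ⊔ span {(m : 𝓞 E)} = ⊤ := by
  by_contra hne
  have hmax : v.asIdeal.IsMaximal := v.isMaximal
  have h1 : v.asIdeal = v.asIdeal ⊔ span {(m : 𝓞 E)} := hmax.eq_of_le hne le_sup_left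
  have h2 : (m : 𝓞 E) ∈ v.asIdeal := by
    rw [h1]
    exact Ideal.mem_sup_right (Ideal.subset_span rfl)
  exact dcd_natCast_notMem h v.isPrime (Ideal.absNorm_mem v.asIdeal) h2

/-- a prime of prime norm which is prime to `(m)` has norm prime to `m` -/
theorem dcd_coprime_of_sup_eq_top (E : Type*) [Field E] [NumberField E] {m : ℕ}
    (v : HeightOneSpectrum (𝓞 E)) (hp : (absNorm v.asIdeal).Prime)
    (h : v.asIdeal ⊔ span {(m : 𝓞 E)} = ⊤) : Nat.Coprime (absNorm v.asIdeal) m := by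
  rw [Nat.Prime.coprime_iff_not_dvd hp]
  rintro ⟨k, hk⟩
  apply v.isPrime.ne_top
  rw [← h, left_eq_sup, Ideal.span_singleton_le_iff_mem]
  have h2 : (m : 𝓞 E) = (absNorm v.asIdeal : 𝓞 E) * (k : 𝓞 E) := by
    rw [hk]; push_cast; rfl
  rw [h2]
  exact Ideal.mul_mem_right _ _ (Ideal.absNorm_mem v.asIdeal)

/-- **Chebotarev in a cyclotomic situation**, for a cyclic subgroup `H` generated by `g`. -/
theorem dcd_mass_cyclo' (H : Subgroup (L ≃ₐ[ℚ] L)) (g : L ≃ₐ[ℚ] L) (hgH : g ∈ H)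
    (hgen : ∀ x ∈ H, x ∈ Subgroup.zpowers g) {m : ℕ} (hm : m ≠ 0) (ζ : L)
    (hζ : ζ ^ m = 1) (hfaith : ∀ c ∈ H, c ζ = ζ → c = 1) (hnc : ∀ c ∈ H, c ζ ≠ ζ⁻¹) :
    wc_Mass (wc_P (fun p => (wc_N L p g : ℝ))) (1 / (Nat.card ↥H : ℝ)) := by
  classical
  have hm1 : m ≠ 1 := by
    rintro rfl
    have h1 : ζ = 1 := by simpa using hζ
    exact hnc 1 H.one_mem (by rw [h1]; simp)
  set E := ↥(IntermediateField.fixedField H) with hE
  haveI : IsTotallyComplex E := dcd_isTotallyComplex H hm hζ hnc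
  letI : CommGroup ↥H :=
    { (inferInstance : Group ↥H) with
      mul_comm := fun a b => by
        obtain ⟨i, hi⟩ := Subgroup.mem_zpowers_iff.1 (hgen a a.2)
        obtain ⟨j, hj⟩ := Subgroup.mem_zpowers_iff.1 (hgen b b.2)
        apply Subtype.ext
        show (a : L ≃ₐ[ℚ] L) * (b : L ≃ₐ[ℚ] L) = (b : L ≃ₐ[ℚ] L) * (a : L ≃ₐ[ℚ] L)
        rw [← hi, ← hj]
        exact zpow_mul_comm g i j }
  have hNpos : (0 : ℝ) < (Nat.card ↥H : ℝ) := by exact_mod_cast Nat.card_pos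
  have hmE : span {(m : 𝓞 E)} ≠ ⊥ := by
    rw [Ne, Ideal.span_singleton_eq_bot]
    exact_mod_cast hm
  -- the coefficient functions
  set a : ℕ → ℝ := fun p => (wc_a E p : ℝ) with ha
  set T : (L ≃ₐ[ℚ] L) → ℕ → Prop := fun c p => Nat.Coprime p m ∧ c ζ = ζ ^ p with hT
  have haB : ∀ c (p : ℕ), p.Prime → |(if T c p then a p else 0)| ≤
      ((2 ^ Module.finrank ℚ E : ℕ) : ℝ) := by
    intro c p hp
    split_ifs
    · rw [abs_of_nonneg (Nat.cast_nonneg _)]
      exact dcd_a_le E hp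
    · rw [abs_zero]; positivity
  -- the coefficients of `c ∈ H` in terms of `E`
  have hcoef : ∀ c ∈ H, wc_Mass (wc_P (fun p => if T c p then a p else 0)) (1 / (Nat.card ↥H : ℝ)) →
      wc_Mass (wc_P (fun p => (orderOf c : ℝ) * (wc_N L p c : ℝ))) 1 := by
    intro c hcH hmass
    have h1 := hmass.const_mul (Nat.card ↥H : ℝ)
    have h2 : (Nat.card ↥H : ℝ) * (1 / (Nat.card ↥H : ℝ)) = 1 := by field_simp
    rw [h2] at h1
    have h3 : wc_Mass (wc_P (fun p => (Nat.card ↥H : ℝ) * (if T c p then a p else 0))) 1 :=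
      h1.congr' fun s _ => (wc_P_const_mul _ _ s).symm
    refine dcd_mass_congr_finite (B := (Nat.card ↥H : ℝ) * ((2 ^ Module.finrank ℚ E : ℕ) : ℝ))
      (B' := (orderOf c : ℝ) * (Module.finrank ℚ L : ℝ)) ?_ ?_ ?_ h3
    · intro p hp
      rw [abs_mul, abs_of_nonneg hNpos.le]
      exact mul_le_mul_of_nonneg_left (haB c p hp) hNpos.le
    · intro p hp
      rw [abs_of_nonneg (by positivity)]
      refine mul_le_mul_of_nonneg_left ?_ (Nat.cast_nonneg _)
      exact_mod_cast wcb_N_le L hp c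
    · refine (dcd_finite_bad L hm).subset ?_
      rintro p ⟨hp, hne⟩
      refine ⟨hp, fun hgood => hne ?_⟩
      exact (dcd_count_ite H hp hgood.1 hm hgood.2 hζ hfaith hcH).symm
  have hcoef' : ∀ c ∈ H, wc_Mass (wc_P (fun p => (orderOf c : ℝ) * (wc_N L p c : ℝ))) 1 →
      wc_Mass (wc_P (fun p => if T c p then a p else 0)) (1 / (Nat.card ↥H : ℝ)) := by
    intro c hcH hmass
    have h3 : wc_Mass (wc_P (fun p => (Nat.card ↥H : ℝ) * (if T c p then a p else 0))) 1 := by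
      refine dcd_mass_congr_finite
        (B' := (Nat.card ↥H : ℝ) * ((2 ^ Module.finrank ℚ E : ℕ) : ℝ))
        (B := (orderOf c : ℝ) * (Module.finrank ℚ L : ℝ)) ?_ ?_ ?_ hmass
      · intro p hp
        rw [abs_of_nonneg (by positivity)]
        refine mul_le_mul_of_nonneg_left ?_ (Nat.cast_nonneg _)
        exact_mod_cast wcb_N_le L hp c
      · intro p hp
        rw [abs_mul, abs_of_nonneg hNpos.le]
        exact mul_le_mul_of_nonneg_left (haB c p hp) hNpos.le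
      · refine (dcd_finite_bad L hm).subset ?_
        rintro p ⟨hp, hne⟩
        refine ⟨hp, fun hgood => hne ?_⟩
        exact dcd_count_ite H hp hgood.1 hm hgood.2 hζ hfaith hcH
    have h4 : wc_Mass (fun s => (Nat.card ↥H : ℝ) * wc_P (fun p => if T c p then a p else 0) s) 1 :=
      h3.congr' fun s _ => wc_P_const_mul _ _ s
    have h5 := h4.const_mul (1 / (Nat.card ↥H : ℝ))
    refine (h5.congr' fun s _ => ?_).congr_coeff (mul_one _)
    field_simp
  -- the degree-one primes of `E` in a class of the norm residue map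
  have hset : ∀ c : ↥H, {v : HeightOneSpectrum (𝓞 E) | v.asIdeal ⊔ span {(m : 𝓞 E)} = ⊤ ∧
      dcd_cmap H ζ v.asIdeal = c} ∩ {v | (absNorm v.asIdeal).Prime} =
      dcd_degOneSet E (T (c : L ≃ₐ[ℚ] L)) := by
    intro c
    ext v
    simp only [Set.mem_inter_iff, Set.mem_setOf_eq, dcd_degOneSet, hT]
    constructor
    · rintro ⟨⟨h1, h2⟩, h3⟩
      refine ⟨h3, dcd_coprime_of_sup_eq_top E v h3 h1, ?_⟩
      exact (dcd_cmap_eq_iff H hm hm1 hζ hfaith v.asIdeal h1 c).1 h2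
    · rintro ⟨h3, h4, h5⟩
      have h1 := dcd_sup_eq_top_of_coprime E v h4
      exact ⟨⟨h1, dcd_cmap_eq H hfaith h5⟩, h3⟩
  -- the kernel mass
  have hone : wc_Mass (wc_P (fun p => if T 1 p then a p else 0)) (1 / (Nat.card ↥H : ℝ)) := by
    apply hcoef' 1 H.one_mem
    have h1 := dcd_mass_one L
    refine h1.congr' fun s _ => wc_P_congr (fun p _ => ?_) s
    rw [orderOf_one, Nat.cast_one, one_mul]
  have hker : ∃ C : ℝ, ∀ᶠ s in 𝓝[>] (1 : ℝ),
      (1 / (Nat.card ↥H : ℝ)) * Real.log (1 / (s - 1)) - C ≤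
        ({v : HeightOneSpectrum (𝓞 E) | v.asIdeal ⊔ span {(m : 𝓞 E)} = ⊤ ∧
          dcd_cmap H ζ v.asIdeal = 1}).primeIdealZetaSum s := by
    obtain ⟨C, hC⟩ := hone
    refine ⟨C, ?_⟩
    filter_upwards [hC, self_mem_nhdsWithin] with s hs hs1
    have hs1' : (1 : ℝ) < s := hs1
    have h1 := dcd_zetaSum_degOne E (T 1) hs1'
    have h2 := hset 1
    have h3 : (dcd_degOneSet E (T 1)).primeIdealZetaSum s ≤
        ({v : HeightOneSpectrum (𝓞 E) | v.asIdeal ⊔ span {(m : 𝓞 E)} = ⊤ ∧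
          dcd_cmap H ζ v.asIdeal = 1}).primeIdealZetaSum s := by
      have h4 : dcd_degOneSet E (T 1) ⊆ {v : HeightOneSpectrum (𝓞 E) |
          v.asIdeal ⊔ span {(m : 𝓞 E)} = ⊤ ∧ dcd_cmap H ζ v.asIdeal = 1} ∪ ∅ := by
        intro v hv
        have hv' : v ∈ dcd_degOneSet E (T ((1 : ↥H) : L ≃ₐ[ℚ] L)) := hv
        rw [← h2] at hv'
        exact Or.inl hv'.1
      have h5 := dn_primeIdealZetaSum_le_add h4 hs1'
      have h6 : (∅ : Set (HeightOneSpectrum (𝓞 E))).primeIdealZetaSum s = 0 := by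
        rw [NumberField.Set.primeIdealZetaSum_def]
        simp
      linarith
    rw [h1] at h3
    have h7 := (abs_le.1 hs).1
    unfold wc_m at h7
    linarith
  -- Dirichlet's theorem for the class of `g`
  obtain ⟨C, hC⟩ := dcb_dirichlet (span {(m : 𝓞 E)}) hmE (dcd_cmap H ζ)
    (dcd_cmap_top H hfaith) (dcd_cmap_mul H hm hm1 hζ hfaith)
    (dcd_cmap_surjective' H g hgH hgen hm hζ hfaith)
    (fun γ hγ _ => dcd_cmap_ray H hζ hfaith γ hγ) hker ⟨g, hgH⟩
  have hg : wc_Mass (wc_P (fun p => if T g p then a p else 0)) (1 / (Nat.card ↥H : ℝ)) := by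
    refine ⟨C + dn_degConst E, ?_⟩
    filter_upwards [hC, self_mem_nhdsWithin] with s hs hs1
    have hs1' : (1 : ℝ) < s := hs1
    have h1 := dcd_zetaSum_degOne E (T g) hs1'
    have h2 := hset ⟨g, hgH⟩
    have h3 := dcd_abs_zetaSum_sub_le E {v : HeightOneSpectrum (𝓞 E) |
      v.asIdeal ⊔ span {(m : 𝓞 E)} = ⊤ ∧ dcd_cmap H ζ v.asIdeal = ⟨g, hgH⟩} hs1'
    rw [h2, h1] at h3
    unfold wc_m
    rw [abs_le] at hs h3 ⊢
    constructor <;> linarith [hs.1, hs.2, h3.1, h3.2]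
  have hfin := hcoef g hgH hg
  have hord : orderOf g = Nat.card ↥H := by
    have h1 : H = Subgroup.zpowers g :=
      le_antisymm hgen ((Subgroup.zpowers_le).2 hgH)
    rw [h1, Nat.card_zpowers]
  have h8 : wc_Mass (fun s => (orderOf g : ℝ) * wc_P (fun p => (wc_N L p g : ℝ)) s) 1 :=
    hfin.congr' fun s _ => wc_P_const_mul _ _ s
  have h9 := h8.const_mul (1 / (Nat.card ↥H : ℝ))
  refine (h9.congr' fun s _ => ?_).congr_coeff (mul_one _)
  rw [hord]
  field_simp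

/-- **[C-DEU] Chebotarev in a cyclotomic situation.** -/
theorem dcd_mass_cyclo (L : Type*) [Field L] [NumberField L] [IsGalois ℚ L] (g : L ≃ₐ[ℚ] L)
    {m : ℕ} (hm : m ≠ 0) (ζ : L) (hζ : IsPrimitiveRoot ζ m)
    (hfaith : ∀ c ∈ Subgroup.zpowers g, c ζ = ζ → c = 1)
    (hnc : ∀ c ∈ Subgroup.zpowers g, c ζ ≠ ζ⁻¹) :
    wc_Mass (wc_P (fun p => (wc_N L p g : ℝ))) (1 / (orderOf g : ℝ)) := by
  have h := dcd_mass_cyclo' (Subgroup.zpowers g) g (Subgroup.mem_zpowers g) (fun _ h => h) hm ζ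
    hζ.pow_eq_one hfaith hnc
  rwa [Nat.card_zpowers] at h

end cyclo

end Fermat.Agent.DS
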