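/-
DS-C (Chebotarev density), leaf [C-TOW]: the tower identity.

`L ⊆ L'` number fields, both Galois over `ℚ`, `res : Gal(L'/ℚ) → Gal(L/ℚ)` the restriction.  For a
rational prime `p` with trivial inertia in `L` and `L'` and `σ ∈ Gal(L/ℚ)`:
`∑_{g ↦ σ} ord(g) · wc_N L' p g = [L' : L] · ord(σ) · wc_N L p σ`   (`dct_tower`).

Proof: the primes `P'` of `L'` whose Frobenius restricts to `σ` are the primes over the primes `P` of
`L` with Frobenius `σ`; the primes over a given `P` form one orbit of `N = ker res`, the stabiliser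
of `P'` in `N` is the kernel of `⟨Frob_{P'}⟩ → ⟨σ⟩`, hence `ord(Frob_{P'}) = |Stab_N P'| · ord σ`, and
the orbit–stabiliser sum is `|N| = [L' : L]`.
Owner: helper13.  Prefix `dct_`.
-/
import Mathlib
import Fermat.Agent.WC.FrobCount
import Fermat.Agent.WC.FrobDecomp
import Fermat.Agent.DS.Cheb.CycloTower

set_option autoImplicit false
set_option linter.style.haveILetI false
set_option linter.unusedSectionVars false

open NumberField
open scoped Pointwise

namespace Fermat.Agent.DS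

open Fermat.Agent.WC

section basic

variable {L L' : Type*} [Field L] [NumberField L] [IsGalois ℚ L] [Field L'] [NumberField L']
  [IsGalois ℚ L'] [Algebra L L']

/-- restriction is compatible with the inclusion of the rings of integers -/
theorem dct_algebraMap_smul (g : L' ≃ₐ[ℚ] L') (x : 𝓞 L) :
    algebraMap (𝓞 L) (𝓞 L') (AlgEquiv.restrictNormalHom L g • x) =
      g • algebraMap (𝓞 L) (𝓞 L') x := by
  apply RingOfIntegers.ext
  show algebraMap L L' (AlgEquiv.restrictNormalHom L g (x : L)) = g (algebraMap L L' (x : L))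
  exact AlgEquiv.restrictNormal_commutes g L (x : L)

/-- **The restriction of a Frobenius element is a Frobenius element.** -/
theorem dct_isFrob_res {p : ℕ} {P' : Ideal (𝓞 L')} {g : L' ≃ₐ[ℚ] L'} (h : wc_IsFrob g P' p) :
    wc_IsFrob (AlgEquiv.restrictNormalHom L g) (P'.under (𝓞 L)) p := by
  intro x
  rw [Ideal.under_def, Ideal.mem_comap, map_sub, map_pow, dct_algebraMap_smul]
  exact h _

theorem dct_natCast_mem_under {p : ℕ} {P' : Ideal (𝓞 L')} (h : (p : 𝓞 L') ∈ P') :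
    (p : 𝓞 L) ∈ P'.under (𝓞 L) := by
  rw [Ideal.under_def, Ideal.mem_comap, map_natCast]
  exact h

theorem dct_natCast_mem_of_under {p : ℕ} {P' : Ideal (𝓞 L')} (h : (p : 𝓞 L) ∈ P'.under (𝓞 L)) :
    (p : 𝓞 L') ∈ P' := by
  rw [Ideal.under_def, Ideal.mem_comap, map_natCast] at h
  exact h

/-- elements of the kernel of the restriction do not change the contraction to `L` -/
theorem dct_under_smul {n : L' ≃ₐ[ℚ] L'} (hn : AlgEquiv.restrictNormalHom L n = 1)
    (P' : Ideal (𝓞 L')) : (n • P').under (𝓞 L) = P'.under (𝓞 L) := by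
  ext x
  rw [Ideal.under_def, Ideal.under_def, Ideal.mem_comap, Ideal.mem_comap,
    Ideal.mem_pointwise_smul_iff_inv_smul_mem, ← dct_algebraMap_smul, map_inv, hn, inv_one,
    one_smul]

/-- **The kernel of the restriction acts transitively on the primes of `L'` over a prime of `L`.** -/
theorem dct_exists_smul {P₁ P₂ : Ideal (𝓞 L')} (h₁ : P₁.IsPrime) (h₂ : P₂.IsPrime)
    (h : P₁.under (𝓞 L) = P₂.under (𝓞 L)) :
    ∃ n : L' ≃ₐ[ℚ] L', AlgEquiv.restrictNormalHom L n = 1 ∧ n • P₁ = P₂ := by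
  haveI := h₁
  haveI := h₂
  haveI : IsGalois L L' := IsGalois.tower_top_of_isGalois ℚ L L'
  obtain ⟨τ, hτ⟩ := Algebra.IsInvariant.exists_smul_of_under_eq (𝓞 L) (𝓞 L') (L' ≃ₐ[L] L') P₁ P₂ h
  refine ⟨((dcy_kerEquiv L L').symm τ).1, ((dcy_kerEquiv L L').symm τ).2, ?_⟩
  rw [hτ]
  ext x
  rw [Ideal.mem_pointwise_smul_iff_inv_smul_mem, Ideal.mem_pointwise_smul_iff_inv_smul_mem]
  rfl

end basic

section group

/-- In the cyclic group `⟨φ⟩`, the kernel of a homomorphism `f` has `ord(φ) / ord(f φ)`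
elements. -/
theorem dct_card_ker_zpowers {G' G : Type*} [Group G'] [Group G] (f : G' →* G) (φ : G') :
    Nat.card {n : ↥f.ker // (n : G') ∈ Subgroup.zpowers φ} * orderOf (f φ) = orderOf φ := by
  set ρ : ↥(Subgroup.zpowers φ) →* G := f.comp (Subgroup.zpowers φ).subtype with hρ
  have hrange : Nat.card ↥ρ.range = orderOf (f φ) := by
    have h1 : ρ.range = Subgroup.zpowers (f φ) := by
      rw [hρ, MonoidHom.range_eq_map, ← Subgroup.map_map, ← MonoidHom.range_eq_map,
        Subgroup.range_subtype, MonoidHom.map_zpowers]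
    rw [h1, Nat.card_zpowers]
  have hker : Nat.card ↥ρ.ker = Nat.card {n : ↥f.ker // (n : G') ∈ Subgroup.zpowers φ} := by
    refine Nat.card_congr
      { toFun := fun x => ⟨⟨(x.1 : G'), ?_⟩, x.1.2⟩
        invFun := fun n => ⟨⟨(n.1 : G'), n.2⟩, ?_⟩
        left_inv := fun x => rfl
        right_inv := fun n => rfl }
    · have := x.2
      rw [MonoidHom.mem_ker] at this ⊢
      exact this
    · rw [MonoidHom.mem_ker]
      have := n.1.2
      rw [MonoidHom.mem_ker] at this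
      exact this
  rw [← hker, ← hrange, ← Subgroup.index_ker, Subgroup.card_mul_index, Nat.card_zpowers]

end group

section tower

variable {L L' : Type*} [Field L] [NumberField L] [IsGalois ℚ L] [Field L'] [NumberField L']
  [IsGalois ℚ L'] [Algebra L L']

/-- the order of the Frobenius of `P'` is the order of the stabiliser of `P'` in `ker res` times
the order of its restriction -/
theorem dct_orderOf_frob {p : ℕ} (hp : p.Prime) (hu' : wc_Unram L' p) (P' : Ideal (𝓞 L'))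
    (hP' : P'.IsPrime) (hpP' : (p : 𝓞 L') ∈ P') :
    orderOf (wcb_frob p P') =
      Nat.card (MulAction.stabilizer
        ↥(AlgEquiv.restrictNormalHom (F := ℚ) (K₁ := L') L).ker P') *
        orderOf (AlgEquiv.restrictNormalHom L (wcb_frob p P')) := by
  have hst := wcb_stabilizer_eq_zpowers hp hu' P' hP' hpP' (wcb_frob_spec hp P' hP' hpP')
  rw [← dct_card_ker_zpowers (AlgEquiv.restrictNormalHom (F := ℚ) (K₁ := L') L) (wcb_frob p P')]
  congr 1
  refine Nat.card_congr (Equiv.subtypeEquivRight fun n => ?_)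
  rw [← hst, MulAction.mem_stabilizer_iff, MulAction.mem_stabilizer_iff]
  rfl

variable (L L')

/-- `|ker res| = [L' : L]` -/
theorem dct_card_ker :
    Nat.card ↥(AlgEquiv.restrictNormalHom (F := ℚ) (K₁ := L') L).ker = Module.finrank L L' := by
  haveI : FiniteDimensional L L' := Module.Finite.of_restrictScalars_finite ℚ L L'
  rw [← dcy_card_fiber_gen L L' (1 : L ≃ₐ[ℚ] L)]
  exact Nat.card_congr (Equiv.subtypeEquivRight fun g => MonoidHom.mem_ker)

/-- **[C-TOW] The tower identity.** -/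
theorem dct_tower {p : ℕ} (hp : p.Prime) (hu : wc_Unram L p) (hu' : wc_Unram L' p)
    (σ : L ≃ₐ[ℚ] L) :
    ∑ᶠ g : {g : L' ≃ₐ[ℚ] L' // AlgEquiv.restrictNormalHom L g = σ},
        orderOf (g : L' ≃ₐ[ℚ] L') * wc_N L' p (g : L' ≃ₐ[ℚ] L') =
      Module.finrank L L' * (orderOf σ * wc_N L p σ) := by
  classical
  haveI : Fintype (L' ≃ₐ[ℚ] L') := Fintype.ofFinite _
  set res := AlgEquiv.restrictNormalHom (F := ℚ) (K₁ := L') L with hres
  set X' : Finset (Ideal (𝓞 L')) := (wcb_primes_finite (L := L') hp).toFinset with hX'def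
  have hX' : ∀ P, P ∈ X' ↔ P.IsPrime ∧ (p : 𝓞 L') ∈ P := fun P => by
    rw [hX'def, Set.Finite.mem_toFinset, Set.mem_ofPred_eq]
  set X : Finset (Ideal (𝓞 L)) := (wcb_primes_finite (L := L) hp).toFinset with hXdef
  have hX : ∀ P, P ∈ X ↔ P.IsPrime ∧ (p : 𝓞 L) ∈ P := fun P => by
    rw [hXdef, Set.Finite.mem_toFinset, Set.mem_ofPred_eq]
  set Xσ' : Finset (Ideal (𝓞 L')) := X'.filter (fun P => res (wcb_frob p P) = σ) with hXσ'def
  set Xσ : Finset (Ideal (𝓞 L)) := X.filter (fun P => wcb_frob p P = σ) with hXσdef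
  -- the left-hand side
  have hN' : ∀ c : L' ≃ₐ[ℚ] L', wc_N L' p c = (X'.filter (fun P => wcb_frob p P = c)).card := by
    intro c
    have e : {P : Ideal (𝓞 L') // P.IsPrime ∧ (p : 𝓞 L') ∈ P ∧ wc_IsFrob c P p} ≃
        {P // P ∈ X'.filter (fun P => wcb_frob p P = c)} :=
      Equiv.subtypeEquivRight (fun P => by
        rw [Finset.mem_filter, hX']
        constructor
        · rintro ⟨h1, h2, h3⟩
          exact ⟨⟨h1, h2⟩, (wcb_isFrob_iff hp hu' P h1 h2 c).1 h3⟩
        · rintro ⟨⟨h1, h2⟩, h3⟩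
          exact ⟨h1, h2, (wcb_isFrob_iff hp hu' P h1 h2 c).2 h3⟩)
    rw [wc_N, Nat.card_congr e, Nat.card_eq_fintype_card, Fintype.card_coe]
  have h1 : ∀ c : L' ≃ₐ[ℚ] L', orderOf c * wc_N L' p c =
      ∑ P ∈ X'.filter (fun P => wcb_frob p P = c), orderOf (wcb_frob p P) := by
    intro c
    rw [hN', Finset.sum_congr rfl (fun P hP => by rw [(Finset.mem_filter.1 hP).2]),
      Finset.sum_const, smul_eq_mul, mul_comm]
  have hLHS : ∑ᶠ g : {g : L' ≃ₐ[ℚ] L' // res g = σ},
      orderOf (g : L' ≃ₐ[ℚ] L') * wc_N L' p (g : L' ≃ₐ[ℚ] L') =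
      ∑ P ∈ Xσ', orderOf (wcb_frob p P) := by
    rw [finsum_eq_sum_of_fintype,
      ← Finset.sum_subtype (Finset.univ.filter (fun c : L' ≃ₐ[ℚ] L' => res c = σ)) (by simp)
        (fun c => orderOf c * wc_N L' p c),
      ← Finset.sum_fiberwise_of_maps_to (s := Xσ')
        (t := Finset.univ.filter (fun c : L' ≃ₐ[ℚ] L' => res c = σ)) (g := wcb_frob p)
        (fun P hP => by
          rw [Finset.mem_filter]
          exact ⟨Finset.mem_univ _, (Finset.mem_filter.1 hP).2⟩)]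
    apply Finset.sum_congr rfl
    intro c hc
    rw [h1]
    apply Finset.sum_congr _ (fun _ _ => rfl)
    ext P
    rw [hXσ'def, Finset.mem_filter, Finset.mem_filter, Finset.mem_filter]
    constructor
    · rintro ⟨h2, h3⟩
      refine ⟨⟨h2, ?_⟩, h3⟩
      rw [h3]
      exact (Finset.mem_filter.1 hc).2
    · rintro ⟨⟨h2, -⟩, h3⟩
      exact ⟨h2, h3⟩
  -- the right-hand side
  have hN : wc_N L p σ = Xσ.card := by
    have e : {P : Ideal (𝓞 L) // P.IsPrime ∧ (p : 𝓞 L) ∈ P ∧ wc_IsFrob σ P p} ≃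
        {P // P ∈ Xσ} :=
      Equiv.subtypeEquivRight (fun P => by
        rw [hXσdef, Finset.mem_filter, hX]
        constructor
        · rintro ⟨h1, h2, h3⟩
          exact ⟨⟨h1, h2⟩, (wcb_isFrob_iff hp hu P h1 h2 σ).1 h3⟩
        · rintro ⟨⟨h1, h2⟩, h3⟩
          exact ⟨h1, h2, (wcb_isFrob_iff hp hu P h1 h2 σ).2 h3⟩)
    rw [wc_N, Nat.card_congr e, Nat.card_eq_fintype_card, Fintype.card_coe]
  -- the map `P' ↦ P' ∩ 𝓞 L`
  have hfrob_under : ∀ P' : Ideal (𝓞 L'), P'.IsPrime → (p : 𝓞 L') ∈ P' →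
      wcb_frob p (P'.under (𝓞 L)) = res (wcb_frob p P') := by
    intro P' hP' hpP'
    have h2 : (P'.under (𝓞 L)).IsPrime := by
      haveI := hP'
      exact Ideal.IsPrime.under (𝓞 L) P'
    exact (wcb_isFrob_iff hp hu _ h2 (dct_natCast_mem_under hpP') _).1
      (dct_isFrob_res (wcb_frob_spec hp P' hP' hpP'))
  have hmaps : ∀ P' ∈ Xσ', P'.under (𝓞 L) ∈ Xσ := by
    intro P' hP'
    rw [hXσ'def, Finset.mem_filter, hX'] at hP'
    rw [hXσdef, Finset.mem_filter, hX]
    haveI := hP'.1.1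
    exact ⟨⟨Ideal.IsPrime.under (𝓞 L) P', dct_natCast_mem_under hP'.1.2⟩,
      (hfrob_under P' hP'.1.1 hP'.1.2).trans hP'.2⟩
  rw [hLHS, hN, ← mul_assoc, mul_comm _ Xσ.card, ← smul_eq_mul, ← Finset.sum_const,
    ← Finset.sum_fiberwise_of_maps_to (s := Xσ') (t := Xσ)
      (g := fun P' => P'.under (𝓞 L)) hmaps]
  apply Finset.sum_congr rfl
  intro P hP
  rw [hXσdef, Finset.mem_filter, hX] at hP
  obtain ⟨⟨hPprime, hpP⟩, hPσ⟩ := hP
  haveI := hPprime
  -- a prime over `P`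
  obtain ⟨P₀, -, hP₀, hP₀u⟩ := Ideal.exists_ideal_over_prime_of_isIntegral P
    (⊥ : Ideal (𝓞 L')) (by
      rw [Ideal.comap_bot_of_injective _ (FaithfulSMul.algebraMap_injective _ _)]
      exact bot_le)
  have hP₀u' : P₀.under (𝓞 L) = P := hP₀u
  -- the fibre is the orbit of `P₀` under `ker res`
  have hfib : ∀ P', P' ∈ Xσ'.filter (fun P' => P'.under (𝓞 L) = P) ↔
      P' ∈ MulAction.orbit ↥res.ker P₀ := by
    intro P'
    rw [Finset.mem_filter, hXσ'def, Finset.mem_filter, hX']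
    constructor
    · rintro ⟨⟨⟨h2, -⟩, -⟩, h3⟩
      obtain ⟨n, hn1, hn2⟩ := dct_exists_smul hP₀ h2 (hP₀u'.trans h3.symm)
      exact ⟨⟨n, MonoidHom.mem_ker.2 hn1⟩, hn2⟩
    · rintro ⟨n, rfl⟩
      have hnP : (n • P₀ : Ideal (𝓞 L')) = (n : L' ≃ₐ[ℚ] L') • P₀ := rfl
      have hu1 : (n • P₀ : Ideal (𝓞 L')).under (𝓞 L) = P := by
        rw [hnP, dct_under_smul (MonoidHom.mem_ker.1 n.2), hP₀u']
      have hprime : (n • P₀ : Ideal (𝓞 L')).IsPrime := by
        rw [hnP]
        haveI := hP₀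
        exact Ideal.IsPrime.smul _
      have hmem : (p : 𝓞 L') ∈ (n • P₀ : Ideal (𝓞 L')) := by
        apply dct_natCast_mem_of_under (L := L)
        rw [hu1]
        exact hpP
      refine ⟨⟨⟨hprime, hmem⟩, ?_⟩, hu1⟩
      rw [← hfrob_under _ hprime hmem, hu1, hPσ]
  rw [← dct_card_ker L L', mul_comm (Nat.card _) (orderOf σ), ← wcb_c_sum_stabilizer (G := ↥res.ker) _ P₀ hfib,
    Finset.mul_sum]
  apply Finset.sum_congr rfl
  intro P' hP'
  have hP'' := (hfib P').1 hP'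
  rw [Finset.mem_filter, hXσ'def, Finset.mem_filter, hX'] at hP'
  obtain ⟨⟨⟨h2, h3⟩, h4⟩, -⟩ := hP'
  rw [dct_orderOf_frob (L := L) hp hu' P' h2 h3, h4, mul_comm]

end tower

end Fermat.Agent.DS
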