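/-
DS-C (Chebotarev density), leaf [C-X]: **Chebotarev's crossing argument.**

For a Galois number field `L / ℚ` and `σ ∈ Gal(L/ℚ)`:
`∑_p #{P ∣ p : Frob_P = σ} p^{-s} = (1/ord σ + o(1)) · log (1/(s-1))`  (`dcx_chebotarev`).

Proof: cross `L` with `ℚ(ζ_m)`, `m` from `dcg_main` (`Count.lean`): in `L' = L(ζ_m)` most `g` over `σ`
are "good" (`⟨g⟩` acts faithfully on `ζ_m` and contains no complex conjugation), and for good `g`
Chebotarev holds with an `O(1)` error (`dcd_mass_cyclo`, `Deuring.lean`).  The tower identity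
(`dct_tower`, `Tower.lean`) gives the lower bound `(1 - ε)/ord σ`; the total mass of all `σ`
(`wcb_count` for the trivial fixed field) gives the matching upper bound.
Owner: helper13.  Prefix `dcx_`.
-/
import Mathlib
import Fermat.Agent.DS.Cheb.Deuring
import Fermat.Agent.DS.Cheb.Tower
import Fermat.Agent.DS.Cheb.Count
import Fermat.Agent.DS.Cheb.CycloTower

set_option autoImplicit false
set_option linter.style.haveILetI false
set_option linter.unusedSectionVars false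

open NumberField Filter Topology

namespace Fermat.Agent.DS

open Fermat.Agent.WC

/-! ### Comparison of prime Dirichlet series off a finite set -/

/-- If `f₁ ≤ f₂` at all but finitely many primes (both bounded), then
`wc_P f₁ ≤ wc_P f₂ + O(1)`. -/
theorem dcx_P_le_of_le_off_finite {f₁ f₂ : ℕ → ℝ} {B₁ B₂ : ℝ}
    (h₁ : ∀ p : ℕ, p.Prime → |f₁ p| ≤ B₁) (h₂ : ∀ p : ℕ, p.Prime → |f₂ p| ≤ B₂)
    (hfin : {p : ℕ | p.Prime ∧ ¬ f₁ p ≤ f₂ p}.Finite) :
    ∃ C : ℝ, ∀ᶠ s in 𝓝[>] (1 : ℝ), wc_P f₁ s ≤ wc_P f₂ s + C := by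
  classical
  set d : ℕ → ℝ := fun p => if p.Prime ∧ ¬ f₁ p ≤ f₂ p then f₁ p - f₂ p else 0 with hd
  have hdfin : {p : ℕ | d p ≠ 0}.Finite := by
    refine hfin.subset fun p hp => ?_
    by_contra hcon
    have hcon' : ¬ (p.Prime ∧ ¬ f₁ p ≤ f₂ p) := hcon
    apply hp
    simp only [hd]
    rw [if_neg hcon']
  have hdB : ∀ p : ℕ, p.Prime → |d p| ≤ B₁ + B₂ := by
    intro p hp
    simp only [hd]
    split_ifs
    · exact (abs_sub _ _).trans (add_le_add (h₁ p hp) (h₂ p hp))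
    · rw [abs_zero]
      exact add_nonneg ((abs_nonneg _).trans (h₁ p hp)) ((abs_nonneg _).trans (h₂ p hp))
  have heB : ∀ p : ℕ, p.Prime → |f₁ p - d p| ≤ B₁ + (B₁ + B₂) := fun p hp =>
    (abs_sub _ _).trans (add_le_add (h₁ p hp) (hdB p hp))
  have hle : ∀ p : ℕ, p.Prime → f₁ p - d p ≤ f₂ p := by
    intro p hp
    simp only [hd]
    split_ifs with h
    · linarith
    · rw [sub_zero]
      by_contra hcon
      exact h ⟨hp, hcon⟩
  obtain ⟨C, hC⟩ := wc_Mass_P_of_finite hdfin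
  refine ⟨C, ?_⟩
  filter_upwards [hC, self_mem_nhdsWithin] with s hs hs1
  have hs1' : (1 : ℝ) < s := hs1
  have h3 : wc_P f₁ s = wc_P (fun p => f₁ p - d p) s + wc_P d s := by
    rw [← wc_P_add heB hdB hs1']
    exact wc_P_congr (fun p _ => by ring) s
  have h4 : wc_P (fun p => f₁ p - d p) s ≤ wc_P f₂ s := by
    unfold wc_P
    refine (wc_P_summable heB hs1').tsum_le_tsum (fun p => ?_) (wc_P_summable h₂ hs1')
    exact mul_le_mul_of_nonneg_right (hle p p.2) (Real.rpow_nonneg (Nat.cast_nonneg _) _)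
  rw [zero_mul, sub_zero] at hs
  have h5 := (abs_le.1 hs).2
  linarith

/-! ### (X2) The lower bound -/

/-- **Lower bound from a good modulus.**  If at most `δ φ(m)` of the classes `t ∈ (ℤ/m)ˣ` are
"bad" (`ord σ ∤ ord t` or `-1 ∈ ⟨t⟩`), then the `σ`-series has lower mass
`(1 - δ [L:ℚ]) / ord σ`. -/
theorem dcx_lower_aux (L : Type) [Field L] [NumberField L] [IsGalois ℚ L]
    (L' : Type) [Field L'] [NumberField L'] [IsGalois ℚ L'] [Algebra L L']
    (m : ℕ) [NeZero m] [IsCyclotomicExtension {m} L L'] {ζ : L'} (hζ : IsPrimitiveRoot ζ m)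
    (σ : L ≃ₐ[ℚ] L) {δ : ℝ} (hδ : 0 ≤ δ)
    (hbad : (Nat.card {t : (ZMod m)ˣ // ¬ (orderOf σ ∣ orderOf t ∧
        (-1 : (ZMod m)ˣ) ∉ Subgroup.zpowers t)} : ℝ) ≤ δ * (Nat.totient m : ℝ)) :
    ∃ C : ℝ, ∀ᶠ s in 𝓝[>] (1 : ℝ),
      (1 - δ * (Module.finrank ℚ L : ℝ)) / (orderOf σ : ℝ) * wc_m s - C ≤
        wc_P (fun p => (wc_N L p σ : ℝ)) s := by
  classical
  haveI : Fintype (L' ≃ₐ[ℚ] L') := Fintype.ofFinite _
  haveI : FiniteDimensional L L' := Module.Finite.of_restrictScalars_finite ℚ L L'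
  have hd0 : 0 < Module.finrank L L' := Module.finrank_pos
  have hσ0 : 0 < orderOf σ := orderOf_pos σ
  -- the bad set of characters
  set B : Set (ZMod m)ˣ :=
    {t | ¬ (orderOf σ ∣ orderOf t ∧ (-1 : (ZMod m)ˣ) ∉ Subgroup.zpowers t)} with hB
  set Fib : Finset (L' ≃ₐ[ℚ] L') :=
    Finset.univ.filter (fun g => AlgEquiv.restrictNormalHom L g = σ) with hFib
  set Good : Finset (L' ≃ₐ[ℚ] L') := Fib.filter (fun g => dcy_chi hζ g ∉ B) with hGood
  set Bad : Finset (L' ≃ₐ[ℚ] L') := Fib.filter (fun g => dcy_chi hζ g ∈ B) with hBad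
  have hFibmem : ∀ g, g ∈ Fib ↔ AlgEquiv.restrictNormalHom L g = σ := fun g => by
    rw [hFib, Finset.mem_filter]
    exact ⟨fun h => h.2, fun h => ⟨Finset.mem_univ _, h⟩⟩
  have hFibcard : Fib.card = Module.finrank L L' := by
    rw [← dcy_card_fiber_gen L L' σ, Nat.card_eq_fintype_card, Fintype.card_subtype]
  have hBadcard : (Bad.card : ℝ) ≤
      δ * ((Module.finrank L L' : ℝ) * (Module.finrank ℚ L : ℝ)) := by
    have h1 : Bad.card ≤ Nat.card B := by
      have h := dcy_card_fiber_chi_le L hζ σ B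
      rw [Nat.card_eq_fintype_card, Fintype.card_subtype] at h
      refine le_trans (le_of_eq ?_) h
      rw [hBad, hFib, Finset.filter_filter]
    have h2 : (Nat.card B : ℝ) ≤ δ * (Nat.totient m : ℝ) := hbad
    have h3 : (Nat.totient m : ℝ) ≤ (Module.finrank L L' : ℝ) * (Module.finrank ℚ L : ℝ) := by
      exact_mod_cast dcy_finrank_of L hζ
    calc (Bad.card : ℝ) ≤ Nat.card B := by exact_mod_cast h1
      _ ≤ δ * (Nat.totient m : ℝ) := h2
      _ ≤ δ * ((Module.finrank L L' : ℝ) * (Module.finrank ℚ L : ℝ)) :=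
        mul_le_mul_of_nonneg_left h3 hδ
  have hsplit : Bad.card + Good.card = Module.finrank L L' := by
    rw [← hFibcard, hGood, hBad]
    exact Finset.card_filter_add_card_filter_not (s := Fib) (fun g => dcy_chi hζ g ∈ B)
  -- masses of the good elements
  have hmassg : ∀ g ∈ Good,
      wc_Mass (wc_P (fun p => (wc_N L' p g : ℝ))) (1 / (orderOf g : ℝ)) := by
    intro g hg
    rw [hGood, Finset.mem_filter, hFibmem] at hg
    obtain ⟨hgσ, hgB⟩ := hg
    have hgB' : orderOf σ ∣ orderOf (dcy_chi hζ g) ∧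
        (-1 : (ZMod m)ˣ) ∉ Subgroup.zpowers (dcy_chi hζ g) := by
      by_contra hcon
      exact hgB hcon
    refine dcd_mass_cyclo L' g (NeZero.ne m) ζ hζ (dcy_faithful L hζ g ?_)
      (dcy_no_conj hζ g hgB'.2)
    rw [hgσ]
    exact hgB'.1
  have hmass : wc_Mass (fun s => ∑ g ∈ Good,
      (orderOf g : ℝ) * wc_P (fun p => (wc_N L' p g : ℝ)) s) (Good.card : ℝ) := by
    have h := wc_Mass.sum Good
      (fun g s => (orderOf g : ℝ) * wc_P (fun p => (wc_N L' p g : ℝ)) s)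
      (fun g => (orderOf g : ℝ) * (1 / (orderOf g : ℝ)))
      (fun g hg => (hmassg g hg).const_mul _)
    refine h.congr_coeff ?_
    rw [Finset.sum_congr rfl (fun g _ =>
      mul_one_div_cancel (Nat.cast_ne_zero.mpr (orderOf_pos g).ne'))]
    rw [Finset.sum_const, nsmul_eq_mul, mul_one]
  -- the two coefficient functions
  set f₁ : ℕ → ℝ := fun p => ∑ g ∈ Good, (orderOf g : ℝ) * (wc_N L' p g : ℝ) with hf₁
  set f₂ : ℕ → ℝ := fun p =>
    (Module.finrank L L' : ℝ) * ((orderOf σ : ℝ) * (wc_N L p σ : ℝ)) with hf₂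
  have hB1 : ∀ (g : L' ≃ₐ[ℚ] L') (p : ℕ), p.Prime →
      |(orderOf g : ℝ) * (wc_N L' p g : ℝ)| ≤
        (Fintype.card (L' ≃ₐ[ℚ] L') : ℝ) * (Module.finrank ℚ L' : ℝ) := by
    intro g p hp
    rw [abs_of_nonneg (by positivity)]
    exact mul_le_mul (by exact_mod_cast orderOf_le_card_univ)
      (by exact_mod_cast wcb_N_le L' hp g) (by positivity) (by positivity)
  have hf₁B : ∀ p : ℕ, p.Prime → |f₁ p| ≤
      Good.card • ((Fintype.card (L' ≃ₐ[ℚ] L') : ℝ) * (Module.finrank ℚ L' : ℝ)) := by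
    intro p hp
    refine (Finset.abs_sum_le_sum_abs _ _).trans ?_
    exact Finset.sum_le_card_nsmul _ _ _ (fun g _ => hB1 g p hp)
  have hf₂B : ∀ p : ℕ, p.Prime → |f₂ p| ≤
      (Module.finrank L L' : ℝ) * ((orderOf σ : ℝ) * (Module.finrank ℚ L : ℝ)) := by
    intro p hp
    rw [hf₂, abs_of_nonneg (by positivity)]
    refine mul_le_mul_of_nonneg_left (mul_le_mul_of_nonneg_left ?_ (by positivity)) (by positivity)
    exact_mod_cast wcb_N_le L hp σ
  -- the tower inequality at unramified primes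
  have hle : ∀ p : ℕ, p.Prime → wc_Unram L p → wc_Unram L' p → f₁ p ≤ f₂ p := by
    intro p hp hu hu'
    have h := dct_tower L L' hp hu hu' σ
    rw [finsum_eq_sum_of_fintype] at h
    have h' : ∑ g ∈ Fib, orderOf g * wc_N L' p g =
        Module.finrank L L' * (orderOf σ * wc_N L p σ) := by
      rw [← h]
      exact Finset.sum_subtype Fib hFibmem (fun g => orderOf g * wc_N L' p g)
    calc f₁ p = ∑ g ∈ Good, (orderOf g : ℝ) * (wc_N L' p g : ℝ) := rfl
      _ ≤ ∑ g ∈ Fib, (orderOf g : ℝ) * (wc_N L' p g : ℝ) :=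
        Finset.sum_le_sum_of_subset_of_nonneg (Finset.filter_subset _ _)
          (fun _ _ _ => by positivity)
      _ = f₂ p := by
        have h'' : ((∑ g ∈ Fib, orderOf g * wc_N L' p g : ℕ) : ℝ) =
            ((Module.finrank L L' * (orderOf σ * wc_N L p σ) : ℕ) : ℝ) := by rw [h']
        rw [hf₂]
        push_cast at h''
        exact h''
  have hfin : {p : ℕ | p.Prime ∧ ¬ f₁ p ≤ f₂ p}.Finite := by
    refine ((wcb_finite_ram L).union (wcb_finite_ram L')).subset ?_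
    rintro p ⟨hp, hnle⟩
    by_contra hcon
    rw [Set.mem_union, not_or] at hcon
    apply hnle
    apply hle p hp
    · by_contra hu
      exact hcon.1 ⟨hp, hu⟩
    · by_contra hu
      exact hcon.2 ⟨hp, hu⟩
  -- combine
  obtain ⟨C₀, hC₀⟩ := hmass
  obtain ⟨C₁, hC₁⟩ := dcx_P_le_of_le_off_finite hf₁B hf₂B hfin
  have hm0 : ∀ᶠ s in 𝓝[>] (1 : ℝ), 0 ≤ wc_m s :=
    wc_m_tendsto.eventually (eventually_ge_atTop 0)
  refine ⟨(C₀ + C₁) / ((Module.finrank L L' : ℝ) * (orderOf σ : ℝ)), ?_⟩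
  filter_upwards [hC₀, hC₁, hm0, self_mem_nhdsWithin] with s h0 h1 hm hs
  have hs1 : (1 : ℝ) < s := hs
  have hP1 : wc_P f₁ s =
      ∑ g ∈ Good, (orderOf g : ℝ) * wc_P (fun p => (wc_N L' p g : ℝ)) s := by
    rw [hf₁, wc_P_sum Good (fun g p => (orderOf g : ℝ) * (wc_N L' p g : ℝ)) hB1 hs1]
    exact Finset.sum_congr rfl (fun g _ => wc_P_const_mul _ _ _)
  have hP2 : wc_P f₂ s = (Module.finrank L L' : ℝ) *
      ((orderOf σ : ℝ) * wc_P (fun p => (wc_N L p σ : ℝ)) s) := by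
    rw [hf₂, wc_P_const_mul, wc_P_const_mul]
  have h0' := (abs_le.1 h0).1
  have hgood : (Module.finrank L L' : ℝ) * (1 - δ * (Module.finrank ℚ L : ℝ)) ≤ Good.card := by
    have h2 : (Bad.card : ℝ) + (Good.card : ℝ) = (Module.finrank L L' : ℝ) := by
      exact_mod_cast hsplit
    linarith
  have hgm := mul_le_mul_of_nonneg_right hgood hm
  have hD : (0 : ℝ) < (Module.finrank L L' : ℝ) := by exact_mod_cast hd0
  have ho : (0 : ℝ) < (orderOf σ : ℝ) := by exact_mod_cast hσ0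
  have hDo : (0 : ℝ) < (Module.finrank L L' : ℝ) * (orderOf σ : ℝ) := mul_pos hD ho
  have e : (1 - δ * (Module.finrank ℚ L : ℝ)) / (orderOf σ : ℝ) * wc_m s -
      (C₀ + C₁) / ((Module.finrank L L' : ℝ) * (orderOf σ : ℝ)) =
      ((Module.finrank L L' : ℝ) * (1 - δ * (Module.finrank ℚ L : ℝ)) * wc_m s - (C₀ + C₁)) /
        ((Module.finrank L L' : ℝ) * (orderOf σ : ℝ)) := by
    field_simp
  rw [e, div_le_iff₀ hDo]
  rw [hP1] at h1
  rw [hP2] at h1
  linarith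

/-- **Chebotarev, lower bound.** -/
theorem dcx_lower (L : Type) [Field L] [NumberField L] [IsGalois ℚ L] (σ : L ≃ₐ[ℚ] L) {ε : ℝ}
    (hε : 0 < ε) :
    ∃ C : ℝ, ∀ᶠ s in 𝓝[>] (1 : ℝ),
      (1 - ε) / (orderOf σ : ℝ) * wc_m s - C ≤ wc_P (fun p => (wc_N L p σ : ℝ)) s := by
  have hn0 : (0 : ℝ) < (Module.finrank ℚ L : ℝ) := by exact_mod_cast Module.finrank_pos
  obtain ⟨m, hm3, -, -, hbad⟩ :=
    dcg_main (orderOf σ) (orderOf_pos σ) (ε / (Module.finrank ℚ L : ℝ)) (div_pos hε hn0)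
  haveI : NeZero m := ⟨by omega⟩
  obtain ⟨C, hC⟩ := dcx_lower_aux L (CyclotomicField m L) m (dcy_zeta_spec L m) σ
    (div_pos hε hn0).le hbad
  refine ⟨C, ?_⟩
  have e : ε / (Module.finrank ℚ L : ℝ) * (Module.finrank ℚ L : ℝ) = ε :=
    div_mul_cancel₀ ε hn0.ne'
  rw [e] at hC
  exact hC

/-! ### (X3) The total mass -/

/-- `∑_σ ord σ · ∑_p N_p(σ) p^{-s} = [L:ℚ] · log (1/(s-1)) + O(1)`. -/
theorem dcx_total (L : Type) [Field L] [NumberField L] [IsGalois ℚ L] [Fintype (L ≃ₐ[ℚ] L)] :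
    wc_Mass (wc_P (fun p => ∑ τ : L ≃ₐ[ℚ] L, (orderOf τ : ℝ) * (wc_N L p τ : ℝ)))
      (Module.finrank ℚ L : ℝ) := by
  classical
  have h1 : wc_Mass (wc_P (fun p => (Module.finrank ℚ L : ℝ) *
      (wc_a ↥(IntermediateField.fixedField (⊤ : Subgroup (L ≃ₐ[ℚ] L))) p : ℝ)))
      ((Module.finrank ℚ L : ℝ) * 1) := by
    have h := (wc_mass_a ↥(IntermediateField.fixedField (⊤ : Subgroup (L ≃ₐ[ℚ] L)))).const_mul
      (Module.finrank ℚ L : ℝ)
    exact h.congr' (fun s _ => (wc_P_const_mul _ _ s).symm)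
  rw [mul_one] at h1
  have hB1 : ∀ (g : L ≃ₐ[ℚ] L) (p : ℕ), p.Prime →
      |(orderOf g : ℝ) * (wc_N L p g : ℝ)| ≤
        (Fintype.card (L ≃ₐ[ℚ] L) : ℝ) * (Module.finrank ℚ L : ℝ) := by
    intro g p hp
    rw [abs_of_nonneg (by positivity)]
    exact mul_le_mul (by exact_mod_cast orderOf_le_card_univ)
      (by exact_mod_cast wcb_N_le L hp g) (by positivity) (by positivity)
  refine dcd_mass_congr_finite
    (B := (Module.finrank ℚ L : ℝ) * ((1 + 1 : ℕ) ^ Module.finrank ℚ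
      ↥(IntermediateField.fixedField (⊤ : Subgroup (L ≃ₐ[ℚ] L))) : ℕ))
    (B' := (Finset.univ : Finset (L ≃ₐ[ℚ] L)).card •
      ((Fintype.card (L ≃ₐ[ℚ] L) : ℝ) * (Module.finrank ℚ L : ℝ))) ?_ ?_ ?_ h1
  · intro p hp
    rw [abs_of_nonneg (by positivity)]
    refine mul_le_mul_of_nonneg_left ?_ (by positivity)
    have h := wci_a_prime_pow_le ↥(IntermediateField.fixedField (⊤ : Subgroup (L ≃ₐ[ℚ] L))) hp 1
    rw [pow_one] at h
    exact_mod_cast h
  · intro p hp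
    refine (Finset.abs_sum_le_sum_abs _ _).trans ?_
    exact Finset.sum_le_card_nsmul _ _ _ (fun g _ => hB1 g p hp)
  · refine (wcb_finite_ram L).subset ?_
    rintro p ⟨hp, hne⟩
    refine ⟨hp, fun hu => hne ?_⟩
    have h := wcb_count L hp hu ⊤
    rw [finsum_eq_sum_of_fintype, Subgroup.card_top, IsGalois.card_aut_eq_finrank] at h
    have h' : ∑ g : L ≃ₐ[ℚ] L, orderOf g * wc_N L p g = Module.finrank ℚ L *
        wc_a ↥(IntermediateField.fixedField (⊤ : Subgroup (L ≃ₐ[ℚ] L))) p := by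
      rw [← h]
      exact Finset.sum_subtype Finset.univ (fun g => by simp) (fun g => orderOf g * wc_N L p g)
    have h'' : ((∑ g : L ≃ₐ[ℚ] L, orderOf g * wc_N L p g : ℕ) : ℝ) =
        ((Module.finrank ℚ L *
          wc_a ↥(IntermediateField.fixedField (⊤ : Subgroup (L ≃ₐ[ℚ] L))) p : ℕ) : ℝ) := by
      rw [h']
    push_cast at h''
    exact h''.symm

/-! ### (X4) Chebotarev -/

/-- **Chebotarev's density theorem over `ℚ`** (Dirichlet-density form with `ε`):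
`|∑_p N_p(σ) p^{-s} - (1/ord σ) log (1/(s-1))| ≤ ε log (1/(s-1)) + C` as `s → 1⁺`. -/
theorem dcx_chebotarev (L : Type) [Field L] [NumberField L] [IsGalois ℚ L] (σ : L ≃ₐ[ℚ] L)
    {ε : ℝ} (hε : 0 < ε) :
    ∃ C : ℝ, ∀ᶠ s in 𝓝[>] (1 : ℝ),
      |wc_P (fun p => (wc_N L p σ : ℝ)) s - (1 / (orderOf σ : ℝ)) * wc_m s| ≤
        ε * wc_m s + C := by
  classical
  haveI : Fintype (L ≃ₐ[ℚ] L) := Fintype.ofFinite _
  have hn1 : 1 ≤ Module.finrank ℚ L := Module.finrank_pos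
  have hn0 : (0 : ℝ) < (Module.finrank ℚ L : ℝ) := by exact_mod_cast hn1
  have hcard : Fintype.card (L ≃ₐ[ℚ] L) = Module.finrank ℚ L := by
    rw [← Nat.card_eq_fintype_card, IsGalois.card_aut_eq_finrank]
  set ε' : ℝ := ε / (Module.finrank ℚ L : ℝ) with hε'
  have hε'0 : 0 < ε' := div_pos hε hn0
  have hε'n : (Module.finrank ℚ L : ℝ) * ε' = ε := mul_div_cancel₀ ε hn0.ne'
  choose C hC using fun τ : L ≃ₐ[ℚ] L => dcx_lower L τ hε'0
  obtain ⟨CT, hCT⟩ := dcx_total L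
  have hm0 : ∀ᶠ s in 𝓝[>] (1 : ℝ), 0 ≤ wc_m s :=
    wc_m_tendsto.eventually (eventually_ge_atTop 0)
  have hB1 : ∀ (g : L ≃ₐ[ℚ] L) (p : ℕ), p.Prime →
      |(orderOf g : ℝ) * (wc_N L p g : ℝ)| ≤
        (Fintype.card (L ≃ₐ[ℚ] L) : ℝ) * (Module.finrank ℚ L : ℝ) := by
    intro g p hp
    rw [abs_of_nonneg (by positivity)]
    exact mul_le_mul (by exact_mod_cast orderOf_le_card_univ)
      (by exact_mod_cast wcb_N_le L hp g) (by positivity) (by positivity)
  set K : ℝ := ∑ τ ∈ (Finset.univ : Finset (L ≃ₐ[ℚ] L)).erase σ, (orderOf τ : ℝ) * C τ with hK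
  refine ⟨|C σ| + |CT + K|, ?_⟩
  filter_upwards [eventually_all.mpr hC, hCT, hm0, self_mem_nhdsWithin] with s hlow hT hm hs
  have hs1 : (1 : ℝ) < s := hs
  have ho : ∀ τ : L ≃ₐ[ℚ] L, (1 : ℝ) ≤ (orderOf τ : ℝ) := fun τ => by
    exact_mod_cast orderOf_pos τ
  -- the total, as a sum of the `P_τ`
  have hPT : wc_P (fun p => ∑ τ : L ≃ₐ[ℚ] L, (orderOf τ : ℝ) * (wc_N L p τ : ℝ)) s =
      ∑ τ : L ≃ₐ[ℚ] L, (orderOf τ : ℝ) * wc_P (fun p => (wc_N L p τ : ℝ)) s := by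
    rw [wc_P_sum Finset.univ (fun g p => (orderOf g : ℝ) * (wc_N L p g : ℝ)) hB1 hs1]
    exact Finset.sum_congr rfl (fun g _ => wc_P_const_mul _ _ _)
  rw [hPT] at hT
  -- lower bounds for each `ord τ · P_τ`
  have hlow' : ∀ τ : L ≃ₐ[ℚ] L, (1 - ε') * wc_m s - (orderOf τ : ℝ) * C τ ≤
      (orderOf τ : ℝ) * wc_P (fun p => (wc_N L p τ : ℝ)) s := by
    intro τ
    have h := mul_le_mul_of_nonneg_left (hlow τ) (le_trans zero_le_one (ho τ))
    have hne : (orderOf τ : ℝ) ≠ 0 := (lt_of_lt_of_le zero_lt_one (ho τ)).ne'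
    have e : (orderOf τ : ℝ) * ((1 - ε') / (orderOf τ : ℝ) * wc_m s - C τ) =
        (1 - ε') * wc_m s - (orderOf τ : ℝ) * C τ := by
      field_simp
    rw [e] at h
    exact h
  have hsumlow : ((Module.finrank ℚ L : ℝ) - 1) * ((1 - ε') * wc_m s) - K ≤
      ∑ τ ∈ (Finset.univ : Finset (L ≃ₐ[ℚ] L)).erase σ,
        (orderOf τ : ℝ) * wc_P (fun p => (wc_N L p τ : ℝ)) s := by
    have h := Finset.sum_le_sum (s := (Finset.univ : Finset (L ≃ₐ[ℚ] L)).erase σ)
      (fun τ _ => hlow' τ)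
    rw [Finset.sum_sub_distrib, Finset.sum_const, nsmul_eq_mul,
      Finset.card_erase_of_mem (Finset.mem_univ σ), Finset.card_univ, hcard,
      Nat.cast_sub hn1, Nat.cast_one] at h
    exact h
  have hsplit := Finset.add_sum_erase (Finset.univ : Finset (L ≃ₐ[ℚ] L))
    (fun τ => (orderOf τ : ℝ) * wc_P (fun p => (wc_N L p τ : ℝ)) s) (Finset.mem_univ σ)
  have hT2 := (abs_le.1 hT).2
  -- upper bound for `ord σ · P_σ`
  have hup : (orderOf σ : ℝ) * wc_P (fun p => (wc_N L p σ : ℝ)) s ≤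
      wc_m s + ((Module.finrank ℚ L : ℝ) - 1) * ε' * wc_m s + (CT + K) := by
    have e : (Module.finrank ℚ L : ℝ) * wc_m s -
        ((Module.finrank ℚ L : ℝ) - 1) * ((1 - ε') * wc_m s) =
        wc_m s + ((Module.finrank ℚ L : ℝ) - 1) * ε' * wc_m s := by ring
    linarith
  have hoσ : (0 : ℝ) < (orderOf σ : ℝ) := lt_of_lt_of_le zero_lt_one (ho σ)
  have hεm : ε' * wc_m s ≤ ε * wc_m s := by
    refine mul_le_mul_of_nonneg_right ?_ hm
    rw [← hε'n]
    exact le_mul_of_one_le_left hε'0.le (by exact_mod_cast hn1)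
  have hεm2 : ((Module.finrank ℚ L : ℝ) - 1) * ε' * wc_m s ≤ ε * wc_m s := by
    refine mul_le_mul_of_nonneg_right ?_ hm
    rw [← hε'n]
    nlinarith
  rw [abs_le]
  constructor
  · -- lower
    have h := hlow σ
    have e : (1 - ε') / (orderOf σ : ℝ) * wc_m s =
        1 / (orderOf σ : ℝ) * wc_m s - ε' * wc_m s / (orderOf σ : ℝ) := by
      field_simp
    have h2 : ε' * wc_m s / (orderOf σ : ℝ) ≤ ε' * wc_m s :=
      div_le_self (mul_nonneg hε'0.le hm) (ho σ)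
    have h3 := le_abs_self (C σ)
    have h4 := abs_nonneg (CT + K)
    rw [e] at h
    linarith
  · -- upper
    have h : wc_P (fun p => (wc_N L p σ : ℝ)) s - 1 / (orderOf σ : ℝ) * wc_m s ≤
        (((Module.finrank ℚ L : ℝ) - 1) * ε' * wc_m s + |CT + K|) / (orderOf σ : ℝ) := by
      rw [le_div_iff₀ hoσ]
      have e : (wc_P (fun p => (wc_N L p σ : ℝ)) s - 1 / (orderOf σ : ℝ) * wc_m s) *
          (orderOf σ : ℝ) = (orderOf σ : ℝ) * wc_P (fun p => (wc_N L p σ : ℝ)) s - wc_m s := by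
        field_simp
      rw [e]
      have := le_abs_self (CT + K)
      linarith
    have hY : 0 ≤ ((Module.finrank ℚ L : ℝ) - 1) * ε' * wc_m s + |CT + K| := by
      have h1 : (0 : ℝ) ≤ (Module.finrank ℚ L : ℝ) - 1 := by
        have : (1 : ℝ) ≤ (Module.finrank ℚ L : ℝ) := by exact_mod_cast hn1
        linarith
      positivity
    have h2 := div_le_self hY (ho σ)
    have h3 := abs_nonneg (C σ)
    linarith

end Fermat.Agent.DS
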