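/-
Project DS (S48), cell DS-C: **Chebotarev's density theorem over `ℚ`** in the form consumed by
DS-G — the closing one-liner of the cell (architect: helper19).

`dsC_seamC : ds_SeamC` and `dsC_chebotarev : dsg_Chebotarev` from
* `dcx_chebotarev`        (helper13, `Cheb/Crossing.lean`: the crossing argument; inputs: Deuring's
                           reduction `dcd_mass_cyclo`, the tower identity `dct_tower`, the counting
                           lemma `dcg_main` (helper12), the cyclotomic towers `dcy_*` (helper21),
                           Dirichlet's theorem in `log`-form `dcb_*`, `dca_*`);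
* `dsc_seamC_of_crossing` (`Cheb/Bridge.lean`, on top of helper24's export `dcc_export`).
-/
import Mathlib
import Fermat.Agent.DS.Cheb.Bridge
import Fermat.Agent.DS.Cheb.Crossing
import Fermat.Agent.DS.Group.Density

set_option autoImplicit false

namespace Fermat.Agent.DS

/-- **DS-C**: the Chebotarev seam. -/
theorem dsC_seamC : ds_SeamC :=
  dsc_seamC_of_crossing (fun L _ _ _ σ _ hε => dcx_chebotarev L σ hε)

/-- **DS-C**: Chebotarev's density theorem in the vocabulary of DS-G. -/
theorem dsC_chebotarev : dsg_Chebotarev := dsC_seamC

end Fermat.Agent.DS
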