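/-
DS-C (Chebotarev density), leaf [C-DEU], part 3: the norm residue map.

`L / ℚ` Galois, `H ≤ Gal(L/ℚ)` acting faithfully on a primitive `m`-th root of unity `ζ ∈ L`,
`E = L^H`.  For an ideal `I` of `𝓞 E` prime to `m`, `dcd_cmap H ζ I` is the unique `c ∈ H` with
`c ζ = ζ ^ N(I)`.
* `dcd_exists_rel_frob`  : for a prime `𝔓 ∤ m` of `E` there is `c ∈ H` with `c ζ = ζ ^ N(𝔓)`;
* `dcd_exists_of_coprime`: the same for every ideal prime to `m`;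
* `dcd_cmap_eq_iff`, `dcd_cmap_top`, `dcd_cmap_mul`, `dcd_cmap_ray` (`E` totally complex);
* `dcd_cmap_surjective`  : for `H = ⟨g⟩` the map is onto (from weak Chebotarev `wc_nf`).
Owner: helper13.  Prefix `dcd_`.
-/
import Mathlib
import Fermat.Agent.WC.Final
import Fermat.Agent.WC.FixedPrimes
import Fermat.Agent.S14.Artin.Cyclotomic
import Fermat.Agent.DS.Cheb.DeuCount

set_option autoImplicit false
set_option linter.style.haveILetI false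
set_option linter.unusedSectionVars false

open NumberField
open scoped Pointwise

namespace Fermat.Agent.DS

open Fermat.Agent.WC Fermat.Agent.S14

section relfrob

variable {L : Type*} [Field L] [NumberField L] [IsGalois ℚ L] (H : Subgroup (L ≃ₐ[ℚ] L))

/-- **Relative Frobenius on roots of unity**: for a nonzero prime `𝔓` of `E = L^H` not containing
`m` there is `c ∈ H` acting on the `m`-th roots of unity as `ζ ↦ ζ ^ N(𝔓)`. -/
theorem dcd_exists_rel_frob {m : ℕ} (hm : m ≠ 0) {ζ : L} (hζ : ζ ^ m = 1)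
    (𝔓 : Ideal (𝓞 ↥(IntermediateField.fixedField H))) (h𝔓 : 𝔓.IsPrime) (h𝔓0 : 𝔓 ≠ ⊥)
    (hm𝔓 : (m : 𝓞 ↥(IntermediateField.fixedField H)) ∉ 𝔓) :
    ∃ c ∈ H, c ζ = ζ ^ Ideal.absNorm 𝔓 := by
  set M := ↥(IntermediateField.fixedField H) with hM
  haveI := wcx_gal_int L H
  haveI : SMulCommClass ↥H (𝓞 M) (𝓞 L) := IsGaloisGroup.commutes
  haveI : Algebra.IsInvariant (𝓞 M) (𝓞 L) ↥H := IsGaloisGroup.isInvariant
  haveI := h𝔓
  obtain ⟨P, -, hPp, hPI⟩ := Ideal.exists_ideal_over_prime_of_isIntegral 𝔓 (⊥ : Ideal (𝓞 L))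
    (by simp [← RingHom.ker_eq_comap_bot])
  haveI := hPp
  have hP0 : P ≠ ⊥ := by
    rintro rfl
    apply h𝔓0
    rw [← hPI]
    exact Ideal.comap_bot_of_injective _ (FaithfulSMul.algebraMap_injective _ _)
  haveI : Finite (𝓞 L ⧸ P) := Ideal.finiteQuotientOfFreeOfNeBot P hP0
  obtain ⟨σ, hσ⟩ := IsArithFrobAt.exists_of_isInvariant (𝓞 M) ↥H P
  have hint : IsIntegral ℤ ζ := by
    refine ⟨Polynomial.X ^ m - 1, Polynomial.monic_X_pow_sub_C 1 hm, ?_⟩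
    simp [hζ]
  set z : 𝓞 L := ⟨ζ, hint⟩ with hzdef
  have hzζ : (algebraMap (𝓞 L) L) z = ζ := rfl
  have hz : z ^ m = 1 := by
    apply RingOfIntegers.ext
    show (algebraMap (𝓞 L) L) (z ^ m) = (algebraMap (𝓞 L) L) 1
    rw [map_pow, hzζ, hζ, map_one]
  have hmP : (m : 𝓞 L) ∉ P := by
    intro h
    apply hm𝔓
    rw [← hPI, Ideal.mem_comap, map_natCast]
    exact h
  have h2 := AlgHom.IsArithFrobAt.apply_of_pow_eq_one hσ hz hmP
  have hcard : Nat.card (𝓞 M ⧸ P.under (𝓞 M)) = Ideal.absNorm 𝔓 := by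
    rw [Ideal.under_def, hPI, Ideal.absNorm_apply, Submodule.cardQuot_apply]
  rw [hcard] at h2
  refine ⟨(σ : L ≃ₐ[ℚ] L), σ.2, ?_⟩
  have h3 := congrArg (algebraMap (𝓞 L) L) h2
  rw [map_pow, hzζ] at h3
  rw [← h3]
  rfl

end relfrob

section cmap

variable {L : Type*} [Field L] [NumberField L] [IsGalois ℚ L] (H : Subgroup (L ≃ₐ[ℚ] L))

/-- `(m)` is a proper ideal for `m ≠ 1` -/
theorem dcd_span_natCast_ne_top (K : Type*) [Field K] [NumberField K] {m : ℕ} (hm1 : m ≠ 1) :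
    Ideal.span {(m : 𝓞 K)} ≠ ⊤ := by
  intro h
  have h1 := congrArg Ideal.absNorm h
  rw [Ideal.absNorm_span_natCast, Ideal.absNorm_top] at h1
  have hpos : Module.finrank ℤ (𝓞 K) ≠ 0 := by
    rw [RingOfIntegers.rank]
    exact Module.finrank_pos.ne'
  rcases pow_eq_one_iff.1 h1 with h2 | h2
  · exact hm1 h2
  · exact hpos h2

/-- elements of `H` with the same action on `ζ` are equal, if the action is faithful -/
theorem dcd_eq_of_apply_eq {ζ : L} (hfaith : ∀ c ∈ H, c ζ = ζ → c = 1) {c c' : L ≃ₐ[ℚ] L}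
    (hc : c ∈ H) (hc' : c' ∈ H) (h : c ζ = c' ζ) : c = c' := by
  have h1 : (c'⁻¹ * c) ζ = ζ := by
    rw [AlgEquiv.mul_apply, h]
    exact c'.symm_apply_apply ζ
  have h2 := hfaith _ (H.mul_mem (H.inv_mem hc') hc) h1
  calc c = c' * (c'⁻¹ * c) := by group
    _ = c' := by rw [h2, mul_one]

/-- **Every ideal of `E = L^H` prime to `m` has a norm residue symbol in `H`.** -/
theorem dcd_exists_of_coprime {m : ℕ} (hm : m ≠ 0) (hm1 : m ≠ 1) {ζ : L} (hζ : ζ ^ m = 1)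
    (I : Ideal (𝓞 ↥(IntermediateField.fixedField H)))
    (hI : I ⊔ Ideal.span {(m : 𝓞 ↥(IntermediateField.fixedField H))} = ⊤) :
    ∃ c ∈ H, c ζ = ζ ^ Ideal.absNorm I := by
  induction I using UniqueFactorizationMonoid.induction_on_prime with
  | h₁ =>
    exfalso
    rw [Ideal.zero_eq_bot, bot_sup_eq] at hI
    exact dcd_span_natCast_ne_top _ hm1 hI
  | h₂ x hx =>
    rw [Ideal.isUnit_iff] at hx
    refine ⟨1, H.one_mem, ?_⟩
    rw [hx, Ideal.absNorm_top, pow_one]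
    rfl
  | h₃ a P ha hP ih =>
    have hP0 : P ≠ ⊥ := hP.ne_zero
    have hPprime : P.IsPrime := Ideal.isPrime_of_prime hP
    have hPm : P ⊔ Ideal.span {(m : 𝓞 ↥(IntermediateField.fixedField H))} = ⊤ := by
      rw [eq_top_iff, ← hI]
      exact sup_le_sup_right Ideal.mul_le_left _
    have ham : a ⊔ Ideal.span {(m : 𝓞 ↥(IntermediateField.fixedField H))} = ⊤ := by
      rw [eq_top_iff, ← hI]
      exact sup_le_sup_right Ideal.mul_le_right _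
    have hmP : (m : 𝓞 ↥(IntermediateField.fixedField H)) ∉ P := by
      intro h
      apply hPprime.ne_top
      rw [← hPm, left_eq_sup, Ideal.span_singleton_le_iff_mem]
      exact h
    obtain ⟨c₁, hc₁H, hc₁⟩ := dcd_exists_rel_frob H hm hζ P hPprime hP0 hmP
    obtain ⟨c₂, hc₂H, hc₂⟩ := ih ham
    refine ⟨c₁ * c₂, H.mul_mem hc₁H hc₂H, ?_⟩
    rw [AlgEquiv.mul_apply, hc₂, map_pow, hc₁, ← pow_mul, map_mul]

/-- **The norm residue map** of `E = L^H` with values in `H`: the element of `H` acting on `ζ` as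
`ζ ↦ ζ ^ N(I)` (junk value `1` if there is none). -/
noncomputable def dcd_cmap (ζ : L) (I : Ideal (𝓞 ↥(IntermediateField.fixedField H))) : ↥H :=
  open Classical in
  if h : ∃ c : ↥H, (c : L ≃ₐ[ℚ] L) ζ = ζ ^ Ideal.absNorm I then h.choose else 1

theorem dcd_cmap_eq {ζ : L} (hfaith : ∀ c ∈ H, c ζ = ζ → c = 1)
    {I : Ideal (𝓞 ↥(IntermediateField.fixedField H))} {c : ↥H}
    (hc : (c : L ≃ₐ[ℚ] L) ζ = ζ ^ Ideal.absNorm I) : dcd_cmap H ζ I = c := by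
  have hex : ∃ c : ↥H, (c : L ≃ₐ[ℚ] L) ζ = ζ ^ Ideal.absNorm I := ⟨c, hc⟩
  rw [dcd_cmap, dif_pos hex]
  apply Subtype.ext
  exact dcd_eq_of_apply_eq H hfaith hex.choose.2 c.2 (hex.choose_spec.trans hc.symm)

theorem dcd_cmap_apply {m : ℕ} (hm : m ≠ 0) (hm1 : m ≠ 1) {ζ : L} (hζ : ζ ^ m = 1)
    (hfaith : ∀ c ∈ H, c ζ = ζ → c = 1) (I : Ideal (𝓞 ↥(IntermediateField.fixedField H)))
    (hI : I ⊔ Ideal.span {(m : 𝓞 ↥(IntermediateField.fixedField H))} = ⊤) :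
    (dcd_cmap H ζ I : L ≃ₐ[ℚ] L) ζ = ζ ^ Ideal.absNorm I := by
  obtain ⟨c, hcH, hc⟩ := dcd_exists_of_coprime H hm hm1 hζ I hI
  rw [dcd_cmap_eq H hfaith (c := ⟨c, hcH⟩) hc]
  exact hc

theorem dcd_cmap_eq_iff {m : ℕ} (hm : m ≠ 0) (hm1 : m ≠ 1) {ζ : L} (hζ : ζ ^ m = 1)
    (hfaith : ∀ c ∈ H, c ζ = ζ → c = 1) (I : Ideal (𝓞 ↥(IntermediateField.fixedField H)))
    (hI : I ⊔ Ideal.span {(m : 𝓞 ↥(IntermediateField.fixedField H))} = ⊤) (c : ↥H) :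
    dcd_cmap H ζ I = c ↔ (c : L ≃ₐ[ℚ] L) ζ = ζ ^ Ideal.absNorm I := by
  constructor
  · rintro rfl
    exact dcd_cmap_apply H hm hm1 hζ hfaith I hI
  · intro h
    exact dcd_cmap_eq H hfaith h

theorem dcd_cmap_top {ζ : L} (hfaith : ∀ c ∈ H, c ζ = ζ → c = 1) :
    dcd_cmap H ζ ⊤ = 1 := by
  apply dcd_cmap_eq H hfaith
  rw [Ideal.absNorm_top, pow_one]
  rfl

theorem dcd_cmap_mul {m : ℕ} (hm : m ≠ 0) (hm1 : m ≠ 1) {ζ : L} (hζ : ζ ^ m = 1)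
    (hfaith : ∀ c ∈ H, c ζ = ζ → c = 1) (I J : Ideal (𝓞 ↥(IntermediateField.fixedField H)))
    (hI : I ⊔ Ideal.span {(m : 𝓞 ↥(IntermediateField.fixedField H))} = ⊤)
    (hJ : J ⊔ Ideal.span {(m : 𝓞 ↥(IntermediateField.fixedField H))} = ⊤) :
    dcd_cmap H ζ (I * J) = dcd_cmap H ζ I * dcd_cmap H ζ J := by
  apply dcd_cmap_eq H hfaith
  have h1 := dcd_cmap_apply H hm hm1 hζ hfaith I hI
  have h2 := dcd_cmap_apply H hm hm1 hζ hfaith J hJ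
  show ((dcd_cmap H ζ I : L ≃ₐ[ℚ] L) * (dcd_cmap H ζ J : L ≃ₐ[ℚ] L)) ζ = _
  rw [AlgEquiv.mul_apply, h2, map_pow, h1, ← pow_mul, map_mul]

theorem dcd_cmap_ray [IsTotallyComplex ↥(IntermediateField.fixedField H)] {m : ℕ} {ζ : L}
    (hζ : ζ ^ m = 1) (hfaith : ∀ c ∈ H, c ζ = ζ → c = 1)
    (γ : 𝓞 ↥(IntermediateField.fixedField H))
    (hγ : γ - 1 ∈ Ideal.span {(m : 𝓞 ↥(IntermediateField.fixedField H))}) :
    dcd_cmap H ζ (Ideal.span {γ}) = 1 := by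
  apply dcd_cmap_eq H hfaith
  have h1 := am_absNorm_span_singleton_modEq_one hγ
  rw [pow_eq_pow_mod _ hζ, h1, ← pow_eq_pow_mod _ hζ, pow_one]
  rfl

end cmap

section surj

variable {L : Type*} [Field L] [NumberField L] [IsGalois ℚ L]

/-- a Frobenius element relative to `E = L^H` acts on roots of unity as `ζ ↦ ζ ^ N(𝔓)` -/
theorem dcd_rel_frob_apply (H : Subgroup (L ≃ₐ[ℚ] L)) {m : ℕ} (hm : m ≠ 0) {ζ : L}
    (hζ : ζ ^ m = 1) (P : Ideal (𝓞 L)) (hP : P.IsPrime) (hmP : (m : 𝓞 L) ∉ P) (σ : ↥H)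
    (hσ : ∀ x : 𝓞 L, σ • x -
      x ^ Nat.card (𝓞 ↥(IntermediateField.fixedField H) ⧸
        P.under (𝓞 ↥(IntermediateField.fixedField H))) ∈ P) :
    (σ : L ≃ₐ[ℚ] L) ζ =
      ζ ^ Ideal.absNorm (P.under (𝓞 ↥(IntermediateField.fixedField H))) := by
  set M := ↥(IntermediateField.fixedField H) with hM
  haveI := wcx_gal_int L H
  haveI : SMulCommClass ↥H (𝓞 M) (𝓞 L) := IsGaloisGroup.commutes
  haveI := hP
  have hσ' : IsArithFrobAt (𝓞 M) σ P := hσ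
  have hint : IsIntegral ℤ ζ := by
    refine ⟨Polynomial.X ^ m - 1, Polynomial.monic_X_pow_sub_C 1 hm, ?_⟩
    simp [hζ]
  set z : 𝓞 L := ⟨ζ, hint⟩ with hzdef
  have hzζ : (algebraMap (𝓞 L) L) z = ζ := rfl
  have hz : z ^ m = 1 := by
    apply RingOfIntegers.ext
    show (algebraMap (𝓞 L) L) (z ^ m) = (algebraMap (𝓞 L) L) 1
    rw [map_pow, hzζ, hζ, map_one]
  have h2 := AlgHom.IsArithFrobAt.apply_of_pow_eq_one hσ' hz hmP
  have hcard : Nat.card (𝓞 M ⧸ P.under (𝓞 M)) = Ideal.absNorm (P.under (𝓞 M)) := by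
    rw [Ideal.absNorm_apply, Submodule.cardQuot_apply]
  rw [hcard] at h2
  have h3 := congrArg (algebraMap (𝓞 L) L) h2
  rw [map_pow, hzζ] at h3
  rw [← h3]
  rfl

/-- powers of an element acting as `ζ ↦ ζ ^ N` act as `ζ ↦ ζ ^ (N ^ n)` -/
theorem dcd_pow_apply_root {ζ : L} {N : ℕ} {c : L ≃ₐ[ℚ] L} (hc : c ζ = ζ ^ N) (n : ℕ) :
    (c ^ n) ζ = ζ ^ N ^ n := by
  induction n with
  | zero => simp
  | succ n ih =>
    rw [pow_succ, AlgEquiv.mul_apply, hc, map_pow, ih, ← pow_mul, pow_succ]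

/-- **The norm residue map of `L^H` is onto `H`** for a cyclic `H` (weak Chebotarev: some prime of
`L` over an unramified `ℓ ∤ m` has a Frobenius element `φ` with `g ∈ ⟨φ⟩`; the prime of `L^H`
below it has a norm residue symbol generating `H = ⟨g⟩`). -/
theorem dcd_cmap_surjective' (H : Subgroup (L ≃ₐ[ℚ] L)) (g : L ≃ₐ[ℚ] L) (hgH : g ∈ H)
    (hgen : ∀ x ∈ H, x ∈ Subgroup.zpowers g) {m : ℕ} (hm : m ≠ 0) {ζ : L}
    (hζ : ζ ^ m = 1) (hfaith : ∀ c ∈ H, c ζ = ζ → c = 1) (x : ↥H) :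
    ∃ I : Ideal (𝓞 ↥(IntermediateField.fixedField H)),
      I ⊔ Ideal.span {(m : 𝓞 ↥(IntermediateField.fixedField H))} = ⊤ ∧
        dcd_cmap H ζ I = x := by
  obtain ⟨ℓ, P, φ, hℓ, hℓS, hu, hP, hℓP, hφ, hgφ⟩ := wc_nf L m.primeFactors g
  have hℓm : Nat.Coprime ℓ m := by
    rw [Nat.Prime.coprime_iff_not_dvd hℓ]
    intro hdvd
    exact hℓS (Nat.mem_primeFactors.2 ⟨hℓ, hdvd, hm⟩)
  set M := ↥(IntermediateField.fixedField H) with hM
  haveI := hP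
  haveI := wcb_c_isGaloisGroup H
  set 𝔓 : Ideal (𝓞 M) := P.under (𝓞 M) with h𝔓
  have hℓ𝔓 : (ℓ : 𝓞 M) ∈ 𝔓 := by
    rw [h𝔓, Ideal.under_def, Ideal.mem_comap, map_natCast]
    exact hℓP
  haveI : 𝔓.IsPrime := Ideal.IsPrime.under _ P
  haveI : P.LiesOver 𝔓 := ⟨rfl⟩
  haveI : Finite (𝓞 L ⧸ P) := wcb_c_finite_quot hℓ P hℓP
  have h𝔓ne : 𝔓 ≠ ⊥ := wcb_c_ne_bot hℓ 𝔓 hℓ𝔓
  haveI : 𝔓.IsMaximal := Ideal.IsPrime.isMaximal inferInstance h𝔓ne
  haveI : Finite (𝓞 M ⧸ 𝔓) := Ideal.finiteQuotientOfFreeOfNeBot 𝔓 h𝔓ne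
  have hin : ∀ h : ↥H, h • P = P → (∀ x : 𝓞 L, h • x - x ∈ P) → h = 1 := by
    intro h _ hh
    have : (h : L ≃ₐ[ℚ] L) = 1 := hu P hP hℓP h hh
    exact Subtype.ext this
  obtain ⟨σ, hσst, hσfr, hσgen⟩ := wcb_c_exists_frob_gen (G := ↥H) 𝔓 P hin
  have hmP : (m : 𝓞 L) ∉ P := dcd_natCast_notMem hℓm hP hℓP
  have hσζ : (σ : L ≃ₐ[ℚ] L) ζ = ζ ^ Ideal.absNorm 𝔓 :=
    dcd_rel_frob_apply H hm hζ P hP hmP σ hσfr
  -- `g` stabilises `P`
  have hgP : g • P = P := by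
    have hφP : φ • P = P := wcb_frob_smul hℓ P hP hℓP hφ
    have hle : Subgroup.zpowers φ ≤ MulAction.stabilizer (L ≃ₐ[ℚ] L) P := by
      rw [Subgroup.zpowers_le]
      exact hφP
    exact hle hgφ
  have hg'σ : (⟨g, hgH⟩ : ↥H) ∈ Subgroup.zpowers σ := hσgen ⟨g, hgH⟩ hgP
  -- `x` is a power of `σ`
  have hxσ : x ∈ Subgroup.zpowers σ := by
    obtain ⟨k, hk⟩ := Subgroup.mem_zpowers_iff.1 (hgen x x.2)
    have hx : x = (⟨g, hgH⟩ : ↥H) ^ k := by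
      apply Subtype.ext
      rw [Subgroup.coe_zpow]
      exact hk.symm
    rw [hx]
    exact Subgroup.zpow_mem _ hg'σ k
  obtain ⟨n, hn⟩ : ∃ n : ℕ, σ ^ n = x := by
    have := (mem_powers_iff_mem_zpowers (x := σ) (y := x)).2 hxσ
    exact (Submonoid.mem_powers_iff x σ).1 this
  -- the ideal
  have hm𝔓 : (m : 𝓞 M) ∉ 𝔓 := by
    intro h
    apply hmP
    rw [h𝔓, Ideal.under_def, Ideal.mem_comap, map_natCast] at h
    exact h
  have h𝔓m : 𝔓 ⊔ Ideal.span {(m : 𝓞 M)} = ⊤ := by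
    by_contra hne
    apply hm𝔓
    have h1 : 𝔓 = 𝔓 ⊔ Ideal.span {(m : 𝓞 M)} :=
      Ideal.IsMaximal.eq_of_le inferInstance hne le_sup_left
    rw [h1]
    exact Ideal.mem_sup_right (Ideal.subset_span rfl)
  refine ⟨𝔓 ^ n, Ideal.pow_sup_eq_top h𝔓m, ?_⟩
  rw [← hn]
  apply dcd_cmap_eq H hfaith
  rw [map_pow, Subgroup.coe_pow]
  exact dcd_pow_apply_root hσζ n

/-- `dcd_cmap_surjective'` for `H = ⟨g⟩`. -/
theorem dcd_cmap_surjective (g : L ≃ₐ[ℚ] L) {m : ℕ} (hm : m ≠ 0) {ζ : L}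
    (hζ : ζ ^ m = 1) (hfaith : ∀ c ∈ Subgroup.zpowers g, c ζ = ζ → c = 1)
    (x : ↥(Subgroup.zpowers g)) :
    ∃ I : Ideal (𝓞 ↥(IntermediateField.fixedField (Subgroup.zpowers g))),
      I ⊔ Ideal.span {(m : 𝓞 ↥(IntermediateField.fixedField (Subgroup.zpowers g)))} = ⊤ ∧
        dcd_cmap (Subgroup.zpowers g) ζ I = x :=
  dcd_cmap_surjective' (Subgroup.zpowers g) g (Subgroup.mem_zpowers g) (fun _ h => h) hm hζ
    hfaith x

end surj

end Fermat.Agent.DS
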